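import Fermat.Agent.Node.SlopeMain
import Fermat.Agent.MazurQ.Kum
import Fermat.Agent.QComp.DivDescent

/-!
# Slopes at the nodes of torsion classes fixed by inertia
-/

set_option autoImplicit false
set_option linter.unusedSectionVars false
set_option linter.style.haveILetI false
set_option linter.unusedVariables false

noncomputable section

open AlgebraicCurve ModularCurve IntermediateField Module

namespace Fermat.Agent.Node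

open Fermat.Agent.FF Fermat.Agent.Red Fermat.Agent.QVal Fermat.Agent.JZ Fermat.Agent.QComp
open Fermat.Agent.ESh Fermat.Agent.MazurP Fermat.Agent.MazurQ

local notation "Qb" => AlgebraicClosure ℚ
local notation "Γℚ" => (AlgebraicClosure ℚ ≃ₐ[ℚ] AlgebraicClosure ℚ)

variable {k : Type*} [Field k] {A : ValuationSubring Qb} {π : A →+* k} {M q : ℕ} [NeZero M]
  [NeZero q] [hqf : Fact q.Prime] {hA : A.LiesOverPrime q} {hπ : ∀ a : A, π a = 0 ↔ ¬ IsUnit a}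
  {hs : Function.Surjective π} {hM : ¬ q ∣ M}

variable [CharP k q] [PerfectRing k q] [IsAlgClosed k] [IsFnField k (modularFunctionFieldFullC k M)]
variable [FiniteDimensional k⟮RedQ.xj k M⟯ (modularFunctionFieldFullC k M)]
  [Algebra.IsSeparable k⟮RedQ.xj k M⟯ (modularFunctionFieldFullC k M)]

local notation "𝓗" => twoLevel hA hπ hs hM

variable {n : ℕ} {x : JZero (M * q)} {b₁ b₂ : modularFunctionFieldFullC k M}

/-- **(S)** for `HasRed`, first component -/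
theorem hasRed_dvd1 {Q : Place k (modularFunctionFieldFullC k M)} (hQs : ∀ s, Q ≠ place1 𝓗 s)
    (h : HasRed hA hπ hs hM n x b₁ b₂) : (n : ℤ) ∣ Q.ord b₁ := by
  obtain ⟨D, y, γ₁, γ₂, hD, hy, hdiv, hγ₁, hγ₂, hb₁, hb₂, h1, h2⟩ := h
  refine dvd_ord_red1 hQs h1 hb₁ fun P => ?_
  rw [P.ord_mul ((map_ne_zero _).2 hγ₁) hy, FF.ord_algebraMap, zero_add, ← hdiv]
  exact dvd_mul_right _ _

/-- **(S)** for `HasRed`, second component -/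
theorem hasRed_dvd2 {Q : Place k (modularFunctionFieldFullC k M)} (hQs : ∀ s, Q ≠ place2 𝓗 s)
    (h : HasRed hA hπ hs hM n x b₁ b₂) : (n : ℤ) ∣ Q.ord b₂ := by
  obtain ⟨D, y, γ₁, γ₂, hD, hy, hdiv, hγ₁, hγ₂, hb₁, hb₂, h1, h2⟩ := h
  refine dvd_ord_red2 hQs h2 hb₂ fun P => ?_
  rw [P.ord_mul ((map_ne_zero _).2 hγ₂) hy, FF.ord_algebraMap, zero_add, ← hdiv]
  exact dvd_mul_right _ _

/-- **(T1)** for `HasRed` -/
theorem hasRed_dvd_add (hr : ∃ r : ℕ, r.Prime ∧ r ∣ M ∧ r % 12 = 11)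
    (s : (regAlg k (RedQ.xj k M ^ (q + 1)) ⧸ (𝓗).cond) →ₐ[k] k)
    (h : HasRed hA hπ hs hM n x b₁ b₂) :
    (n : ℤ) ∣ (place1 𝓗 s).ord b₁ + (place2 𝓗 s).ord b₂ := by
  obtain ⟨D, y, γ₁, γ₂, hD, hy, hdiv, hγ₁, hγ₂, hb₁, hb₂, h1, h2⟩ := h
  exact dvd_ord_add hr s (fun P => ⟨_, (hdiv P).symm⟩) h1 hb₁ h2 hb₂

theorem dvd_ord_congr (hn : n ≠ 0) {e b b' : modularFunctionFieldFullC k M} (hb : b ≠ 0)
    (he : e ≠ 0) (h : b' = b * e ^ n) (Q : Place k (modularFunctionFieldFullC k M)) {c : ℤ}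
    (h1 : (n : ℤ) ∣ Q.ord b' - c) : (n : ℤ) ∣ Q.ord b - c := by
  have h2 : Q.ord b - c = (Q.ord b' - c) - n * Q.ord e := by
    rw [h, Q.ord_mul hb (pow_ne_zero _ he), ord_pow]
    ring
  rw [h2]
  exact dvd_sub h1 (dvd_mul_right _ _)

/-- **(T)** the slopes at the nodes of a torsion class fixed by inertia are constant. -/
theorem hasRed_slope (hr : ∃ r : ℕ, r.Prime ∧ r ∣ M ∧ r % 12 = 11) (hn : n ≠ 0)
    (hx : ∀ t ∈ A.inertiaSubgroupIn ℚ, t • x = x) (h : HasRed hA hπ hs hM n x b₁ b₂) :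
    ∃ c : ℤ, ∀ s : (regAlg k (RedQ.xj k M ^ (q + 1)) ⧸ (𝓗).cond) →ₐ[k] k,
      (n : ℤ) ∣ (place1 𝓗 s).ord b₁ - c ∧ (n : ℤ) ∣ (place2 𝓗 s).ord b₂ + c := by
  obtain ⟨D, hD, f, hf0, hf, hdiv⟩ := div_descent A x n hn h.smul_eq_zero hx
  obtain ⟨c, hc⟩ := exists_slope (hA := hA) (hπ := hπ) (hs := hs) (hM := hM) hr hf0 hf hn
    (fun P => ⟨_, (hdiv P).symm⟩)
  obtain ⟨γ₁, hγ₁, f₁, hf₁, h1⟩ := (rInf1 M q hA hπ hs hM).exists_isRed_mul hf0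
  obtain ⟨γ₂, hγ₂, f₂, hf₂, h2⟩ := (rZero1 M q hA hπ hs hM).exists_isRed_mul hf0
  have h' : HasRed hA hπ hs hM n x f₁ f₂ :=
    ⟨D, f, γ₁, γ₂, hD, hf0, hdiv, hγ₁, hγ₂, hf₁, hf₂, h1, h2⟩
  obtain ⟨⟨e₁, he₁, h3⟩, e₂, he₂, h4⟩ := h.unique hn h'
  refine ⟨c, fun s => ⟨?_, ?_⟩⟩
  · exact dvd_ord_congr hn h.ne1 he₁ h3 _ ((hc s).1 γ₁ f₁ hf₁ h1)
  · have h5 := (hc s).2 γ₂ f₂ hf₂ h2
    have h6 : ∀ z : ℤ, z + c = z - (-c) := fun z => by ring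
    rw [h6] at h5 ⊢
    exact dvd_ord_congr hn h.ne2 he₂ h4 _ h5

/-- every torsion class gives a `HasRed` extending a given Kummer reduction on the first
component -/
theorem exists_hasRed_of_kred (h : KRed (rInf1 M q hA hπ hs hM) n x b₁) :
    ∃ b₂, HasRed hA hπ hs hM n x b₁ b₂ := by
  obtain ⟨y, ⟨D, hD, hy, hdiv⟩, hb₁, h1⟩ := h
  obtain ⟨γ₂, hγ₂, b₂, hb₂, h2⟩ := (rZero1 M q hA hπ hs hM).exists_isRed_mul hy
  exact ⟨b₂, D, y, 1, γ₂, hD, hy, hdiv, one_ne_zero, hγ₂, hb₁, hb₂, by rwa [map_one, one_mul], h2⟩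

theorem exists_hasRed_of_kred' (h : KRed (rZero1 M q hA hπ hs hM) n x b₂) :
    ∃ b₁, HasRed hA hπ hs hM n x b₁ b₂ := by
  obtain ⟨y, ⟨D, hD, hy, hdiv⟩, hb₂, h2⟩ := h
  obtain ⟨γ₁, hγ₁, b₁, hb₁, h1⟩ := (rInf1 M q hA hπ hs hM).exists_isRed_mul hy
  exact ⟨b₁, D, y, γ₁, 1, hD, hy, hdiv, hγ₁, one_ne_zero, hb₁, hb₂, h1, by rwa [map_one, one_mul]⟩

/-- **(T)**, in terms of Kummer reductions on the first component -/
theorem kred_slope (hr : ∃ r : ℕ, r.Prime ∧ r ∣ M ∧ r % 12 = 11) (hn : n ≠ 0) (hnx : n • x = 0)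
    (hx : ∀ t ∈ A.inertiaSubgroupIn ℚ, t • x = x) :
    ∃ c : ℤ, (∀ b, KRed (rInf1 M q hA hπ hs hM) n x b → ∀ s, (n : ℤ) ∣ (place1 𝓗 s).ord b - c) ∧
      ∀ b, KRed (rZero1 M q hA hπ hs hM) n x b → ∀ s, (n : ℤ) ∣ (place2 𝓗 s).ord b + c := by
  obtain ⟨b₁, b₂, h⟩ := exists_hasRed (hA := hA) (hπ := hπ) (hs := hs) (hM := hM) hnx
  obtain ⟨c, hc⟩ := hasRed_slope hr hn hx h
  refine ⟨c, fun b hb s => ?_, fun b hb s => ?_⟩
  · obtain ⟨b₂', h'⟩ := exists_hasRed_of_kred hb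
    obtain ⟨⟨e₁, he₁, h3⟩, -⟩ := h'.unique hn h
    exact dvd_ord_congr hn h'.ne1 he₁ h3 _ (hc s).1
  · obtain ⟨b₁', h'⟩ := exists_hasRed_of_kred' hb
    obtain ⟨-, e₂, he₂, h4⟩ := h'.unique hn h
    have h6 : ∀ z : ℤ, z + c = z - (-c) := fun z => by ring
    have h5 := (hc s).2
    rw [h6] at h5 ⊢
    exact dvd_ord_congr hn h'.ne2 he₂ h4 _ h5

end Fermat.Agent.Node
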