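import Fermat.Agent.Node.TubeAbs
import Fermat.Agent.QComp.DivDescent2
import Fermat.Agent.QComp.ModStrong

/-!
# The tubes over the nodes of `X₀(M q)` modulo `q`
-/

set_option autoImplicit false
set_option linter.unusedSectionVars false
set_option linter.style.haveILetI false
set_option linter.unusedVariables false

noncomputable section

open AlgebraicCurve ModularCurve IntermediateField Module

namespace Fermat.Agent.Node

open Fermat.Agent.FF Fermat.Agent.Red Fermat.Agent.QVal Fermat.Agent.JZ Fermat.Agent.QComp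
open Fermat.Agent.ESh Fermat.Agent.MazurP

local notation "Qb" => AlgebraicClosure ℚ
local notation "Γℚ" => (AlgebraicClosure ℚ ≃ₐ[ℚ] AlgebraicClosure ℚ)

section Span

variable {N : ℕ} [NeZero N]

/-- stable subspaces are spanned by fixed functions -/
theorem le_span_fixed (A : ValuationSubring Qb) (V : Submodule Qb (FB N)) [FiniteDimensional Qb V]
    (hV : ∀ σ ∈ A.inertiaSubgroupIn ℚ, ∀ f ∈ V, gal N σ f ∈ V) :
    V ≤ Submodule.span Qb {f | f ∈ V ∧ f ∈ ifixField N A} := by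
  obtain ⟨r, p, w, hw, hpiv, hspan⟩ := exists_pivots (cfE (FB N)) _ V rfl fun f hf h0 => by
    apply Subtype.ext
    ext n
    exact h0 n
  have hfix : ∀ i, w i ∈ ifixField N A := by
    intro i σ hσ
    rw [hspan _ (hV σ hσ _ (hw i))]
    have h1 : ∀ j, cfE (FB N) (p j) (gal N σ (w i)) = if i = j then 1 else 0 := by
      intro j
      have h2 : cfE (FB N) (p j) (gal N σ (w i)) = σ (cfE (FB N) (p j) (w i)) := rfl
      rw [h2, hpiv]
      split_ifs
      · exact map_one σ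
      · exact map_zero σ
    simp only [h1, ite_smul, one_smul, zero_smul, Finset.sum_ite_eq, Finset.mem_univ, if_true]
  intro f hf
  rw [hspan f hf]
  exact Submodule.sum_mem _ fun i _ => Submodule.smul_mem _ _
    (Submodule.subset_span ⟨hw i, hfix i⟩)

end Span

section Main

variable {k : Type*} [Field k] {A : ValuationSubring Qb} {π : A →+* k} {M q : ℕ} [NeZero M]
  [NeZero q] [hqf : Fact q.Prime] {hA : A.LiesOverPrime q} {hπ : ∀ a : A, π a = 0 ↔ ¬ IsUnit a}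
  {hs : Function.Surjective π} {hM : ¬ q ∣ M}

/-- the base level of the fixed functions -/
theorem lev_ifix : Lev (rInf1 M q hA hπ hs hM) (rZero1 M q hA hπ hs hM) (ifixField (M * q) A)
    (q : A) where
  mem σ hσ := by
    rw [gal_algebraMap]
    congr 1
    rw [show ((q : A) : Qb) = (q : Qb) by simp]
    exact map_natCast σ q
  ne := by
    intro h
    have h1 : ((q : A) : Qb) = 0 := by rw [h]; rfl
    have h2 : (q : Qb) = 0 := by simpa using h1
    exact hqf.out.ne_zero (by exact_mod_cast h2)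
  red := by
    haveI := charP_of_liesOverPrime hA hπ
    rw [map_natCast, CharP.cast_eq_zero]
  unif1 g hg h0 := by
    have h1 := div_q_inf (hA := hA) (hπ := hπ) (hs := hs) (hM := hM) hg h0
    rw [show ((q : A) : Qb) = (q : Qb) by simp, div_eq_inv_mul, ← map_inv₀]
    exact h1
  unif2 g hg h0 := by
    have h1 := div_q_zero (hA := hA) (hπ := hπ) (hs := hs) (hM := hM) hg h0
    rw [show ((q : A) : Qb) = (q : Qb) by simp, div_eq_inv_mul, ← map_inv₀]
    exact h1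

theorem arch_of_liesOverPrime (hA : A.LiesOverPrime q) (hπ : ∀ a : A, π a = 0 ↔ ¬ IsUnit a)
    (a d : A) (ha : a ≠ 0) (hd : π d = 0) : ∃ n : ℕ, ¬ d ^ n ∣ a := by
  have h1 : (d : Qb) ∈ A.nonunits := by
    rw [A.coe_mem_nonunits_iff, IsLocalRing.mem_maximalIdeal, mem_nonunits_iff, ← hπ]
    exact hd
  obtain ⟨n, hn⟩ := exists_pow_mul_mem hA h1 ((a : Qb)⁻¹)
  refine ⟨n, ?_⟩
  rintro ⟨v, hv⟩
  have h2 := hn n le_rfl
  have ha' : (a : Qb) ≠ 0 := fun h => ha (Subtype.ext h)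
  have hv' : (a : Qb) = (d : Qb) ^ n * v := congrArg Subtype.val hv
  have hd0 : (d : Qb) ^ n ≠ 0 := by
    intro h0
    rw [h0, zero_mul] at hv'
    exact ha' hv'
  rw [Frob.mem_nonunits_iff_inv] at h2
  refine h2.resolve_left (mul_ne_zero hd0 (inv_ne_zero ha')) ?_
  have h3 : ((d : Qb) ^ n * (a : Qb)⁻¹)⁻¹ = v := by
    rw [mul_inv, inv_inv, hv', ← mul_assoc, inv_mul_cancel₀ hd0, one_mul]
  rw [h3]
  exact v.2

variable [CharP k q] [PerfectRing k q] [IsAlgClosed k] [IsFnField k (modularFunctionFieldFullC k M)]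

local notation "𝓗" => twoLevel hA hπ hs hM

theorem isReduced_nodes :
    IsReduced (regAlg k (RedQ.xj k M ^ (q + 1)) ⧸ (𝓗).cond) := by
  obtain ⟨φ, hφ⟩ := Frob.exists_isFrobeniusAt A hqf.out hA
  exact (𝓗).isReduced_quot (frobStructure hφ)

theorem finite_nodes : Module.Finite k (regAlg k (RedQ.xj k M ^ (q + 1)) ⧸ (𝓗).cond) :=
  ((𝓗).finrank_quot hs).1

/-- **Lifting of glued pairs to functions fixed by inertia.** -/
theorem exists_ifix_lift {b₁ b₂ : modularFunctionFieldFullC k M}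
    (hb : TwoLevel.Glued (rInf1 M q hA hπ hs hM) (rZero1 M q hA hπ hs hM) (al1 M q (jB M) *
      (w1 hqf.out hM : FB (M * q) →ₐ[Qb] FB (M * q)) (al1 M q (jB M))) b₁ b₂) :
    ∃ f ∈ regAlg Qb (al1 M q (jB M) *
      (w1 hqf.out hM : FB (M * q) →ₐ[Qb] FB (M * q)) (al1 M q (jB M))), f ∈ ifixField (M * q) A ∧
      (rInf1 M q hA hπ hs hM).IsRed f b₁ ∧ (rZero1 M q hA hπ hs hM).IsRed f b₂ := by
  haveI := (𝓗).twoRed.fd
  obtain ⟨f, hf, h1, h2⟩ := hb
  obtain ⟨m, hm⟩ := exists_mem_Lm hf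
  have hx0 : al1 M q (jB M) *
      (w1 hqf.out hM : FB (M * q) →ₐ[Qb] FB (M * q)) (al1 M q (jB M)) ≠ 0 :=
    transcendental_ne_zero (transcendental_of_isRed (𝓗).r1 (𝓗).txb)
  have hstab : ∀ σ ∈ A.inertiaSubgroupIn ℚ, ∀ f ∈ riemannRochSpace (m • RR.poleDiv (K := Qb)
      (al1 M q (jB M) * (w1 hqf.out hM : FB (M * q) →ₐ[Qb] FB (M * q)) (al1 M q (jB M)))),
      gal (M * q) σ f ∈ riemannRochSpace (m • RR.poleDiv (K := Qb)
        (al1 M q (jB M) * (w1 hqf.out hM : FB (M * q) →ₐ[Qb] FB (M * q)) (al1 M q (jB M)))) := by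
    intro σ hσ f hf
    have h := semiRed_inertia hA hπ hs hM hσ
    exact mem_Lm_semi h.comm hx0 h.fix hf
  obtain ⟨g, hg, hgE, hg1, hg2⟩ := exists_fixed_lift_pair (𝓗).twoRed hs (lev_ifix)
    (fun a ha => by
      obtain ⟨n, hn⟩ := arch_of_liesOverPrime hA hπ a (q : A) ha
        (lev_ifix (hA := hA) (hπ := hπ) (hs := hs) (hM := hM)).red
      exact ⟨n, hn⟩)
    (fun c => by
      obtain ⟨a, ha, haσ⟩ := exists_fixed_lift hA hπ hs c
      exact ⟨a, ha, IFix.algebraMap haσ⟩)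
    (riemannRochSpace (m • RR.poleDiv (K := Qb) (al1 M q (jB M) *
      (w1 hqf.out hM : FB (M * q) →ₐ[Qb] FB (M * q)) (al1 M q (jB M)))))
    (le_span_fixed A _ hstab) (b := (b₁, b₂)) ⟨f, hm, h1, h2⟩
  exact ⟨g, mem_regAlg_of_mem_Lm hg, hgE, hg1, hg2⟩

variable [FiniteDimensional k⟮RedQ.xj k M⟯ (modularFunctionFieldFullC k M)]
  [Algebra.IsSeparable k⟮RedQ.xj k M⟯ (modularFunctionFieldFullC k M)]

/-- **The tube structure at a node of `X₀(M q)` modulo `q`.** -/
theorem tubeData (hdisc : ∀ S : Finset (FB (M * q)), ∃ (E : Subfield (FB (M * q))) (d : A),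
      ifixField (M * q) A ≤ E ∧ (∀ x ∈ S, x ∈ E) ∧
        Lev (rInf1 M q hA hπ hs hM) (rZero1 M q hA hπ hs hM) E d)
    (s : (regAlg k (RedQ.xj k M ^ (q + 1)) ⧸ (𝓗).cond) →ₐ[k] k) :
    TubeData (rInf1 M q hA hπ hs hM) (rZero1 M q hA hπ hs hM) (place1 𝓗 s) (place2 𝓗 s)
      (tube 𝓗 s) (ifixField (M * q) A) (q : A) := by
  haveI := isReduced_nodes (hA := hA) (hπ := hπ) (hs := hs) (hM := hM)
  haveI := finite_nodes (hA := hA) (hπ := hπ) (hs := hs) (hM := hM)
  exact tubeData_of 𝓗 (fun b₁ b₂ hb => exists_ifix_lift hb)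
    (fun c => by
      obtain ⟨a, ha, haσ⟩ := exists_fixed_lift hA hπ hs c
      exact ⟨a, ha, IFix.algebraMap haσ⟩) lev_ifix hdisc
    (fun a d ha hd => arch_of_liesOverPrime hA hπ a d ha hd) s

/-- **The parameters at the nodes.** -/
theorem exists_param (hr : ∃ r : ℕ, r.Prime ∧ r ∣ M ∧ r % 12 = 11)
    (s : (regAlg k (RedQ.xj k M ^ (q + 1)) ⧸ (𝓗).cond) →ₐ[k] k) :
    ∃ z ∈ ifixField (M * q) A, Param (rInf1 M q hA hπ hs hM) (rZero1 M q hA hπ hs hM)
      (place1 𝓗 s) (place2 𝓗 s) (tube 𝓗 s) (q : A) z := by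
  obtain ⟨z, y, u, z₁, y₂, u₁, u₂, hN⟩ := nodeData hr s
  have e : ((q : A) : Qb) = (q : Qb) := by simp
  rw [← e] at hN
  exact ⟨z, hN.fixz, hN.param⟩

end Main

end Fermat.Agent.Node
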