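import Fermat.Agent.Node.Place
import Fermat.Agent.QComp.TwoClass
import Fermat.Prelude.Def_AlgebraicCurve_BaseChangeGalois

/-!
# Regular parameters at the nodes: the abstract part
-/

set_option autoImplicit false
set_option linter.unusedSectionVars false
set_option linter.style.haveILetI false
set_option linter.unusedVariables false

noncomputable section

open AlgebraicCurve IntermediateField Module

namespace Fermat.Agent.Node

open Fermat.Agent.FF Fermat.Agent.Red Fermat.Agent.QComp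

theorem isIntegral_semi' {K F : Type*} [Field K] [Field F] [Algebra K F] {τ : F →+* F}
    {σ : K → K} (h : ∀ c, τ (algebraMap K F c) = algebraMap K F (σ c)) {x : F} (hx : τ x = x)
    {f : F} (hf : IsIntegral (Algebra.adjoin K {x}) f) :
    IsIntegral (Algebra.adjoin K {x}) (τ f) := by
  have h1 : ∀ a ∈ Algebra.adjoin K {x}, τ a ∈ Algebra.adjoin K {x} := by
    intro a ha
    induction ha using Algebra.adjoin_induction with
    | mem y hy =>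
      rw [Set.mem_singleton_iff] at hy
      rw [hy, hx]
      exact Algebra.self_mem_adjoin_singleton K x
    | algebraMap r => rw [h]; exact Subalgebra.algebraMap_mem _ _
    | add a b _ _ ha hb => rw [map_add]; exact add_mem ha hb
    | mul a b _ _ ha hb => rw [map_mul]; exact mul_mem ha hb
  let g : Algebra.adjoin K {x} →+* Algebra.adjoin K {x} :=
    (τ.comp (Algebra.adjoin K {x}).val.toRingHom).codRestrict (Algebra.adjoin K {x}).toSubring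
      (fun a => h1 _ a.2)
  obtain ⟨p, hp, hpf⟩ := hf
  refine ⟨p.map g, hp.map g, ?_⟩
  rw [Polynomial.eval₂_map]
  have h2 : (algebraMap (Algebra.adjoin K {x}) F).comp g =
    τ.comp (algebraMap (Algebra.adjoin K {x}) F) := rfl
  rw [h2, ← Polynomial.hom_eval₂, hpf, map_zero]

theorem hasVal_smul {k κ : Type*} [Field k] [Field κ] [Algebra k κ] [IsAlgClosed k] [IsFnField k κ]
    (g : SemilinearAut k κ) {Q : Place k κ} {b : κ} {c : k} (h : HasVal Q b c) :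
    HasVal (g • Q) (g • b) (SemilinearAut.baseAut g c) := by
  have h1 := h.sub (hasVal_algebraMap Q c)
  rw [sub_self, hasVal_zero_iff] at h1
  have h2 : HasVal (g • Q) (g • (b - algebraMap k κ c)) 0 := by
    rw [hasVal_zero_iff]
    rcases h1 with h1 | h1
    · left; rw [h1, smul_zero]
    · right
      rw [SemilinearAut.ord_smul]
      exact h1
  have h3 := h2.add (hasVal_algebraMap (g • Q) (SemilinearAut.baseAut g c))
  rw [zero_add, smul_sub, SemilinearAut.smul_algebraMap, sub_add_cancel] at h3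
  exact h3

theorem ord_sub_pow_eq {k κ : Type*} [Field k] [Field κ] [Algebra k κ] [IsAlgClosed k]
    [IsFnField k κ] {q : ℕ} (hq : 2 ≤ q) (Q : Place k κ) {a b : κ} (ha : Q.ord a = 1)
    (hb : HasVal Q (b ^ q) 0) : Q.ord (a - b ^ q) = 1 := by
  have ha0 : a ≠ 0 := by rintro rfl; simp at ha
  rw [sub_eq_add_neg, ord_add_eq_of_lt Q ha0, ha]
  rcases hasVal_zero_iff.1 hb with h0 | h0
  · left; rw [h0, neg_zero]
  · right
    rw [ord_neg, ha]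
    rw [ord_pow] at h0 ⊢
    have h2 : 0 < Q.ord b := by
      by_contra h3
      push Not at h3
      have : (q : ℤ) * Q.ord b ≤ 0 := mul_nonpos_of_nonneg_of_nonpos (by positivity) h3
      omega
    have h3 : (2 : ℤ) * 1 ≤ (q : ℤ) * Q.ord b :=
      mul_le_mul (by exact_mod_cast hq) (by omega) (by norm_num) (by positivity)
    omega

section Abs

variable {K k : Type*} [Field K] [Field k] {A : ValuationSubring K} {π : A →+* k}
  {F₀ F κ : Type*} [Field F₀] [Algebra K F₀] [Field F] [Algebra K F] [Field κ] [Algebra k κ]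
  [IsAlgClosed K] [CharZero K] [IsAlgClosed k] [IsFnField K F₀] [IsFnField K F] [IsFnField k κ]
  {R₀ : ConstRed A π F₀ κ} {R₁ R₂ : ConstRed A π F κ} {j : F₀} {jb : κ}
    {α : F₀ →ₐ[K] F} {w : F →ₐ[K] F} {Fr : κ →ₐ[k] κ} {q : ℕ}
    (H : TwoLevel R₀ R₁ R₂ j jb α w Fr q)

/-- the second branch at a node -/
def br2 (s : (regAlg k (jb ^ (q + 1)) ⧸ H.cond) →ₐ[k] k) : regAlg k (jb ^ (q + 1)) →ₐ[k] k :=
  s.comp (Ideal.Quotient.mkₐ k H.cond)

/-- the first branch at a node -/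
def br1 (s : (regAlg k (jb ^ (q + 1)) ⧸ H.cond) →ₐ[k] k) : regAlg k (jb ^ (q + 1)) →ₐ[k] k :=
  (br2 H s).comp H.FrB

variable {H} {s : (regAlg k (jb ^ (q + 1)) ⧸ H.cond) →ₐ[k] k}

theorem br_glue {f : F} (hf : f ∈ regAlg K (α j * w (α j))) {b₁ b₂ : κ} (h1 : R₁.IsRed f b₁)
    (h2 : R₂.IsRed f b₂) : ∃ (m1 : b₁ ∈ regAlg k (jb ^ (q + 1))) (m2 : b₂ ∈ regAlg k (jb ^ (q + 1))),
      br1 H s ⟨b₁, m1⟩ = br2 H s ⟨b₂, m2⟩ := by
  have hg : TwoLevel.Glued R₁ R₂ (α j * w (α j)) b₁ b₂ := ⟨f, hf, h1, h2⟩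
  refine ⟨TwoLevel.Glued.mem1 H hg, TwoLevel.Glued.mem2 H hg, ?_⟩
  have h3 := (H.glued_iff (TwoLevel.Glued.mem1 H hg) (TwoLevel.Glued.mem2 H hg)).1 hg
  rw [← Ideal.Quotient.eq_zero_iff_mem, map_sub, sub_eq_zero] at h3
  exact congrArg s h3.symm

theorem br2_FrFr (b : regAlg k (jb ^ (q + 1))) : br2 H s (H.FrB (H.FrB b)) = br2 H s b := by
  have h1 := H.Fr_Fr_mem b.2
  rw [← Ideal.Quotient.eq_zero_iff_mem, map_sub, sub_eq_zero] at h1
  exact (congrArg s h1).symm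

theorem br1_apply (b : regAlg k (jb ^ (q + 1))) : br1 H s b = br2 H s (H.FrB b) := rfl

/-- a Frobenius automorphism of `κ` -/
structure IsFrobAut (jb : κ) (Fr : κ →ₐ[k] κ) (q : ℕ) (g : SemilinearAut k κ) : Prop where
  base : ∀ c, SemilinearAut.baseAut g c = c ^ q
  fr : ∀ b, Fr (g • b) = b ^ q
  fix : g • jb = jb

theorem IsFrobAut.integral {g : SemilinearAut k κ} (hg : IsFrobAut jb Fr q g) {b : κ}
    (hb : IsIntegral (Algebra.adjoin k {jb}) b) : IsIntegral (Algebra.adjoin k {jb}) (g • b) :=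
  isIntegral_semi' (τ := gF g) (σ := gK g) (fun c => SemilinearAut.smul_algebraMap g c) hg.fix hb

theorem IsFrobAut.integral_inv {g : SemilinearAut k κ} (hg : IsFrobAut jb Fr q g) {b : κ}
    (hb : IsIntegral (Algebra.adjoin k {jb}) b) : IsIntegral (Algebra.adjoin k {jb}) (g⁻¹ • b) :=
  isIntegral_semi' (τ := gF g⁻¹) (σ := gK g⁻¹) (fun c => SemilinearAut.smul_algebraMap g⁻¹ c)
    (by
      change g⁻¹ • jb = jb
      rw [inv_smul_eq_iff]
      exact hg.fix.symm) hb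

variable (H s) in
/-- **The two places at a node.** -/
theorem exists_places [FiniteDimensional k⟮jb⟯ κ] [Algebra.IsSeparable k⟮jb⟯ κ]
    {g : SemilinearAut k κ} (hg : IsFrobAut jb Fr q g) : ∃ Q₁ : Place k κ,
    (∀ b : regAlg k (jb ^ (q + 1)), HasVal Q₁ (b : κ) (br1 H s b)) ∧
      ∀ b : regAlg k (jb ^ (q + 1)), HasVal (g • Q₁) (b : κ) (br2 H s b) := by
  have hreg : regAlg k (jb ^ (q + 1)) = regAlg k jb := TwoLevel.regAlg_pow (Nat.succ_ne_zero q)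
  obtain ⟨Q₁, hQ₁⟩ := exists_place_of_hom H.t0 ((br1 H s).comp (Subalgebra.inclusion hreg.ge))
  have val1 : ∀ b : regAlg k (jb ^ (q + 1)), HasVal Q₁ (b : κ) (br1 H s b) := by
    intro b
    have h1 : (b : κ) ∈ regAlg k jb := by rw [← hreg]; exact b.2
    exact hQ₁ ⟨b, h1⟩
  refine ⟨Q₁, val1, fun b => ?_⟩
  have hint : ∀ b : κ, b ∈ regAlg k (jb ^ (q + 1)) ↔ IsIntegral (Algebra.adjoin k {jb}) b := by
    intro b
    rw [hreg]
    exact ⟨isIntegral_of_mem_regAlg', mem_regAlg_of_isIntegral⟩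
  have hc := hg.integral_inv ((hint _).1 b.2)
  have h1 := hasVal_smul g (val1 ⟨_, (hint _).2 hc⟩)
  have h2 : g • ((⟨g⁻¹ • (b : κ), (hint _).2 hc⟩ : regAlg k (jb ^ (q + 1))) : κ) = b :=
    smul_inv_smul g (b : κ)
  rw [h2, hg.base, ← map_pow, br1_apply] at h1
  have h3 : H.FrB (⟨g⁻¹ • (b : κ), (hint _).2 hc⟩ ^ q) = H.FrB (H.FrB b) := by
    congr 1
    apply Subtype.ext
    change (g⁻¹ • (b : κ)) ^ q = Fr (b : κ)
    rw [← hg.fr, smul_inv_smul]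
  rw [h3, br2_FrFr] at h1
  exact h1

/-- The data at a node: `z y = ϖ u`, with `z`, `y` parameters and `u` a unit. -/
structure NodeData (H : TwoLevel R₀ R₁ R₂ j jb α w Fr q)
    (s : (regAlg k (jb ^ (q + 1)) ⧸ H.cond) →ₐ[k] k) (P : F → Prop) (ϖ : K)
    (Q₁ Q₂ : Place k κ) (z y u : F) (z₁ y₂ u₁ u₂ : κ) : Prop where
  val1 : ∀ b : regAlg k (jb ^ (q + 1)), HasVal Q₁ (b : κ) (br1 H s b)
  val2 : ∀ b : regAlg k (jb ^ (q + 1)), HasVal Q₂ (b : κ) (br2 H s b)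
  fixz : P z
  fixy : P y
  regz : z ∈ regAlg K (α j * w (α j))
  regy : y ∈ regAlg K (α j * w (α j))
  regu : u ∈ regAlg K (α j * w (α j))
  mul : z * y = algebraMap K F ϖ * u
  z1 : R₁.IsRed z z₁
  z1_ord : Q₁.ord z₁ = 1
  z2 : R₂.IsRed z 0
  y1 : R₁.IsRed y 0
  y2 : R₂.IsRed y y₂
  y2_ord : Q₂.ord y₂ = 1
  u1 : R₁.IsRed u u₁
  u2 : R₂.IsRed u u₂
  u1_ord : Q₁.ord u₁ = 0
  u1_ne : u₁ ≠ 0
  u2_ord : Q₂.ord u₂ = 0
  u2_ne : u₂ ≠ 0

/-- reductions of `z = α f - (w α f')^q` and `y = w α f'' - (α f)^q` -/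
theorem red_zy {g : SemilinearAut k κ} (hg : IsFrobAut jb Fr q g) (H : TwoLevel R₀ R₁ R₂ j jb α w Fr q)
    {f f' f'' : F₀} {τ : κ} (hf : R₀.IsRed f τ) (hf' : R₀.IsRed f' (g⁻¹ • τ))
    (hf'' : R₀.IsRed f'' (g • τ)) :
    R₁.IsRed (α f - w (α f') ^ q) (τ - Fr (g⁻¹ • τ) ^ q) ∧
    R₂.IsRed (α f - w (α f') ^ q) 0 ∧
    R₁.IsRed (w (α f'') - α f ^ q) 0 ∧
    R₂.IsRed (w (α f'') - α f ^ q) (g • τ - Fr τ ^ q) := by
  refine ⟨(H.redα _ _ hf).sub ((H.redβ _ _ hf').pow q), ?_, ?_,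
    (H.redβ2 hf'').sub ((H.redα2 hf).pow q)⟩
  · have h1 := (H.redα2 hf).sub ((H.redβ2 hf').pow q)
    have h2 : Fr τ = (g⁻¹ • τ) ^ q := by rw [← hg.fr, smul_inv_smul]
    rwa [h2, sub_self] at h1
  · have h1 := (H.redβ _ _ hf'').sub ((H.redα _ _ hf).pow q)
    rwa [hg.fr, sub_self] at h1

theorem ord_zy [FiniteDimensional k⟮jb⟯ κ] [Algebra.IsSeparable k⟮jb⟯ κ]
    {g : SemilinearAut k κ} (hg : IsFrobAut jb Fr q g) {Q₁ : Place k κ}
    (val1 : ∀ b : regAlg k (jb ^ (q + 1)), HasVal Q₁ (b : κ) (br1 H s b))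
    (val2 : ∀ b : regAlg k (jb ^ (q + 1)), HasVal (g • Q₁) (b : κ) (br2 H s b))
    {τ : κ} (hτi : IsIntegral (Algebra.adjoin k {jb}) τ) (hτ : Q₁.ord τ = 1) :
    Q₁.ord (τ - Fr (g⁻¹ • τ) ^ q) = 1 ∧ (g • Q₁).ord (g • τ - Fr τ ^ q) = 1 := by
  have hreg : regAlg k (jb ^ (q + 1)) = regAlg k jb := TwoLevel.regAlg_pow (Nat.succ_ne_zero q)
  have hint : ∀ b : κ, b ∈ regAlg k (jb ^ (q + 1)) ↔ IsIntegral (Algebra.adjoin k {jb}) b := by
    intro b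
    rw [hreg]
    exact ⟨isIntegral_of_mem_regAlg', mem_regAlg_of_isIntegral⟩
  have hgτ : (g • Q₁).ord (g • τ) = 1 := by rw [SemilinearAut.ord_smul, hτ]
  constructor
  · refine ord_sub_pow_eq H.hq Q₁ hτ ?_
    have e : Fr (g⁻¹ • τ) ^ q = Fr (Fr τ) := by
      rw [← map_pow, ← hg.fr, smul_inv_smul]
    rw [e]
    have h1 := val1 (H.FrB (H.FrB ⟨τ, (hint _).2 hτi⟩))
    rw [br1_apply] at h1
    have h2 : br2 H s (H.FrB (H.FrB (H.FrB ⟨τ, (hint _).2 hτi⟩))) =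
        br2 H s (H.FrB ⟨τ, (hint _).2 hτi⟩) := br2_FrFr _
    rw [h2, ← br1_apply] at h1
    have h3 : br1 H s ⟨τ, (hint _).2 hτi⟩ = 0 :=
      (val1 ⟨τ, (hint _).2 hτi⟩).unique (hasVal_zero_iff.2 (Or.inr (by
        change 0 < Q₁.ord τ
        rw [hτ]; norm_num)))
    rw [h3] at h1
    exact h1
  · refine ord_sub_pow_eq H.hq _ hgτ ?_
    have e : Fr τ ^ q = Fr (Fr (g • τ)) := by
      rw [hg.fr, map_pow]
    rw [e]
    have hφ := hg.integral hτi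
    have h1 := val2 (H.FrB (H.FrB ⟨g • τ, (hint _).2 hφ⟩))
    rw [br2_FrFr] at h1
    have h3 : br2 H s ⟨g • τ, (hint _).2 hφ⟩ = 0 :=
      (val2 ⟨g • τ, (hint _).2 hφ⟩).unique (hasVal_zero_iff.2 (Or.inr (by
        change 0 < (g • Q₁).ord (g • τ)
        rw [hgτ]; norm_num)))
    rw [h3] at h1
    exact h1

/-- the order of `ψ = red (y/ϖ)` is at least `-1`. -/
theorem ord_psi_ge {Q₁ : Place k κ}
    (val1 : ∀ b : regAlg k (jb ^ (q + 1)), HasVal Q₁ (b : κ) (br1 H s b))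
    {z y : F} {z₁ y₂ ψ ψ' : κ} {ϖ : K}
    (regz : z ∈ regAlg K (α j * w (α j))) (regy : y ∈ regAlg K (α j * w (α j)))
    (z1 : R₁.IsRed z z₁) (z1_ord : Q₁.ord z₁ = 1) (y2 : R₂.IsRed y y₂)
    (hψ : R₁.IsRed (algebraMap K F ϖ⁻¹ * y) ψ) (hψ' : R₂.IsRed (algebraMap K F ϖ⁻¹ * z) ψ') :
    -1 ≤ Q₁.ord ψ := by
  have hu1 : R₁.IsRed (algebraMap K F ϖ⁻¹ * (z * y)) (z₁ * ψ) := by
    have h1 := z1.mul hψ
    have e : z * (algebraMap K F ϖ⁻¹ * y) = algebraMap K F ϖ⁻¹ * (z * y) := by ring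
    rwa [e] at h1
  have hu2 : R₂.IsRed (algebraMap K F ϖ⁻¹ * (z * y)) (ψ' * y₂) := by
    have h1 := hψ'.mul y2
    have e : (algebraMap K F ϖ⁻¹ * z) * y = algebraMap K F ϖ⁻¹ * (z * y) := by ring
    rwa [e] at h1
  have hregu : algebraMap K F ϖ⁻¹ * (z * y) ∈ regAlg K (α j * w (α j)) :=
    mul_mem (Subalgebra.algebraMap_mem _ _) (mul_mem regz regy)
  obtain ⟨m1, m2, -⟩ := br_glue (H := H) (s := s) hregu hu1 hu2
  have h0 := (val1 ⟨_, m1⟩).nonneg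
  change 0 ≤ Q₁.ord (z₁ * ψ) at h0
  have hz1 : z₁ ≠ 0 := by rintro rfl; simp at z1_ord
  rcases eq_or_ne ψ 0 with rfl | hψ0
  · simp
  · rw [Q₁.ord_mul hz1 hψ0, z1_ord] at h0
    omega

/-- end of the construction of the parameters -/
theorem nodeData_of {P : F → Prop} {ϖ : K} (hϖ : ϖ ≠ 0) {Q₁ Q₂ : Place k κ}
    (val1 : ∀ b : regAlg k (jb ^ (q + 1)), HasVal Q₁ (b : κ) (br1 H s b))
    (val2 : ∀ b : regAlg k (jb ^ (q + 1)), HasVal Q₂ (b : κ) (br2 H s b))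
    {z y : F} {z₁ y₂ ψ ψ' : κ} (hPz : P z) (hPy : P y)
    (regz : z ∈ regAlg K (α j * w (α j))) (regy : y ∈ regAlg K (α j * w (α j)))
    (z1 : R₁.IsRed z z₁) (z1_ord : Q₁.ord z₁ = 1) (z2 : R₂.IsRed z 0) (y1 : R₁.IsRed y 0)
    (y2 : R₂.IsRed y y₂) (y2_ord : Q₂.ord y₂ = 1)
    (hψ : R₁.IsRed (algebraMap K F ϖ⁻¹ * y) ψ) (hψ' : R₂.IsRed (algebraMap K F ϖ⁻¹ * z) ψ')
    (hψ0 : ψ ≠ 0) (hψo : Q₁.ord ψ = -1) :
    ∃ u u₁ u₂, NodeData H s P ϖ Q₁ Q₂ z y u z₁ y₂ u₁ u₂ := by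
  have hu1 : R₁.IsRed (algebraMap K F ϖ⁻¹ * (z * y)) (z₁ * ψ) := by
    have h1 := z1.mul hψ
    have e : z * (algebraMap K F ϖ⁻¹ * y) = algebraMap K F ϖ⁻¹ * (z * y) := by ring
    rwa [e] at h1
  have hu2 : R₂.IsRed (algebraMap K F ϖ⁻¹ * (z * y)) (ψ' * y₂) := by
    have h1 := hψ'.mul y2
    have e : (algebraMap K F ϖ⁻¹ * z) * y = algebraMap K F ϖ⁻¹ * (z * y) := by ring
    rwa [e] at h1
  have hregu : algebraMap K F ϖ⁻¹ * (z * y) ∈ regAlg K (α j * w (α j)) :=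
    mul_mem (Subalgebra.algebraMap_mem _ _) (mul_mem regz regy)
  have hmul : z * y = algebraMap K F ϖ * (algebraMap K F ϖ⁻¹ * (z * y)) := by
    rw [← mul_assoc, ← map_mul, mul_inv_cancel₀ hϖ, map_one, one_mul]
  have hz1 : z₁ ≠ 0 := by rintro rfl; simp at z1_ord
  obtain ⟨m1, m2, hgl⟩ := br_glue (H := H) (s := s) hregu hu1 hu2
  have hu1o : Q₁.ord (z₁ * ψ) = 0 := by
    rw [Q₁.ord_mul hz1 hψ0, z1_ord, hψo]
    norm_num
  have hu1ne : z₁ * ψ ≠ 0 := mul_ne_zero hz1 hψ0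
  have hval : br1 H s ⟨_, m1⟩ ≠ 0 := by
    intro h0
    have h1 := val1 ⟨_, m1⟩
    rw [h0] at h1
    rcases hasVal_zero_iff.1 h1 with h2 | h2
    · exact hu1ne h2
    · change 0 < Q₁.ord (z₁ * ψ) at h2
      omega
  rw [hgl] at hval
  have hv2 := val2 ⟨_, m2⟩
  refine ⟨_, _, _, ⟨val1, val2, hPz, hPy, regz, regy, hregu, hmul, z1,
    z1_ord, z2, y1, y2, y2_ord, hu1, hu2, hu1o, hu1ne, hv2.ord_eq_zero hval, ?_⟩⟩
  intro h0
  apply hval
  have h1 : (⟨_, m2⟩ : regAlg k (jb ^ (q + 1))) = 0 := Subtype.ext h0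
  rw [h1, map_zero]

end Abs

end Fermat.Agent.Node
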