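import Fermat.Agent.MazurP.Tube
import Fermat.Agent.QComp.TwoRed

/-!
# Lifting of pairs of functions to functions fixed by a group
-/

set_option autoImplicit false
set_option linter.unusedSectionVars false
set_option linter.style.haveILetI false
set_option linter.unusedVariables false

noncomputable section

open AlgebraicCurve IntermediateField Module

namespace Fermat.Agent.Node

open Fermat.Agent.FF Fermat.Agent.Red Fermat.Agent.QComp Fermat.Agent.MazurP

variable {K k : Type*} [Field K] [Field k] {A : ValuationSubring K} {π : A →+* k}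
  {F κ₁ κ₂ : Type*} [Field F] [Algebra K F] [Field κ₁] [Algebra k κ₁] [Field κ₂] [Algebra k κ₂]
  {R₁ : ConstRed A π F κ₁} {R₂ : ConstRed A π F κ₂}

/-- in a valuation ring of rank one, multiplication by a power of `ϖ` is integral -/
theorem exists_pow_mul_mem_of_arch {ϖ : A} (harch : ∀ a : A, a ≠ 0 → ∃ n : ℕ, ¬ ϖ ^ n ∣ a) (a : K) :
    ∃ n : ℕ, (ϖ : K) ^ n * a ∈ A := by
  by_cases ha : a ∈ A
  · exact ⟨0, by simpa using ha⟩
  have ha0 : a ≠ 0 := by rintro rfl; exact ha A.zero_mem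
  have ha' : a⁻¹ ∈ A := (A.mem_or_inv_mem a).resolve_left ha
  obtain ⟨n, hn⟩ := harch ⟨a⁻¹, ha'⟩ (fun h => inv_ne_zero ha0 (congrArg Subtype.val h))
  refine ⟨n, ?_⟩
  by_contra hne
  have hne' : ((ϖ : K) ^ n * a)⁻¹ ∈ A := (A.mem_or_inv_mem _).resolve_left hne
  have hϖ : (ϖ : K) ^ n ≠ 0 := by
    intro h0
    rw [h0, zero_mul] at hne
    exact hne A.zero_mem
  apply hn
  refine ⟨⟨_, hne'⟩, Subtype.ext ?_⟩
  change a⁻¹ = (ϖ : K) ^ n * ((ϖ : K) ^ n * a)⁻¹
  rw [mul_inv, ← mul_assoc, mul_inv_cancel₀ hϖ, one_mul]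

theorem exists_fixed_lift_pair {x : F} {x₁ : κ₁} {x₂ : κ₂} (T : TwoRed R₁ R₂ x x₁ x₂)
    (hπ : Function.Surjective π) {F₀ : Subfield F} {ϖ : A} (hL : Lev R₁ R₂ F₀ ϖ)
    (harch : ∀ a : A, a ≠ 0 → ∃ n : ℕ, ¬ ϖ ^ n ∣ a)
    (hconst : ∀ c : k, ∃ a : A, π a = c ∧ algebraMap K F a ∈ F₀)
    (V : Submodule K F) [Module.Finite K V]
    (hspan : V ≤ Submodule.span K {f | f ∈ V ∧ f ∈ F₀})
    {b : κ₁ × κ₂} (hb : b ∈ redSub R₁ R₂ hπ V) :
    ∃ f ∈ V, f ∈ F₀ ∧ R₁.IsRed f b.1 ∧ R₂.IsRed f b.2 := by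
  classical
  obtain ⟨hfin, hrank⟩ := T.redSub_finrank hπ V
  -- the reductions of fixed elements
  let W₀ : Submodule k (κ₁ × κ₂) :=
    { carrier := {b | ∃ f ∈ V, f ∈ F₀ ∧ R₁.IsRed f b.1 ∧ R₂.IsRed f b.2}
      zero_mem' := ⟨0, V.zero_mem, F₀.zero_mem, R₁.isRed_zero, R₂.isRed_zero⟩
      add_mem' := by
        rintro a b ⟨f, hf, hf0, h1, h2⟩ ⟨g, hg, hg0, h3, h4⟩
        exact ⟨f + g, V.add_mem hf hg, add_mem hf0 hg0, h1.add h3, h2.add h4⟩
      smul_mem' := by
        rintro c b ⟨f, hf, hf0, h1, h2⟩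
        obtain ⟨a, rfl, ha⟩ := hconst c
        refine ⟨(a : K) • f, V.smul_mem _ hf, ?_, ?_, ?_⟩
        · rw [Algebra.smul_def]
          exact mul_mem ha hf0
        · have h3 := (R₁.isRed_coe a).mul h1
          rw [Algebra.smul_def (a : K) f]
          rwa [← Algebra.smul_def (π a) b.1] at h3
        · have h3 := (R₂.isRed_coe a).mul h2
          rw [Algebra.smul_def (a : K) f]
          rwa [← Algebra.smul_def (π a) b.2] at h3 }
  have hW : W₀ ≤ redSub R₁ R₂ hπ V := by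
    rintro b ⟨f, hf, -, h1, h2⟩
    exact ⟨f, hf, h1, h2⟩
  haveI : Module.Finite k W₀ := Submodule.finiteDimensional_of_le hW
  obtain ⟨r, hr⟩ : ∃ r, finrank k W₀ = r := ⟨_, rfl⟩
  let bW := Module.finBasisOfFinrankEq k W₀ hr
  choose y hyV hyF hy1 hy2 using fun i => (bW i).2
  set u : Fin r → κ₁ × κ₂ := fun i => (bW i : κ₁ × κ₂) with hu
  have hind : LinearIndependent k u := bW.linearIndependent.map' W₀.subtype W₀.ker_subtype
  have hspanu : ∀ b, b ∈ W₀ ↔ b ∈ Submodule.span k (Set.range u) := by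
    intro b
    have h1 : Submodule.span k (Set.range u) = W₀ := by
      have h2 : Set.range u = W₀.subtype '' Set.range bW := by
        rw [← Set.range_comp]; rfl
      rw [h2, Submodule.span_image, bW.span_eq, Submodule.map_top, Submodule.range_subtype]
    rw [h1]
  have hy : OrthP R₁ R₂ y u := ⟨hy1, hy2, hind⟩
  set Y : Submodule K F := Submodule.span K (Set.range y) with hY
  have hYV : Y ≤ V := by
    rw [hY, Submodule.span_le]
    rintro _ ⟨i, rfl⟩
    exact hyV i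
  haveI : Module.Finite K Y := Submodule.finiteDimensional_of_le hYV
  -- elements of `Y` with reductions
  have hYred : ∀ f ∈ Y, f ∈ R₁.O → f ∈ R₂.O → ∃ b ∈ W₀, R₁.IsRed f b.1 ∧ R₂.IsRed f b.2 := by
    intro f hf h1 h2
    rw [hY, Submodule.mem_span_range_iff_exists_fun] at hf
    obtain ⟨c, rfl⟩ := hf
    have e : ∑ i, c i • y i = ∑ i, algebraMap K F (c i) * y i :=
      Finset.sum_congr rfl fun i _ => Algebra.smul_def _ _
    rw [e] at h1 h2 ⊢
    have hc := hy.mem_of_sum_mem c h1 h2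
    refine ⟨_, ?_, hy.red1 fun i => ⟨c i, hc i⟩, hy.red2 fun i => ⟨c i, hc i⟩⟩
    rw [hspanu]
    exact Submodule.sum_mem _ fun i _ => Submodule.smul_mem _ _ (Submodule.subset_span ⟨i, rfl⟩)
  -- the main claim
  have hmain : ∀ v ∈ V, v ∈ F₀ → v ∈ Y := by
    intro v hv hvF
    by_contra hvY
    -- scale
    obtain ⟨v₀, hv₀, hv₀F, hv₀Y, hv₀1, hv₀2⟩ : ∃ v₀ ∈ V, v₀ ∈ F₀ ∧ v₀ ∉ Y ∧ v₀ ∈ R₁.O ∧
        v₀ ∈ R₂.O := by
      have hv0 : v ≠ 0 := by
        rintro rfl
        exact hvY Y.zero_mem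
      obtain ⟨a₁, ha₁, h1, -⟩ := R₁.exists_scale v hv0
      obtain ⟨a₂, ha₂, h2, -⟩ := R₂.exists_scale v hv0
      obtain ⟨n₁, hn₁⟩ := exists_pow_mul_mem_of_arch harch a₁⁻¹
      obtain ⟨n₂, hn₂⟩ := exists_pow_mul_mem_of_arch harch a₂⁻¹
      have hϖF := hL.mem
      have e : ∀ (n : ℕ), algebraMap K F ((ϖ : K) ^ n) * v ∈ V := fun n => by
        rw [← Algebra.smul_def]
        exact V.smul_mem _ hv
      have hϖ0 : (ϖ : K) ≠ 0 := fun h => hL.ne (Subtype.ext h)
      refine ⟨algebraMap K F ((ϖ : K) ^ (n₁ + n₂)) * v, e _, ?_, ?_, ?_, ?_⟩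
      · rw [map_pow]
        exact mul_mem (pow_mem hϖF _) hvF
      · intro h3
        apply hvY
        rw [← Algebra.smul_def] at h3
        have h4 := Y.smul_mem ((ϖ : K) ^ (n₁ + n₂))⁻¹ h3
        rwa [smul_smul, inv_mul_cancel₀ (pow_ne_zero _ hϖ0), one_smul] at h4
      · have h3 := mul_mem ((R₁.algebraMap_mem_iff _).2
          (mul_mem (pow_mem ϖ.2 n₂) hn₁)) h1
        have e1 : algebraMap K F ((ϖ : K) ^ n₂ * ((ϖ : K) ^ n₁ * a₁⁻¹)) * (algebraMap K F a₁ * v) =
            algebraMap K F ((ϖ : K) ^ (n₁ + n₂)) * v := by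
          rw [← mul_assoc, ← map_mul]
          congr 2
          rw [pow_add]
          field_simp
        rwa [e1] at h3
      · have h3 := mul_mem ((R₂.algebraMap_mem_iff _).2
          (mul_mem (pow_mem ϖ.2 n₁) hn₂)) h2
        have e1 : algebraMap K F ((ϖ : K) ^ n₁ * ((ϖ : K) ^ n₂ * a₂⁻¹)) * (algebraMap K F a₂ * v) =
            algebraMap K F ((ϖ : K) ^ (n₁ + n₂)) * v := by
          rw [← mul_assoc, ← map_mul]
          congr 2
          rw [pow_add]
          field_simp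
        rwa [e1] at h3
    -- successive approximation
    have happ : ∀ N : ℕ, ∃ vN ∈ V, vN ∈ F₀ ∧ vN ∈ R₁.O ∧ vN ∈ R₂.O ∧
        v₀ - ((ϖ : K) ^ N) • vN ∈ Y := by
      intro N
      induction N with
      | zero => exact ⟨v₀, hv₀, hv₀F, hv₀1, hv₀2, by simp⟩
      | succ N ih =>
        obtain ⟨vN, h1, h2, h3, h4, h5⟩ := ih
        obtain ⟨b₁, hb₁⟩ := R₁.exists_isRed_of_mem h3
        obtain ⟨b₂, hb₂⟩ := R₂.exists_isRed_of_mem h4
        have hbW : ((b₁, b₂) : κ₁ × κ₂) ∈ W₀ := ⟨vN, h1, h2, hb₁, hb₂⟩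
        rw [hspanu, Submodule.mem_span_range_iff_exists_fun] at hbW
        obtain ⟨c, hc⟩ := hbW
        choose a ha haF using fun i => hconst (c i)
        have e1 : (R₁.IsRed (∑ i, algebraMap K F (a i) * y i) b₁) := by
          have h6 := hy.red1 a
          simp only [ha] at h6
          rw [hc] at h6
          exact h6
        have e2 : (R₂.IsRed (∑ i, algebraMap K F (a i) * y i) b₂) := by
          have h6 := hy.red2 a
          simp only [ha] at h6
          rw [hc] at h6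
          exact h6
        have hsF : ∑ i, algebraMap K F (a i) * y i ∈ F₀ :=
          sum_mem fun i _ => mul_mem (haF i) (hyF i)
        have hsY : ∑ i, algebraMap K F (a i) * y i ∈ Y := by
          refine Submodule.sum_mem _ fun i _ => ?_
          rw [← Algebra.smul_def]
          exact Submodule.smul_mem _ _ (Submodule.subset_span ⟨i, rfl⟩)
        have hd1 := hb₁.sub e1
        have hd2 := hb₂.sub e2
        rw [sub_self] at hd1 hd2
        have hϖ0 : (ϖ : K) ≠ 0 := fun h => hL.ne (Subtype.ext h)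
        refine ⟨(vN - ∑ i, algebraMap K F (a i) * y i) / algebraMap K F ϖ, ?_, ?_,
          hL.unif1 _ (sub_mem h2 hsF) hd1, hL.unif2 _ (sub_mem h2 hsF) hd2, ?_⟩
        · rw [div_eq_inv_mul, ← map_inv₀, ← Algebra.smul_def]
          exact V.smul_mem _ (V.sub_mem h1 (hYV hsY))
        · exact div_mem (sub_mem h2 hsF) hL.mem
        · have h6 := Y.add_mem h5 (Y.smul_mem ((ϖ : K) ^ N) hsY)
          convert h6 using 1
          rw [pow_succ, mul_smul, div_eq_inv_mul, ← map_inv₀, ← Algebra.smul_def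
            ((ϖ : K)⁻¹), smul_smul (ϖ : K), mul_inv_cancel₀ hϖ0, one_smul, smul_sub]
          ring
    -- a bigger orthogonal family
    set V' : Submodule K F := Y ⊔ Submodule.span K {v₀} with hV'
    have hVV : V' ≤ V := sup_le hYV (by
      rw [Submodule.span_le, Set.singleton_subset_iff]
      exact hv₀)
    haveI : Module.Finite K V' := Submodule.finiteDimensional_of_le hVV
    obtain ⟨hfin', hrank'⟩ := T.redSub_finrank hπ V'
    have hlt : finrank K Y < finrank K V' := by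
      apply Submodule.finrank_lt_finrank_of_lt
      refine lt_of_le_of_ne le_sup_left ?_
      intro h1
      apply hv₀Y
      rw [h1]
      exact Submodule.mem_sup_right (Submodule.mem_span_singleton_self _)
    have hYr : finrank K Y = r := by
      rw [hY, finrank_span_eq_card hy.linearIndependent, Fintype.card_fin]
    obtain ⟨b', hb', hb'W⟩ : ∃ b' ∈ redSub R₁ R₂ hπ V', b' ∉ W₀ := by
      by_contra hne
      push Not at hne
      have h1 := Submodule.finrank_mono (R := k) (s := redSub R₁ R₂ hπ V') (t := W₀) hne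
      omega
    obtain ⟨f, hf, hf1, hf2⟩ := hb'
    obtain ⟨yf, hyf, vf, hvf, hfsum⟩ := Submodule.mem_sup.1 hf
    rw [Submodule.mem_span_singleton] at hvf
    obtain ⟨c, rfl⟩ := hvf
    have hc0 : c ≠ 0 := by
      rintro rfl
      rw [zero_smul, add_zero] at hfsum
      rw [← hfsum] at hf1 hf2
      obtain ⟨b'', hb'', h1, h2⟩ := hYred yf hyf hf1.mem hf2.mem
      have : b' = b'' := Prod.ext (hf1.unique h1) (hf2.unique h2)
      exact hb'W (this ▸ hb'')
    let y' : Option (Fin r) → F := fun o => Option.casesOn' o f y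
    let u' : Option (Fin r) → κ₁ × κ₂ := fun o => Option.casesOn' o b' u
    have hy' : OrthP R₁ R₂ y' u' := by
      refine ⟨?_, ?_, ?_⟩
      · rintro (_ | i)
        · exact hf1
        · exact hy1 i
      · rintro (_ | i)
        · exact hf2
        · exact hy2 i
      · exact hind.option (by rwa [← hspanu])
    -- `v₀ = c⁻¹ f - c⁻¹ yf`
    have hcY : ∀ N : ℕ, c⁻¹ * ((ϖ : K) ^ N)⁻¹ ∈ A := by
      intro N
      obtain ⟨vN, h1, h2, h3, h4, h5⟩ := happ N
      have hϖ0 : (ϖ : K) ^ N ≠ 0 := pow_ne_zero _ fun h => hL.ne (Subtype.ext h)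
      have h6 : vN - (c⁻¹ * ((ϖ : K) ^ N)⁻¹) • f ∈ Y := by
        have h7 := Y.add_mem (Y.smul_mem (-((ϖ : K) ^ N)⁻¹) h5)
          (Y.smul_mem (-(c⁻¹ * ((ϖ : K) ^ N)⁻¹)) hyf)
        convert h7 using 1
        rw [← hfsum]
        have e1 : (c⁻¹ * ((ϖ : K) ^ N)⁻¹) • (yf + c • v₀) = (c⁻¹ * ((ϖ : K) ^ N)⁻¹) • yf +
            ((ϖ : K) ^ N)⁻¹ • v₀ := by
          rw [smul_add, smul_smul]
          congr 2
          field_simp
        have e2 : (-((ϖ : K) ^ N)⁻¹) • (v₀ - (ϖ : K) ^ N • vN) = -(((ϖ : K) ^ N)⁻¹ • v₀) + vN := by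
          rw [smul_sub, smul_smul, neg_smul, neg_mul, inv_mul_cancel₀ hϖ0, neg_smul, one_smul]
          ring
        rw [e1, e2, neg_smul]
        ring
      rw [hY, Submodule.mem_span_range_iff_exists_fun] at h6
      obtain ⟨d, hd⟩ := h6
      let d' : Option (Fin r) → K := fun o => Option.casesOn' o (c⁻¹ * ((ϖ : K) ^ N)⁻¹) d
      have e3 : ∑ o, algebraMap K F (d' o) * y' o = vN := by
        rw [Fintype.sum_option]
        change algebraMap K F (c⁻¹ * ((ϖ : K) ^ N)⁻¹) * f + ∑ i, algebraMap K F (d i) * y i = vN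
        have e4 : ∑ i, algebraMap K F (d i) * y i = ∑ i, d i • y i :=
          Finset.sum_congr rfl fun i _ => (Algebra.smul_def _ _).symm
        rw [e4, hd, ← Algebra.smul_def]
        ring
      exact hy'.mem_of_sum_mem d' (by rw [e3]; exact h3) (by rw [e3]; exact h4) none
    have hcA : c⁻¹ ∈ A := by simpa using hcY 0
    obtain ⟨n, hn⟩ := harch ⟨c⁻¹, hcA⟩ (fun h => inv_ne_zero hc0 (congrArg Subtype.val h))
    apply hn
    refine ⟨⟨_, hcY n⟩, Subtype.ext ?_⟩
    have hϖ0 : (ϖ : K) ^ n ≠ 0 := pow_ne_zero _ fun h => hL.ne (Subtype.ext h)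
    change c⁻¹ = (ϖ : K) ^ n * (c⁻¹ * ((ϖ : K) ^ n)⁻¹)
    field_simp
  -- conclusion
  have hVY : V ≤ Y := hspan.trans (by
    rw [Submodule.span_le]
    rintro f ⟨h1, h2⟩
    exact hmain f h1 h2)
  have h1 : finrank K V ≤ r := by
    have h2 := Submodule.finrank_mono hVY
    have h3 : finrank K Y = r := by
      rw [hY, finrank_span_eq_card hy.linearIndependent, Fintype.card_fin]
    omega
  have h2 : W₀ = redSub R₁ R₂ hπ V := Submodule.eq_of_le_of_finrank_le hW (by omega)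
  rw [← h2] at hb
  exact hb

end Fermat.Agent.Node
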