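import Fermat.Agent.Node.Param
import Fermat.Agent.Node.Abs
import Fermat.Agent.QComp.RatLift

/-!
# Regular parameters at the nodes: main theorem
-/

set_option autoImplicit false
set_option linter.unusedSectionVars false
set_option linter.style.haveILetI false
set_option linter.unusedVariables false

noncomputable section

open AlgebraicCurve ModularCurve IntermediateField Module

namespace Fermat.Agent.Node

open Fermat.Agent.FF Fermat.Agent.Red Fermat.Agent.QVal Fermat.Agent.JZ Fermat.Agent.QComp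
open Fermat.Agent.ESh

local notation "Qb" => AlgebraicClosure ℚ

section Main

variable {k : Type*} [Field k] {A : ValuationSubring Qb} {π : A →+* k} {M q : ℕ} [NeZero M]
  [NeZero q] [hqf : Fact q.Prime] {hA : A.LiesOverPrime q} {hπ : ∀ a : A, π a = 0 ↔ ¬ IsUnit a}
  {hs : Function.Surjective π} {hM : ¬ q ∣ M}

theorem isFrobAut_coeffSemi [CharP k q] [PerfectRing k q] :
    IsFrobAut (RedQ.xj k M) (FrK (k := k) (M := M) (q := q)) q
      (coeffSemi M (frobeniusEquiv k q)) where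
  base c := by
    change frobeniusEquiv k q c = _
    rw [frobeniusEquiv_apply, frobenius_def]
  fr b := by
    have h : coeffSemi M (frobeniusEquiv k q) • b = phiK q M b := gF_coeffSemi_frob b
    rw [h, FrK_phiK]
  fix := by
    have h : coeffSemi M (frobeniusEquiv k q) • (RedQ.xj k M) = phiK q M (RedQ.xj k M) :=
      gF_coeffSemi_frob _
    rw [h, phiK_xj]

variable [CharP k q] [PerfectRing k q] [IsAlgClosed k] [IsFnField k (modularFunctionFieldFullC k M)]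

theorem al_mem_reg
    (H : TwoLevel (redX M hA hπ hs hM) (rInf1 M q hA hπ hs hM) (rZero1 M q hA hπ hs hM) (jB M)
      (RedQ.xj k M) (al1 M q) (w1 hqf.out hM : FB (M * q) →ₐ[Qb] FB (M * q)) (FrK (q := q)) q)
    {f : FB M} (hf : IsIntegral (Algebra.adjoin Qb {jB M}) f) :
    al1 M q f ∈ regAlg Qb (al1 M q (jB M) *
      (w1 hqf.out hM : FB (M * q) →ₐ[Qb] FB (M * q)) (al1 M q (jB M))) := by
  rw [H.regAlg_eq]
  exact mem_regAlg_of_isIntegral (isInt_transport (al1 M q) hf)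

theorem be_mem_reg
    (H : TwoLevel (redX M hA hπ hs hM) (rInf1 M q hA hπ hs hM) (rZero1 M q hA hπ hs hM) (jB M)
      (RedQ.xj k M) (al1 M q) (w1 hqf.out hM : FB (M * q) →ₐ[Qb] FB (M * q)) (FrK (q := q)) q)
    {f : FB M} (hf : IsIntegral (Algebra.adjoin Qb {jB M}) f) :
    (w1 hqf.out hM : FB (M * q) →ₐ[Qb] FB (M * q)) (al1 M q f) ∈ regAlg Qb (al1 M q (jB M) *
      (w1 hqf.out hM : FB (M * q) →ₐ[Qb] FB (M * q)) (al1 M q (jB M))) := by
  obtain ⟨m, hm⟩ := exists_mem_Lm (al_mem_reg H hf)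
  exact mem_regAlg_of_mem_Lm (H.w_mem hm)

theorem coe_w_al (f : FB M) :
    (((w1 hqf.out hM : FB (M * q) →ₐ[Qb] FB (M * q)) (al1 M q f) : FB (M * q)) :
      LaurentSeries Qb) = qExpand Qb q (f : LaurentSeries Qb) := by
  have h : (w1 hqf.out hM : FB (M * q) →ₐ[Qb] FB (M * q)) (al1 M q f) = be1 M q f :=
    w1_al hqf.out hM f
  rw [h, coe_be1]

theorem theta_psi {f f'' : FB M} {τ : modularFunctionFieldFullC k M}
    (hf : (redX M hA hπ hs hM).IsRed f τ) (hf'' : (redX M hA hπ hs hM).IsRed f'' (phiK q M τ))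
    {ψ : modularFunctionFieldFullC k M}
    (hψ : (rInf1 M q hA hπ hs hM).IsRed (algebraMap Qb (FB (M * q)) ((q : Qb)⁻¹) *
      ((w1 hqf.out hM : FB (M * q) →ₐ[Qb] FB (M * q)) (al1 M q f'') - al1 M q f ^ q)) ψ) :
    theta k (ψ : LaurentSeries k) = theta k (τ : LaurentSeries k) ^ q -
      (τ : LaurentSeries k) ^ (q - 1) * theta k (τ : LaurentSeries k) := by
  have hqne : (q : Qb) ≠ 0 := by exact_mod_cast hqf.out.ne_zero
  have h2 := gRed_theta (isRed_rInf1.1 hψ)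
  have e : theta Qb ((algebraMap Qb (FB (M * q)) ((q : Qb)⁻¹) *
      ((w1 hqf.out hM : FB (M * q) →ₐ[Qb] FB (M * q)) (al1 M q f'') - al1 M q f ^ q) :
        FB (M * q)) : LaurentSeries Qb) = qExpand Qb q (theta Qb (f'' : LaurentSeries Qb)) -
        (f : LaurentSeries Qb) ^ (q - 1) * theta Qb (f : LaurentSeries Qb) := by
    have e1 : ((algebraMap Qb (FB (M * q)) ((q : Qb)⁻¹) *
        ((w1 hqf.out hM : FB (M * q) →ₐ[Qb] FB (M * q)) (al1 M q f'') - al1 M q f ^ q) :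
          FB (M * q)) : LaurentSeries Qb) = HahnSeries.C ((q : Qb)⁻¹) *
          (qExpand Qb q (f'' : LaurentSeries Qb) - (f : LaurentSeries Qb) ^ q) := by
      have e0 : ((algebraMap Qb (FB (M * q)) ((q : Qb)⁻¹) : FB (M * q)) : LaurentSeries Qb) =
          HahnSeries.C ((q : Qb)⁻¹) := by
        rw [← algebraMap_eq_C]
        rfl
      rw [← coe_w_al (hM := hM) f'', ← coe_al1 M q f, IntermediateField.coe_mul, e0,
        AddSubgroupClass.coe_sub, IntermediateField.coe_pow]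
    have e2 : (HahnSeries.C ((q : Qb)⁻¹) : LaurentSeries Qb) * (q : LaurentSeries Qb) = 1 := by
      have e3 : (q : LaurentSeries Qb) = HahnSeries.C (q : Qb) := (map_natCast HahnSeries.C q).symm
      rw [e3, ← map_mul, inv_mul_cancel₀ hqne, map_one]
    rw [e1, theta_C_mul, map_sub, theta_qExpand, theta_pow]
    linear_combination (qExpand Qb q (theta Qb (f'' : LaurentSeries Qb)) -
        (f : LaurentSeries Qb) ^ (q - 1) * theta Qb (f : LaurentSeries Qb)) * e2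
  rw [e] at h2
  have h3 := gRed_sub (gRed_qExpand (gRed_theta (isRed_redX.1 hf'')) q)
    ((gRed_pow (isRed_redX.1 hf) (q - 1)).mul (gRed_theta (isRed_redX.1 hf)))
  rw [h2.unique h3, coe_phiK, theta_coeffMap, ← ESh.pow_eq_qExpand]

local notation "𝓗" => twoLevel hA hπ hs hM

/-- the Hasse invariant vanishes at the nodes. -/
theorem hasse_pos {s : (regAlg k (RedQ.xj k M ^ (q + 1)) ⧸ (𝓗).cond) →ₐ[k] k}
    {Q₁ : Place k (modularFunctionFieldFullC k M)}
    (val1 : ∀ b : regAlg k (RedQ.xj k M ^ (q + 1)),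
      HasVal Q₁ (b : modularFunctionFieldFullC k M) (br1 𝓗 s b))
    {h : modularFunctionFieldFullC k M} (hh : (h : LaurentSeries k) * (Igusa.deltaC k) ^ (q - 1) = 1)
    (hh1 : (rInf1 M q hA hπ hs hM).IsRed (d1 M q) h) : 0 < Q₁.ord h := by
  have hd1reg : d1 M q ∈ regAlg Qb (al1 M q (jB M) *
      (w1 hqf.out hM : FB (M * q) →ₐ[Qb] FB (M * q)) (al1 M q (jB M))) := by
    rw [(𝓗).regAlg_eq, al1_jB]
    exact mem_regAlg_of_isIntegral isInt_d1
  obtain ⟨n1, n2, hgl'⟩ := br_glue (H := 𝓗) (s := s) hd1reg hh1 isRed_zero_d1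
  have h1 : (⟨0, n2⟩ : regAlg k (RedQ.xj k M ^ (q + 1))) = 0 := rfl
  rw [h1, map_zero] at hgl'
  have h2 := val1 ⟨h, n1⟩
  rw [hgl'] at h2
  rcases hasVal_zero_iff.1 h2 with h3 | h3
  · exfalso
    change h = 0 at h3
    rw [h3] at hh
    simp at hh
  · exact h3

/-- **Regular parameters at the nodes.** -/
theorem exists_nodeData (hr : ∃ r : ℕ, r.Prime ∧ r ∣ M ∧ r % 12 = 11)
    (s : (regAlg k (RedQ.xj k M ^ (q + 1)) ⧸ (𝓗).cond) →ₐ[k] k) :
    ∃ Q₁ Q₂ z y u z₁ y₂ u₁ u₂, NodeData 𝓗 s (IFix A) (q : Qb) Q₁ Q₂ z y u z₁ y₂ u₁ u₂ ∧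
      ∀ h : modularFunctionFieldFullC k M,
        (h : LaurentSeries k) * (Igusa.deltaC k) ^ (q - 1) = 1 → Q₁.ord h = 12 := by
  haveI := RedQ.isSeparable_charP M k q hM
  have hx' := RedQ.transcendental_xj k M
  haveI : FiniteDimensional k⟮RedQ.xj k M⟯ (modularFunctionFieldFullC k M) :=
    IsFnField.finiteDimensional hx'
  have hqne : (q : Qb) ≠ 0 := by exact_mod_cast hqf.out.ne_zero
  have hg := isFrobAut_coeffSemi (k := k) (M := M) (q := q)
  set g := coeffSemi M (frobeniusEquiv k q) with hgdef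
  obtain ⟨Q₁, val1, val2⟩ := exists_places 𝓗 s hg
  have hQj : 0 ≤ Q₁.ord (RedQ.xj k M) := by
    have h1 : RedQ.xj k M ∈ regAlg k (RedQ.xj k M ^ (q + 1)) := by
      rw [TwoLevel.regAlg_pow (Nat.succ_ne_zero q)]
      exact self_mem_regAlg _
    exact (val1 ⟨RedQ.xj k M, h1⟩).nonneg
  obtain ⟨a, ha⟩ := exists_hasVal hQj
  obtain ⟨τ, hτi, hτ1, -⟩ := exists_unif_isolated hx' ha
  obtain ⟨f, hf, hfi, -, hfx⟩ := exists_fixed_lift_jB hA hπ hs hM hτi
  obtain ⟨f', hf', hfi', -, hfx'⟩ := exists_fixed_lift_jB hA hπ hs hM (hg.integral_inv hτi)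
  obtain ⟨f'', hf'', hfi'', -, hfx''⟩ := exists_fixed_lift_jB hA hπ hs hM (hg.integral hτi)
  have hIf : IFix A f := hfx
  have hIf' : IFix A f' := hfx'
  have hIf'' : IFix A f'' := hfx''
  obtain ⟨hz1, hz2, hy1, hy2⟩ := red_zy hg 𝓗 hf hf' hf''
  obtain ⟨hz1o, hy2o⟩ := ord_zy (H := 𝓗) hg val1 val2 hτi hτ1
  have hwI : ∀ {x : FB M}, IFix A x →
      IFix A ((w1 hqf.out hM : FB (M * q) →ₐ[Qb] FB (M * q)) (al1 M q x)) := fun {x} hx =>
    IFix.w1 (hM := hM) hx.al1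
  have hIz := hIf.al1.sub ((hwI hIf').pow q)
  have hIy := (hwI hIf'').sub (hIf.al1.pow q)
  have hregz := sub_mem (al_mem_reg 𝓗 hfi) (pow_mem (be_mem_reg 𝓗 hfi') q)
  have hregy := sub_mem (be_mem_reg 𝓗 hfi'') (pow_mem (al_mem_reg 𝓗 hfi) q)
  obtain ⟨ψ, hψ⟩ := (rInf1 M q hA hπ hs hM).exists_isRed_of_mem (div_q_inf hIy hy1)
  obtain ⟨ψ', hψ'⟩ := (rZero1 M q hA hπ hs hM).exists_isRed_of_mem (div_q_zero hIz hz2)
  have hψ1 := ord_psi_ge (H := 𝓗) (s := s) val1 hregz hregy hz1 hz1o hy2 hψ hψ'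
  have hφ : g • τ = phiK q M τ := gF_coeffSemi_frob τ
  rw [hφ] at hf''
  have hθ := theta_psi hf hf'' hψ
  obtain ⟨h, hh, hh1⟩ := Fermat.Agent.QComp.exists_hasse M hA hπ hs hM
  obtain ⟨hψ0, hψo, h12⟩ := ord_psi_eq hA hπ hs hM hr hh Q₁ hQj (hasse_pos val1 hh hh1) hτ1 hθ hψ1
  obtain ⟨u, u₁, u₂, hu⟩ := nodeData_of (H := 𝓗) (s := s) (P := IFix A) hqne val1 val2 hIz hIy
    hregz hregy hz1 hz1o hz2 hy1 hy2 hy2o hψ hψ' hψ0 hψo
  refine ⟨_, _, _, _, _, _, _, _, _, hu, fun h' hh' => ?_⟩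
  have h1 : h' = h := by
    apply Subtype.ext
    exact mul_right_cancel₀ (pow_ne_zero _ (Igusa.deltaC_ne_zero k)) (hh'.trans hh.symm)
  rwa [h1]

end Main

end Fermat.Agent.Node
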