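import Fermat.Agent.Node.Place
import Fermat.Agent.QComp.ModGal
import Fermat.Agent.QComp.OrdT
import Fermat.Agent.QVal.Units

/-!
# Regular parameters at the nodes of `X₀(M q)` modulo `q`, for rigid `M`
-/

set_option autoImplicit false
set_option linter.unusedSectionVars false
set_option linter.style.haveILetI false
set_option linter.unusedVariables false

noncomputable section

open AlgebraicCurve ModularCurve IntermediateField Module

namespace Fermat.Agent.Node

open Fermat.Agent.FF Fermat.Agent.Red Fermat.Agent.QVal Fermat.Agent.JZ Fermat.Agent.QComp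

local notation "Qb" => AlgebraicClosure ℚ

section DivQ

variable {k : Type*} [Field k] {A : ValuationSubring Qb} {π : A →+* k} {M q : ℕ} [NeZero M]
  [NeZero q] [hqf : Fact q.Prime] {hA : A.LiesOverPrime q} {hπ : ∀ a : A, π a = 0 ↔ ¬ IsUnit a}
  {hs : Function.Surjective π} {hM : ¬ q ∣ M}

theorem q_mem (hA : A.LiesOverPrime q) (hπ : ∀ a : A, π a = 0 ↔ ¬ IsUnit a) :
    ∃ h : (q : Qb) ∈ A, π ⟨(q : Qb), h⟩ = 0 := by
  have h1 : ((q : A) : Qb) ∈ A.nonunits := by
    have := hA
    rw [ValuationSubring.LiesOverPrime] at this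
    simpa using this
  have h2 : ((q : A) : Qb) = (q : Qb) := by simp
  refine ⟨by rw [← h2]; exact (q : A).2, ?_⟩
  rw [hπ]
  have h3 := A.coe_mem_nonunits_iff.1 h1
  have h4 : (⟨(q : Qb), by rw [← h2]; exact (q : A).2⟩ : A) = (q : A) := Subtype.ext h2.symm
  rw [h4]
  exact (IsLocalRing.mem_maximalIdeal _).1 h3

/-- if `f` has reduction zero, and `q^n f` has a nonzero reduction, then `f/q` is integral. -/
theorem div_q_mem {κ F : Type*} [Field κ] [Algebra k κ] [Field F] [Algebra Qb F]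
    (R : ConstRed A π F κ) (hA : A.LiesOverPrime q) (hπ : ∀ a : A, π a = 0 ↔ ¬ IsUnit a)
    {f : F} (h0 : R.IsRed f 0)
    {n : ℤ} {z : κ} (hz : z ≠ 0) (h : R.IsRed (algebraMap Qb F ((q : Qb) ^ n) * f) z) :
    algebraMap Qb F ((q : Qb)⁻¹) * f ∈ R.O := by
  obtain ⟨hqA, hq0⟩ := q_mem hA hπ
  have hqne : (q : Qb) ≠ 0 := by exact_mod_cast hqf.out.ne_zero
  have key : ∀ m : ℕ, R.IsRed (algebraMap Qb F ((q : Qb) ^ m)) ((0 : κ) ^ m) := by
    intro m
    have h1 := (R.isRed_algebraMap hqA).pow m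
    rw [hq0, map_zero, ← map_pow] at h1
    exact h1
  rcases le_or_gt 0 n with hn | hn
  · exfalso
    obtain ⟨m, rfl⟩ := Int.eq_ofNat_of_zero_le hn
    rw [zpow_natCast] at h
    have h2 := (key m).mul h0
    rw [mul_zero] at h2
    exact hz (h.unique h2)
  · obtain ⟨m, hm⟩ := Int.eq_ofNat_of_zero_le (show 0 ≤ -1 - n by omega)
    have hn' : (q : Qb)⁻¹ = (q : Qb) ^ m * (q : Qb) ^ n := by
      rw [← zpow_natCast, ← hm, ← zpow_add₀ hqne, ← zpow_neg_one]
      congr 1
      ring
    rw [hn', map_mul, mul_assoc]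
    exact ((key m).mul h).mem

theorem div_q_inf {f : FB (M * q)} (hf : IFix A f) (h0 : (rInf1 M q hA hπ hs hM).IsRed f 0) :
    algebraMap Qb (FB (M * q)) ((q : Qb)⁻¹) * f ∈ (rInf1 M q hA hπ hs hM).O := by
  rcases eq_or_ne f 0 with rfl | hf0
  · rw [mul_zero]; exact zero_mem _
  obtain ⟨n, z, hz, h⟩ := value_inf1 (hA := hA) (hπ := hπ) (hs := hs) (hM := hM) hf hf0
  exact div_q_mem _ hA hπ h0 hz h

theorem div_q_zero {f : FB (M * q)} (hf : IFix A f) (h0 : (rZero1 M q hA hπ hs hM).IsRed f 0) :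
    algebraMap Qb (FB (M * q)) ((q : Qb)⁻¹) * f ∈ (rZero1 M q hA hπ hs hM).O := by
  rcases eq_or_ne f 0 with rfl | hf0
  · rw [mul_zero]; exact zero_mem _
  obtain ⟨n, z, hz, h⟩ := value_zero1 (hA := hA) (hπ := hπ) (hs := hs) (hM := hM) hf hf0
  exact div_q_mem _ hA hπ h0 hz h

end DivQ

section Series

theorem theta_qExpand {R : Type*} [CommRing R] (n : ℕ) [NeZero n] (f : LaurentSeries R) :
    theta R (qExpand R n f) = (n : LaurentSeries R) * qExpand R n (theta R f) := by
  ext m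
  have hcast : ((n : LaurentSeries R) * qExpand R n (theta R f)).coeff m =
      (n : R) * (qExpand R n (theta R f)).coeff m := by
    rw [← nsmul_eq_mul, HahnSeries.coeff_nsmul, Pi.smul_apply, nsmul_eq_mul]
  rw [hcast, theta_coeff]
  by_cases hm : (n : ℤ) ∣ m
  · obtain ⟨r, rfl⟩ := hm
    rw [qExpand_coeff_mul, qExpand_coeff_mul, theta_coeff]
    push_cast
    ring
  · rw [qExpand_coeff_of_not_dvd n f hm, qExpand_coeff_of_not_dvd n _ hm]
    ring

end Series

section OrdDD

theorem ord_dd_of_neg_one {k F : Type*} [Field k] [Field F] [Algebra k F] [IsAlgClosed k]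
    [IsFnField k F] {t : F} [Algebra.IsSeparable k⟮t⟯ F] (ht : Transcendental k t)
    (v : Place k F) (hv : v.ord t = 1) {f : F} (hf : v.ord f = -1) : v.ord (dd ht f) = -2 := by
  have ht0 : t ≠ 0 := transcendental_ne_zero ht
  have hf0 : f ≠ 0 := by rintro rfl; simp at hf
  have h1 : v.ord (t * f) = 0 := by rw [v.ord_mul ht0 hf0, hv, hf]; norm_num
  have h2 := ord_dd_nonneg ht v hv h1.ge
  have h3 : t * dd ht f = -f + dd ht (t * f) := by
    rw [Derivation.leibniz, dd_self]
    simp only [smul_eq_mul]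
    ring
  have h4 : v.ord (-f + dd ht (t * f)) = -1 ∧ -f + dd ht (t * f) ≠ 0 := by
    have h5 := ord_add_eq_of_lt v (neg_ne_zero.2 hf0) (g := dd ht (t * f))
      (Or.inr (by rw [ord_neg, hf]; omega))
    rw [ord_neg, hf] at h5
    refine ⟨h5, ?_⟩
    intro h0
    rw [h0] at h5
    simp at h5
  rw [← h3] at h4
  have h5 := right_ne_zero_of_mul h4.2
  have h6 := h4.1
  rw [v.ord_mul ht0 h5, hv] at h6
  omega

end OrdDD

section Core

variable {k : Type*} [Field k] {A : ValuationSubring Qb} {π : A →+* k} {M q : ℕ} [NeZero M]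
  [NeZero q] [hqf : Fact q.Prime]

theorem ord_psi_eq (hA : A.LiesOverPrime q) (hπ : ∀ a : A, π a = 0 ↔ ¬ IsUnit a)
    (hs : Function.Surjective π) (hM : ¬ q ∣ M) [IsFnField k (modularFunctionFieldFullC k M)]
    (hr : ∃ r : ℕ, r.Prime ∧ r ∣ M ∧ r % 12 = 11) {h : modularFunctionFieldFullC k M}
    (hh : (h : LaurentSeries k) * (Igusa.deltaC k) ^ (q - 1) = 1)
    (Q : Place k (modularFunctionFieldFullC k M)) (hQ : 0 ≤ Q.ord (RedQ.xj k M))
    (hQh : 0 < Q.ord h) {t ψ : modularFunctionFieldFullC k M} (ht : Q.ord t = 1)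
    (hψ : theta k (ψ : LaurentSeries k) = theta k (t : LaurentSeries k) ^ q -
      (t : LaurentSeries k) ^ (q - 1) * theta k (t : LaurentSeries k)) (h1 : -1 ≤ Q.ord ψ) :
    ψ ≠ 0 ∧ Q.ord ψ = -1 ∧ Q.ord h = 12 := by
  haveI : IsAlgClosed k := isAlgClosed_of_surjective hs
  haveI hch : CharP k q := charP_of_liesOverPrime hA hπ
  haveI := RedQ.isSeparable_charP M k q hM
  haveI : CharP (modularFunctionFieldFullC k M) q :=
    charP_of_injective_algebraMap (algebraMap k (modularFunctionFieldFullC k M)).injective q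
  have hq := hqf.out
  have hx' := RedQ.transcendental_xj k M
  have htt : Transcendental k t := transcendental_of_ord_ne_zero Q (by rw [ht]; norm_num)
  haveI : Algebra.IsSeparable k⟮t⟯ (modularFunctionFieldFullC k M) :=
    isSeparable_of_D_ne_zero hx' (D_ne_zero_of_ord_eq_one q hx' Q ht)
  haveI : FiniteDimensional k⟮t⟯ (modularFunctionFieldFullC k M) := IsFnField.finiteDimensional htt
  set T : modularFunctionFieldFullC k M := ⟨theta k (t : LaurentSeries k) ^ (q - 1),
    theta_pow_mem hA hπ hs hM t.2⟩ with hT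
  obtain ⟨hT0, hT6⟩ := six_ord_theta_pow hA hπ hs hM hr hh Q hQ ht (T := T) rfl
  have hTneg : Q.ord T < 0 := by omega
  have hθ0 : theta k (t : LaurentSeries k) ≠ 0 := by
    intro h0
    apply hT0
    apply Subtype.ext
    change theta k (t : LaurentSeries k) ^ (q - 1) = 0
    rw [h0, zero_pow (by have := hq.two_le; omega)]
  have hdd : dd htt ψ = T - t ^ (q - 1) := by
    apply Subtype.ext
    apply mul_right_cancel₀ hθ0
    rw [← theta_eq_dd htt ψ, hψ]
    have e1 : ((T - t ^ (q - 1) : modularFunctionFieldFullC k M) : LaurentSeries k) =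
        theta k (t : LaurentSeries k) ^ (q - 1) - (t : LaurentSeries k) ^ (q - 1) := by
      push_cast
      rfl
    rw [e1, sub_mul, ← pow_succ, Nat.sub_add_cancel hq.one_lt.le]
  have ht0 : t ≠ 0 := transcendental_ne_zero htt
  have hord : Q.ord (dd htt ψ) = Q.ord T ∧ dd htt ψ ≠ 0 := by
    rw [hdd, sub_eq_add_neg]
    have hlt : Q.ord T < Q.ord (-(t ^ (q - 1))) := by
      rw [ord_neg, ord_pow, ht]
      have : (0 : ℤ) ≤ ((q - 1 : ℕ) : ℤ) * 1 := by positivity
      omega
    have h2 := ord_add_eq_of_lt Q hT0 (Or.inr hlt)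
    refine ⟨h2, ?_⟩
    intro h0
    rw [h0] at h2
    have h3 : T = t ^ (q - 1) := by
      have := eq_neg_of_add_eq_zero_left h0
      rwa [neg_neg] at this
    rw [h3, ord_pow, ht] at hTneg
    have : (0 : ℤ) ≤ ((q - 1 : ℕ) : ℤ) * 1 := by positivity
    omega
  have hψ0 : ψ ≠ 0 := by
    rintro rfl
    exact hord.2 (map_zero _)
  have hψ1 : Q.ord ψ = -1 := by
    by_contra hne
    have h4 : 0 ≤ Q.ord ψ := by omega
    have h5 := ord_dd_nonneg htt Q ht h4
    rw [hord.1] at h5
    omega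
  have h6 := ord_dd_of_neg_one htt Q ht hψ1
  rw [hord.1] at h6
  exact ⟨hψ0, hψ1, by omega⟩

end Core

end Fermat.Agent.Node
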