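import Fermat.Agent.QComp.TwoReg
import Fermat.Agent.Red.Norm

/-!
# Places attached to algebra homomorphisms of the ring of regular functions
-/

set_option autoImplicit false
set_option linter.unusedSectionVars false
set_option linter.style.haveILetI false

open AlgebraicCurve IntermediateField Module IsDedekindDomain
open scoped IntermediateField.algebraAdjoinAdjoin

namespace Fermat.Agent.Node

open Fermat.Agent.FF Fermat.Agent.Red Fermat.Agent.QComp

variable {k κ : Type*} [Field k] [Field κ] [Algebra k κ] [IsAlgClosed k] [IsFnField k κ]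
  {x : κ}

theorem isIntegral_of_mem_regAlg' [FiniteDimensional k⟮x⟯ κ] [Algebra.IsSeparable k⟮x⟯ κ] {f : κ}
    (hf : f ∈ regAlg k x) : IsIntegral (Algebra.adjoin k {x}) f :=
  isIntegral_of_forall (mem_regAlg_iff.1 hf)

/-- the inclusion of the integral closure into the algebra of regular functions -/
noncomputable def intReg (x : κ) : IntCl k x →+* regAlg k x :=
  (algebraMap (IntCl k x) κ).codRestrict (regAlg k x).toSubring fun b =>
    mem_regAlg_of_isIntegral b.2

@[simp] theorem coe_intReg (b : IntCl k x) : ((intReg x b : regAlg k x) : κ) = b := rfl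

/-- **The place attached to a point of the affine curve.** -/
theorem exists_place_of_hom (hx : Transcendental k x) [FiniteDimensional k⟮x⟯ κ]
    [Algebra.IsSeparable k⟮x⟯ κ] (e : regAlg k x →ₐ[k] k) :
    ∃ Q : Place k κ, ∀ b : regAlg k x, HasVal Q (b : κ) (e b) := by
  set a : k := e ⟨x, self_mem_regAlg x⟩ with ha
  set g : IntCl k x →+* k := (e : regAlg k x →+* k).comp (intReg x) with hg
  set I : Ideal (IntCl k x) := RingHom.ker g with hI
  haveI : I.IsPrime := RingHom.ker_isPrime g
  have hmem : ∀ b : IntCl k x, b ∈ I ↔ e (intReg x b) = 0 := fun b => Iff.rfl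
  haveI : I.LiesOver (Ideal.span {(genSub x a : Algebra.adjoin k {x})}) := by
    refine ⟨?_⟩
    refine (isMaximal_span_genSub hx a).eq_of_le
      (Ideal.IsPrime.ne_top (Ideal.IsPrime.under _ I)) ?_
    rw [Ideal.span_singleton_le_iff_mem, Ideal.under, Ideal.mem_comap, hmem]
    have h1 : intReg x (algebraMap (Algebra.adjoin k {x}) (IntCl k x) (genSub x a)) =
        ⟨x, self_mem_regAlg x⟩ - algebraMap k (regAlg k x) a := by
      apply Subtype.ext
      rfl
    rw [h1, map_sub, AlgHom.commutes, ← ha]
    simp
  obtain ⟨w, P, hwI, hP, hPx, hval⟩ := exists_place_of_prime (a := a) hx I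
  refine ⟨P, fun b => ?_⟩
  have hb := isIntegral_of_mem_regAlg' b.2
  have hc : IsIntegral (Algebra.adjoin k {x}) ((b : κ) - algebraMap k κ (e b)) := by
    have h2 : algebraMap k κ (e b) =
        algebraMap (Algebra.adjoin k {x}) κ (algebraMap k (Algebra.adjoin k {x}) (e b)) := rfl
    rw [h2]
    exact hb.sub (isIntegral_algebraMap)
  have h1 := (hval ⟨_, hc⟩).1 (by
    rw [hmem]
    have h3 : intReg x ⟨(b : κ) - algebraMap k κ (e b), hc⟩ =
        b - algebraMap k (regAlg k x) (e b) := Subtype.ext rfl
    rw [h3, map_sub, AlgHom.commutes]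
    simp)
  have h4 := h1.add (hasVal_algebraMap P (e b))
  rw [zero_add] at h4
  have h5 : ((⟨(b : κ) - algebraMap k κ (e b), hc⟩ : IntCl k x) : κ) + algebraMap k κ (e b) = b :=
    sub_add_cancel _ _
  rwa [h5] at h4

end Fermat.Agent.Node
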