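import Fermat.Agent.MazurP.Reg
import Fermat.Agent.MazurP.Tube
import Fermat.Agent.QComp.TwoRed

/-!
# Points of the special fibre and their tubes

`spRing R₁ R₂ x` is the ring of functions regular outside the poles of `x` and integral along the
two components. A point `e : SpPt R₁ R₂ x` of the special fibre is a homomorphism to the residue
field; its tube `e.tube` is the set of places specialising to it. The main result is `exists_den`:
functions regular on the tube are fractions with denominators which are units at the point.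
-/

set_option autoImplicit false
set_option linter.unusedSectionVars false
set_option linter.style.haveILetI false
set_option linter.unusedVariables false

noncomputable section

open AlgebraicCurve IntermediateField Module

namespace Fermat.Agent.Node

open Fermat.Agent.FF Fermat.Agent.Red Fermat.Agent.QComp Fermat.Agent.MazurP

variable {K k : Type*} [Field K] [Field k] {A : ValuationSubring K} {π : A →+* k}
  {F κ₁ κ₂ : Type*} [Field F] [Algebra K F] [Field κ₁] [Algebra k κ₁] [Field κ₂] [Algebra k κ₂]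

section Ring

variable (R₁ : ConstRed A π F κ₁) (R₂ : ConstRed A π F κ₂) (x : F)

/-- functions which are regular outside the poles of `x` and integral along both components -/
def spRing : Subring F where
  carrier := {f | f ∈ regAlg K x ∧ f ∈ R₁.O ∧ f ∈ R₂.O}
  mul_mem' ha hb := ⟨mul_mem ha.1 hb.1, mul_mem ha.2.1 hb.2.1, mul_mem ha.2.2 hb.2.2⟩
  one_mem' := ⟨one_mem _, one_mem _, one_mem _⟩
  add_mem' ha hb := ⟨add_mem ha.1 hb.1, add_mem ha.2.1 hb.2.1, add_mem ha.2.2 hb.2.2⟩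
  zero_mem' := ⟨zero_mem _, zero_mem _, zero_mem _⟩
  neg_mem' ha := ⟨neg_mem ha.1, neg_mem ha.2.1, neg_mem ha.2.2⟩

end Ring

variable {R₁ : ConstRed A π F κ₁} {R₂ : ConstRed A π F κ₂} {x : F}

theorem mem_spRing {f : F} : f ∈ spRing R₁ R₂ x ↔ f ∈ regAlg K x ∧ f ∈ R₁.O ∧ f ∈ R₂.O := Iff.rfl

theorem algebraMap_mem_spRing (a : A) : algebraMap K F a ∈ spRing R₁ R₂ x :=
  ⟨Subalgebra.algebraMap_mem _ _, (R₁.algebraMap_mem_iff _).2 a.2, (R₂.algebraMap_mem_iff _).2 a.2⟩

variable (R₁ R₂ x) in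
/-- constants in the ring -/
def spC : A →+* spRing R₁ R₂ x :=
  ((algebraMap K F).comp A.subtype).codRestrict _ fun a => algebraMap_mem_spRing a

@[simp] theorem coe_spC (a : A) : ((spC R₁ R₂ x a : spRing R₁ R₂ x) : F) = algebraMap K F a := rfl

/-- every regular function becomes integral after scaling -/
theorem exists_scale_mem {f : F} (hf : f ∈ regAlg K x) :
    ∃ c : K, c ≠ 0 ∧ algebraMap K F c * f ∈ spRing R₁ R₂ x := by
  rcases eq_or_ne f 0 with rfl | hf0
  · exact ⟨1, one_ne_zero, by rw [mul_zero]; exact zero_mem _⟩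
  obtain ⟨c₁, hc₁, h1, -⟩ := R₁.exists_scale f hf0
  obtain ⟨c₂, hc₂, h2, -⟩ := R₂.exists_scale f hf0
  rcases A.mem_or_inv_mem (c₁ / c₂) with h | h
  · refine ⟨c₁, hc₁, mul_mem (Subalgebra.algebraMap_mem _ _) hf, h1, ?_⟩
    have h3 := mul_mem ((R₂.algebraMap_mem_iff _).2 h) h2
    have e : algebraMap K F (c₁ / c₂) * (algebraMap K F c₂ * f) = algebraMap K F c₁ * f := by
      rw [← mul_assoc, ← map_mul, div_mul_cancel₀ _ hc₂]
    rwa [e] at h3
  · refine ⟨c₂, hc₂, mul_mem (Subalgebra.algebraMap_mem _ _) hf, ?_, h2⟩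
    have h3 := mul_mem ((R₁.algebraMap_mem_iff _).2 h) h1
    have e : algebraMap K F (c₁ / c₂)⁻¹ * (algebraMap K F c₁ * f) = algebraMap K F c₂ * f := by
      rw [← mul_assoc, ← map_mul, inv_div, div_mul_cancel₀ _ hc₁]
    rwa [e] at h3

variable (R₁ R₂ x) in
/-- a point of the special fibre -/
structure SpPt where
  /-- evaluation at the point -/
  ev : spRing R₁ R₂ x →+* k
  ev_const : ∀ a : A, ev (spC R₁ R₂ x a) = π a

variable [IsAlgClosed K] [IsFnField K F]

/-- the tube of places over a point of the special fibre -/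
def SpPt.tube (e : SpPt R₁ R₂ x) : Set (Place K F) :=
  {P | 0 ≤ P.ord x ∧ ∀ (f : spRing R₁ R₂ x) (a : K), HasVal P (f : F) a →
    ∃ ha : a ∈ A, π ⟨a, ha⟩ = e.ev f}

theorem spRing_nonneg {P : Place K F} (hP : 0 ≤ P.ord x) (f : spRing R₁ R₂ x) :
    0 ≤ P.ord (f : F) := mem_regAlg_iff.1 f.2.1 P hP

/-- a function vanishing at a place outside of the tube, but not at the point -/
theorem SpPt.exists_kill (e : SpPt R₁ R₂ x) {P : Place K F} (hPx : 0 ≤ P.ord x)
    (hP : P ∉ e.tube) : ∃ d : spRing R₁ R₂ x, e.ev d ≠ 0 ∧ HasVal P (d : F) 0 := by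
  have h1 : ¬ ∀ (f : spRing R₁ R₂ x) (a : K), HasVal P (f : F) a →
      ∃ ha : a ∈ A, π ⟨a, ha⟩ = e.ev f := fun h => hP ⟨hPx, h⟩
  push Not at h1
  obtain ⟨f, a, ha, h2⟩ := h1
  by_cases hA : a ∈ A
  · refine ⟨f - spC R₁ R₂ x ⟨a, hA⟩, ?_, ?_⟩
    · rw [map_sub, e.ev_const, sub_ne_zero]
      exact (h2 hA).symm
    · have h3 := ha.sub (hasVal_algebraMap P a)
      rwa [sub_self] at h3
  · have hA' : a⁻¹ ∈ A := (A.mem_or_inv_mem a).resolve_left hA
    have ha0 : a ≠ 0 := by rintro rfl; exact hA A.zero_mem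
    refine ⟨1 - spC R₁ R₂ x ⟨a⁻¹, hA'⟩ * f, ?_, ?_⟩
    · have h4 : π ⟨a⁻¹, hA'⟩ = 0 := by
        rw [R₁.pi_eq_zero_iff]
        intro hu
        obtain ⟨v, hv⟩ := hu.exists_right_inv
        apply hA
        have hv' : a⁻¹ * (v : K) = 1 := congrArg Subtype.val hv
        have : a = v := by field_simp at hv'; exact hv'.symm
        rw [this]; exact v.2
      rw [map_sub, map_mul, e.ev_const, h4, zero_mul, sub_zero, map_one]
      exact one_ne_zero
    · have h3 := (hasVal_one P).sub ((hasVal_algebraMap P a⁻¹).mul ha)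
      rwa [inv_mul_cancel₀ ha0, sub_self] at h3

/-- **Denominators**: functions without poles on the tube are fractions. -/
theorem SpPt.exists_den (e : SpPt R₁ R₂ x) {g : F} (hg : ∀ P ∈ e.tube, 0 ≤ P.ord g) :
    ∃ d : spRing R₁ R₂ x, e.ev d ≠ 0 ∧ (d : F) * g ∈ regAlg K x := by
  classical
  rcases eq_or_ne g 0 with rfl | hg0
  · exact ⟨1, by rw [map_one]; exact one_ne_zero, by rw [mul_zero]; exact zero_mem _⟩
  -- finitely many poles
  have key : ∀ s : Finset (Place K F), ∃ d : spRing R₁ R₂ x, e.ev d ≠ 0 ∧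
      ∀ P ∈ s, 0 ≤ P.ord x → 0 ≤ P.ord ((d : F) * g) := by
    intro s
    induction s using Finset.induction_on with
    | empty => exact ⟨1, by rw [map_one]; exact one_ne_zero, by simp⟩
    | insert P s hP ih =>
      obtain ⟨d, hd, hds⟩ := ih
      have hd0 : (d : F) ≠ 0 := by
        intro h0
        have : d = 0 := Subtype.ext h0
        rw [this, map_zero] at hd
        exact hd rfl
      by_cases hPx : 0 ≤ P.ord x
      swap
      · refine ⟨d, hd, fun P' hP' hP'x => hds P' ?_ hP'x⟩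
        rcases Finset.mem_insert.1 hP' with h | h
        · rw [h] at hP'x; exact absurd hP'x hPx
        · exact h
      by_cases hPt : P ∈ e.tube
      · refine ⟨d, hd, fun P' hP' hP'x => ?_⟩
        rcases Finset.mem_insert.1 hP' with h | h
        · rw [h, P.ord_mul hd0 hg0]
          have h1 := spRing_nonneg hPx d
          have h2 := hg P hPt
          omega
        · exact hds P' h hP'x
      · obtain ⟨f, hf, hfP⟩ := e.exists_kill hPx hPt
        have hf0 : (f : F) ≠ 0 := by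
          intro h0
          have : f = 0 := Subtype.ext h0
          rw [this, map_zero] at hf
          exact hf rfl
        have hfP' : 0 < P.ord (f : F) := (hasVal_zero_iff.1 hfP).resolve_left hf0
        set n : ℕ := (P.ord g).natAbs with hn
        refine ⟨f ^ n * d, by rw [map_mul, map_pow]; exact mul_ne_zero (pow_ne_zero _ hf) hd,
          fun P' hP' hP'x => ?_⟩
        have e1 : ((f ^ n * d : spRing R₁ R₂ x) : F) * g = (f : F) ^ n * ((d : F) * g) := by
          push_cast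
          ring
        rw [e1, P'.ord_mul (pow_ne_zero _ hf0) (mul_ne_zero hd0 hg0), ord_pow]
        have h3 := spRing_nonneg hP'x f
        rcases Finset.mem_insert.1 hP' with h | h
        · subst h
          rw [P'.ord_mul hd0 hg0]
          have h1 := spRing_nonneg hPx d
          have h4 : (n : ℤ) * 1 ≤ n * P'.ord (f : F) :=
            mul_le_mul_of_nonneg_left (by omega) (by positivity)
          omega
        · have h1 := hds P' h hP'x
          have h4 : (0 : ℤ) ≤ n * P'.ord (f : F) := by positivity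
          omega
  obtain ⟨d, hd, hds⟩ := key (RR.divOf (K := K) g).support
  refine ⟨d, hd, ?_⟩
  rw [mem_regAlg_iff]
  intro P hPx
  by_cases hP : P ∈ (RR.divOf (K := K) g).support
  · exact hds P hP hPx
  · rw [Finsupp.mem_support_iff, RR.divOf_apply, not_not] at hP
    rcases eq_or_ne (d : F) 0 with h0 | h0
    · rw [h0, zero_mul]; simp
    rw [P.ord_mul h0 hg0, hP, add_zero]
    exact spRing_nonneg hPx d

/-- **GLUE**: denominators for elements of the local ring -/
theorem SpPt.exists_den' (e : SpPt R₁ R₂ x) {g : F} (hg : g ∈ locRing R₁ R₂ e.tube) :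
    ∃ d : spRing R₁ R₂ x, e.ev d ≠ 0 ∧ (d : F) * g ∈ spRing R₁ R₂ x := by
  obtain ⟨d, hd, h⟩ := e.exists_den (g := g) fun P hP => ord_nonneg_of_mem P (hg.2.2 P hP)
  exact ⟨d, hd, h, mul_mem d.2.2.1 hg.1, mul_mem d.2.2.2 hg.2.1⟩

theorem spRing_le_locRing (e : SpPt R₁ R₂ x) : spRing R₁ R₂ x ≤ locRing R₁ R₂ e.tube :=
  fun f hf => ⟨hf.2.1, hf.2.2, fun P hP => mem_of_ord_nonneg P (mem_regAlg_iff.1 hf.1 P hP.1)⟩

/-- values of elements of the local ring at the places of the tube -/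
theorem SpPt.exists_val (e : SpPt R₁ R₂ x) {g : F} (hg : g ∈ locRing R₁ R₂ e.tube) :
    ∃ (d n : spRing R₁ R₂ x), e.ev d ≠ 0 ∧ (n : F) = d * g ∧
      ∀ P ∈ e.tube, ∀ b : K, HasVal P g b → ∃ hb : b ∈ A, π ⟨b, hb⟩ = e.ev n / e.ev d := by
  obtain ⟨d, hd, hn⟩ := e.exists_den' hg
  refine ⟨d, ⟨_, hn⟩, hd, rfl, fun P hP b hb => ?_⟩
  obtain ⟨δ, hδ⟩ := exists_hasVal (spRing_nonneg hP.1 d)
  obtain ⟨hδA, hδπ⟩ := hP.2 d δ hδ
  obtain ⟨hnA, hnπ⟩ := hP.2 ⟨_, hn⟩ (δ * b) (hδ.mul hb)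
  have hδ0 : π ⟨δ, hδA⟩ ≠ 0 := by rw [hδπ]; exact hd
  have hδu : IsUnit (⟨δ, hδA⟩ : A) := by
    by_contra h
    exact hδ0 ((R₁.pi_eq_zero_iff _).2 h)
  obtain ⟨v, hv⟩ := hδu.exists_right_inv
  have hv' : δ * (v : K) = 1 := congrArg Subtype.val hv
  have hbv : b = (⟨δ * b, hnA⟩ : A) * v := by
    change b = δ * b * v
    linear_combination (-b) * hv'
  have hbA : b ∈ A := by rw [hbv]; exact mul_mem hnA v.2
  refine ⟨hbA, ?_⟩
  have h1 : (⟨b, hbA⟩ : A) * ⟨δ, hδA⟩ = ⟨δ * b, hnA⟩ := Subtype.ext (mul_comm b δ)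
  rw [eq_div_iff hd, ← hδπ, ← map_mul, h1, hnπ]

/-- the local ring of a tube at a node -/
theorem SpPt.node [IsAlgClosed k] [IsFnField k κ₁] [IsFnField k κ₂] (e : SpPt R₁ R₂ x)
    {Q₁ : Place k κ₁} {Q₂ : Place k κ₂}
    (h1 : ∀ f : spRing R₁ R₂ x, HasVal Q₁ (R₁.rd (f : F)) (e.ev f))
    (h2 : ∀ f : spRing R₁ R₂ x, HasVal Q₂ (R₂.rd (f : F)) (e.ev f)) :
    MazurP.Node R₁ R₂ Q₁ Q₂ e.tube where
  glue g hg := by
    obtain ⟨d, n, hd, hn, hval⟩ := e.exists_val hg
    refine ⟨e.ev n / e.ev d, ?_, ?_, hval⟩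
    · have h3 := (R₁.isRed_rd d.2.2.1).mul (R₁.isRed_rd hg.1)
      rw [← hn] at h3
      have h4 := (h1 n).div (h1 d) hd
      have hd0 : R₁.rd (d : F) ≠ 0 := hasVal_ne_zero (h1 d) hd
      rwa [h3.rd_eq, mul_div_cancel_left₀ _ hd0] at h4
    · have h3 := (R₂.isRed_rd d.2.2.2).mul (R₂.isRed_rd hg.2.1)
      rw [← hn] at h3
      have h4 := (h2 n).div (h2 d) hd
      have hd0 : R₂.rd (d : F) ≠ 0 := hasVal_ne_zero (h2 d) hd
      rwa [h3.rd_eq, mul_div_cancel_left₀ _ hd0] at h4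

section Sep

variable [FiniteDimensional K⟮x⟯ F] [Algebra.IsSeparable K⟮x⟯ F]

/-- the local ring separates the places of the tube -/
theorem SpPt.sep (hx : Transcendental K x) (e : SpPt R₁ R₂ x) {P P' : Place K F} (hP : P ∈ e.tube)
    (hP' : P' ∈ e.tube) (hne : P ≠ P') : ∃ g ∈ locRing R₁ R₂ e.tube, ∃ a a', HasVal P g a ∧
      HasVal P' g a' ∧ a ≠ a' := by
  obtain ⟨z, hz, h1, h2, h3⟩ := exists_separate hx hne hP'.1 hP.1
  obtain ⟨c, hc, hcz⟩ := exists_scale_mem (R₁ := R₁) (R₂ := R₂) (mem_regAlg_of_isIntegral hz)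
  obtain ⟨b, hb⟩ := exists_hasVal (P := P') (f := z) h3.ge
  refine ⟨_, spRing_le_locRing e hcz, c * 0, c * b, (hasVal_algebraMap P c).mul h1,
    (hasVal_algebraMap P' c).mul hb, ?_⟩
  rw [mul_zero]
  intro h4
  have hb0 : b = 0 := by
    rcases mul_eq_zero.1 h4.symm with h | h
    · exact absurd h hc
    · exact h
  rw [hb0] at hb
  rcases hasVal_zero_iff.1 hb with h | h
  · exact h2 h
  · omega

/-- the local ring contains uniformizers -/
theorem SpPt.unifP (hx : Transcendental K x) (e : SpPt R₁ R₂ x) {P : Place K F}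
    (hP : P ∈ e.tube) : ∃ g ∈ locRing R₁ R₂ e.tube, P.ord g = 1 := by
  obtain ⟨a, ha⟩ := exists_hasVal hP.1
  obtain ⟨τ, hτ, hτ1, -⟩ := exists_unif_isolated hx ha
  obtain ⟨c, hc, hcz⟩ := exists_scale_mem (R₁ := R₁) (R₂ := R₂) (mem_regAlg_of_isIntegral hτ)
  refine ⟨_, spRing_le_locRing e hcz, ?_⟩
  have hτ0 : τ ≠ 0 := by rintro rfl; simp at hτ1
  rw [P.ord_mul (by simpa using hc) hτ0, ord_algebraMap, hτ1, zero_add]

end Sep

end Fermat.Agent.Node
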