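import Fermat.Agent.MazurP.Tube3

/-!
# Slopes along the tube over a node

For a function `f` on the tube whose divisor is divisible by `n`, the orders of the two reductions
at the node add up to a multiple of `n`, and the difference of the two valuations of `f` is
computed.
-/

set_option autoImplicit false
set_option linter.unusedSectionVars false
set_option linter.style.haveILetI false
set_option linter.unusedVariables false

noncomputable section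

open AlgebraicCurve

namespace Fermat.Agent.Node

open Fermat.Agent.FF Fermat.Agent.Red Fermat.Agent.MazurP

variable {K k : Type*} [Field K] [Field k] {A : ValuationSubring K} {π : A →+* k}
  {F κ₁ κ₂ : Type*} [Field F] [Algebra K F] [Field κ₁] [Algebra k κ₁] [Field κ₂] [Algebra k κ₂]
  {R₁ : ConstRed A π F κ₁} {R₂ : ConstRed A π F κ₂} {Q₁ : Place k κ₁} {Q₂ : Place k κ₂}
  {T : Set (Place K F)}

/-- units of the valuation ring, as elements of the field -/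
def UA (A : ValuationSubring K) (x : K) : Prop := x ∈ A ∧ x⁻¹ ∈ A

theorem UA.mul {x y : K} (hx : UA A x) (hy : UA A y) : UA A (x * y) :=
  ⟨mul_mem hx.1 hy.1, by rw [mul_inv]; exact mul_mem hx.2 hy.2⟩

theorem UA.inv {x : K} (hx : UA A x) : UA A x⁻¹ := ⟨hx.2, by rw [inv_inv]; exact hx.1⟩

theorem UA.pow {x : K} (hx : UA A x) (n : ℕ) : UA A (x ^ n) :=
  ⟨pow_mem hx.1 n, by rw [← inv_pow]; exact pow_mem hx.2 n⟩

theorem UA.one : UA A 1 := ⟨one_mem _, by rw [inv_one]; exact one_mem _⟩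

theorem UA.zpow {x : K} (hx : UA A x) (n : ℤ) : UA A (x ^ n) := by
  cases n with
  | ofNat n => simpa using hx.pow n
  | negSucc n => rw [zpow_negSucc]; exact (hx.pow _).inv

theorem UA.neg {x : K} (hx : UA A x) : UA A (-x) :=
  ⟨neg_mem hx.1, by rw [inv_neg]; exact neg_mem hx.2⟩

/-- the ratio of two scalings -/
theorem ratio_of_isRed {κ : Type*} [Field κ] [Algebra k κ] {R : ConstRed A π F κ} {f : F}
    {a b : K} {u v : κ} (ha : R.IsRed (algebraMap K F a * f) u) (hu : u ≠ 0)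
    (hb : R.IsRed (algebraMap K F b * f) v) (hv : v ≠ 0) :
    UA A (a / b) ∧ ∃ c : k, c ≠ 0 ∧ u = algebraMap k κ c * v := by
  have h0 := ha.ne_zero hu
  have h0' := hb.ne_zero hv
  have hf0 : f ≠ 0 := right_ne_zero_of_mul h0
  have ha0 : algebraMap K F a ≠ 0 := left_ne_zero_of_mul h0
  have hb0 : algebraMap K F b ≠ 0 := left_ne_zero_of_mul h0'
  have h1 := ha.div hb hv
  have h2 := hb.div ha hu
  have e1 : algebraMap K F a * f / (algebraMap K F b * f) = algebraMap K F (a / b) := by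
    rw [map_div₀]; field_simp
  have e2 : algebraMap K F b * f / (algebraMap K F a * f) = algebraMap K F (a / b)⁻¹ := by
    rw [inv_div, map_div₀]; field_simp
  rw [e1] at h1
  rw [e2] at h2
  have hm1 := (R.algebraMap_mem_iff _).1 h1.mem
  have hm2 := (R.algebraMap_mem_iff _).1 h2.mem
  refine ⟨⟨hm1, hm2⟩, π ⟨a / b, hm1⟩, ?_, ?_⟩
  · intro h
    have h3 := h1.unique (R.isRed_algebraMap hm1)
    rw [h, map_zero] at h3
    exact div_ne_zero hu hv h3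
  · have h3 := h1.unique (R.isRed_algebraMap hm1)
    rw [← h3, div_mul_cancel₀ _ hv]

variable [IsAlgClosed K] [IsFnField K F] [IsAlgClosed k] [IsFnField k κ₁] [IsFnField k κ₂]

theorem ord_eq_of_isRed {R : ConstRed A π F κ₁} {Q : Place k κ₁} {f : F}
    {a b : K} {u v : κ₁} (ha : R.IsRed (algebraMap K F a * f) u) (hu : u ≠ 0)
    (hb : R.IsRed (algebraMap K F b * f) v) (hv : v ≠ 0) : Q.ord u = Q.ord v := by
  obtain ⟨-, c, hc, rfl⟩ := ratio_of_isRed ha hu hb hv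
  rw [Q.ord_mul (by simpa using hc) hv, ord_algebraMap, zero_add]

/-- **units on the tube** -/
theorem slope_unit (N : MazurP.Node R₁ R₂ Q₁ Q₂ T) {ϖ : A} {z : F}
    (hz : Param R₁ R₂ Q₁ Q₂ T ϖ z) {u : F} (hT : ∀ P ∈ T, P.ord u = 0) {γ₁ γ₂ : K}
    {u₁ : κ₁} {u₂ : κ₂} (h1 : R₁.IsRed (algebraMap K F γ₁ * u) u₁) (h10 : u₁ ≠ 0)
    (h2 : R₂.IsRed (algebraMap K F γ₂ * u) u₂) (h20 : u₂ ≠ 0) :
    Q₁.ord u₁ + Q₂.ord u₂ = 0 ∧ UA A (γ₁ / (γ₂ * (ϖ : K) ^ (Q₁.ord u₁))) := by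
  obtain ⟨z₁, hz1, hz1o⟩ := hz.red1
  obtain ⟨y₂, hy2, hy2o⟩ := hz.red2
  have hz10 : z₁ ≠ 0 := ne_zero_of_ord_eq_one hz1o
  have hy20 : y₂ ≠ 0 := ne_zero_of_ord_eq_one hy2o
  have hz0 := hz.ne_zero
  have hϖ0 := hz.ϖ_ne
  have h0 := h1.ne_zero h10
  have hu0 : u ≠ 0 := right_ne_zero_of_mul h0
  have hγ₁ : algebraMap K F γ₁ ≠ 0 := left_ne_zero_of_mul h0
  set e := Q₁.ord u₁ with he
  have hze : z ^ (-e) ≠ 0 := zpow_ne_zero _ hz0
  set g := algebraMap K F γ₁ * u * z ^ (-e) with hg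
  have hg1 : R₁.IsRed g (u₁ * z₁ ^ (-e)) := h1.mul (isRed_zpow hz1 hz10 _)
  have hg10 : u₁ * z₁ ^ (-e) ≠ 0 := mul_ne_zero h10 (zpow_ne_zero _ hz10)
  have hg1o : Q₁.ord (u₁ * z₁ ^ (-e)) = 0 := by
    rw [Q₁.ord_mul h10 (zpow_ne_zero _ hz10), Q₁.ord_zpow, hz1o, ← he]
    ring
  have hg0 := hg1.ne_zero hg10
  have hgT : ∀ P ∈ T, P.ord g = 0 := by
    intro P hP
    rw [hg, P.ord_mul (mul_ne_zero hγ₁ hu0) hze, P.ord_mul hγ₁ hu0, ord_algebraMap, P.ord_zpow,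
      hT P hP, hz.ord_eq_zero hP]
    ring
  obtain ⟨hgL, hgL'⟩ := N.unit hg0 hgT hg1 hg10 hg1o
  obtain ⟨c, hc1, hc2, -⟩ := N.glue g hgL
  rw [hg1.rd_eq] at hc1
  have hc0 : c ≠ 0 := (hasVal_ne_zero_iff hc1).2 ⟨hg10, hg1o⟩
  set g₂ := R₂.rd g with hg₂
  have hg2 : R₂.IsRed g g₂ := R₂.isRed_rd hgL.2.1
  have hg20 : g₂ ≠ 0 := hasVal_ne_zero hc2 hc0
  have hg2o : Q₂.ord g₂ = 0 := hc2.ord_eq_zero hc0
  -- remove the parameter
  have h3 : R₂.IsRed (algebraMap K F (γ₁ * (ϖ : K) ^ (-e)) * u) (g₂ * y₂ ^ (-e)) := by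
    have h4 := hg2.mul (isRed_zpow hy2 hy20 (-e))
    convert h4 using 1
    rw [hg, div_zpow, map_mul, map_zpow₀]
    field_simp
  have h30 : g₂ * y₂ ^ (-e) ≠ 0 := mul_ne_zero hg20 (zpow_ne_zero _ hy20)
  have h4 : Q₂.ord u₂ = -e := by
    rw [ord_eq_of_isRed h2 h20 h3 h30, Q₂.ord_mul hg20 (zpow_ne_zero _ hy20), Q₂.ord_zpow, hg2o,
      hy2o]
    ring
  refine ⟨by omega, ?_⟩
  have h5 := (ratio_of_isRed h3 h30 h2 h20).1
  have e1 : γ₁ * (ϖ : K) ^ (-e) / γ₂ = γ₁ / (γ₂ * (ϖ : K) ^ e) := by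
    rw [zpow_neg, div_eq_mul_inv, div_eq_mul_inv, mul_inv]
    ring
  rwa [e1] at h5

/-- **The slope formula.** -/
theorem slope_formula {F₀ : Subfield F} {ϖ : A} (D : TubeData R₁ R₂ Q₁ Q₂ T F₀ ϖ) {z : F}
    (hz : Param R₁ R₂ Q₁ Q₂ T ϖ z) {f : F} {γ₁ γ₂ : K} {f₁ : κ₁} {f₂ : κ₂}
    (h1 : R₁.IsRed (algebraMap K F γ₁ * f) f₁) (h10 : f₁ ≠ 0)
    (h2 : R₂.IsRed (algebraMap K F γ₂ * f) f₂) (h20 : f₂ ≠ 0)
    (s : Finset (Place K F)) (hs : ∀ P ∈ s, P ∈ T) (b : Place K F → K)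
    (hb : ∀ P ∈ s, HasVal P z (b P)) {n : ℕ} {m : Place K F → ℤ}
    (hm : ∀ P ∈ T, P.ord f = n * m P) (hsupp : ∀ P ∈ T, P ∉ s → m P = 0) :
    Q₁.ord f₁ + Q₂.ord f₂ = n * ∑ P ∈ s, m P ∧
      UA A (γ₁ / (γ₂ * (∏ P ∈ s, b P ^ m P) ^ n * (ϖ : K) ^ (-Q₂.ord f₂))) := by
  classical
  obtain ⟨z₁, hz1, hz1o⟩ := hz.red1
  have hz10 : z₁ ≠ 0 := ne_zero_of_ord_eq_one hz1o
  have hz0 := hz.ne_zero
  obtain ⟨hhT, hh1, hh2⟩ := D.exists_moving hz s hs b hb m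
  set h := ∏ P' ∈ s, (z - algebraMap K F (b P')) ^ m P' with hh
  set d := ∑ P' ∈ s, m P' with hd
  have hzd : z ^ d ≠ 0 := zpow_ne_zero _ hz0
  have h0 := h1.ne_zero h10
  have hf0 : f ≠ 0 := right_ne_zero_of_mul h0
  have hγ₁ : algebraMap K F γ₁ ≠ 0 := left_ne_zero_of_mul h0
  have hh0 : h ≠ 0 := by
    rintro h3
    rw [h3, zero_div] at hh1
    exact zero_ne_one ((hh1.unique R₁.isRed_zero).symm)
  -- the constant
  have hbne : ∀ P ∈ s, b P ≠ 0 := fun P hP => (hz.value D.toNode D.lev.red (hs P hP) (hb P hP)).1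
  set a : K := ∏ P' ∈ s, (- b P') ^ m P' with ha
  have ha0 : a ≠ 0 := Finset.prod_ne_zero_iff.2 fun P hP => zpow_ne_zero _ (neg_ne_zero.2 (hbne P hP))
  have haF : algebraMap K F a ≠ 0 := by simpa using ha0
  -- the unit
  have huT : ∀ P ∈ T, P.ord (f / h ^ n) = 0 := by
    intro P hP
    have h3 : P.ord h = m P := by
      by_cases hPs : P ∈ s
      · exact (hhT P hP).1 hPs
      · rw [(hhT P hP).2 hPs, hsupp P hP hPs]
    rw [div_eq_mul_inv, P.ord_mul hf0 (inv_ne_zero (pow_ne_zero _ hh0)), P.ord_inv, ord_pow, h3,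
      hm P hP]
    ring
  have hh1' : R₁.IsRed h (z₁ ^ d) := by
    have h3 := hh1.mul (isRed_zpow hz1 hz10 d)
    rwa [one_mul, div_mul_cancel₀ _ hzd] at h3
  have hz1d : z₁ ^ d ≠ 0 := zpow_ne_zero _ hz10
  have h3 : R₁.IsRed (algebraMap K F γ₁ * (f / h ^ n)) (f₁ / (z₁ ^ d) ^ n) := by
    have h4 := h1.div (hh1'.pow n) (pow_ne_zero _ hz1d)
    rwa [← mul_div_assoc]
  have h30 : f₁ / (z₁ ^ d) ^ n ≠ 0 := div_ne_zero h10 (pow_ne_zero _ hz1d)
  have h4 : R₂.IsRed (algebraMap K F (γ₂ * a ^ n) * (f / h ^ n)) f₂ := by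
    have h5 := h2.div (hh2.pow n) (by rw [one_pow]; exact one_ne_zero)
    rw [one_pow, div_one] at h5
    convert h5 using 1
    rw [map_mul, map_pow, div_pow]
    field_simp
  obtain ⟨h5, h6⟩ := slope_unit D.toNode hz huT h3 h30 h4 h20
  have h7 : Q₁.ord (f₁ / (z₁ ^ d) ^ n) = Q₁.ord f₁ - n * d := by
    rw [div_eq_mul_inv, Q₁.ord_mul h10 (inv_ne_zero (pow_ne_zero _ hz1d)), Q₁.ord_inv, ord_pow,
      Q₁.ord_zpow, hz1o]
    ring
  refine ⟨by rw [h7] at h5; omega, ?_⟩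
  have h8 : Q₁.ord (f₁ / (z₁ ^ d) ^ n) = -Q₂.ord f₂ := by omega
  rw [h8] at h6
  -- signs
  set a' : K := ∏ P' ∈ s, b P' ^ m P' with ha'
  have hsign : UA A (a / a') := by
    rw [ha, ha', ← Finset.prod_div_distrib]
    have : ∀ s' ⊆ s, UA A (∏ P' ∈ s', (- b P') ^ m P' / b P' ^ m P') := by
      intro s' hs'
      induction s' using Finset.induction_on with
      | empty => rw [Finset.prod_empty]; exact UA.one
      | insert P s' hP ih =>
        rw [Finset.prod_insert hP]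
        refine UA.mul ?_ (ih ((Finset.subset_insert _ _).trans hs'))
        rw [← div_zpow]
        apply UA.zpow
        have h9 : -b P / b P = -1 := by
          rw [neg_div, div_self (hbne P (hs' (Finset.mem_insert_self _ _)))]
        rw [h9]
        exact UA.one.neg
    exact this s subset_rfl
  have ha'0 : a' ≠ 0 := Finset.prod_ne_zero_iff.2 fun P hP => zpow_ne_zero _ (hbne P hP)
  have h9 := h6.mul (hsign.pow n)
  convert h9 using 1
  rw [div_pow]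
  have h10' : (a : K) ^ n ≠ 0 := pow_ne_zero _ ha0
  field_simp

end Fermat.Agent.Node
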