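import Fermat.Agent.Node.SmoothAbs
import Fermat.Agent.Node.TubeMain
import Fermat.Agent.MazurP.Disc

/-!
# Smooth points of `X₀(M q)` modulo `q`
-/

set_option autoImplicit false
set_option linter.unusedSectionVars false
set_option linter.style.haveILetI false
set_option linter.unusedVariables false

noncomputable section

open AlgebraicCurve ModularCurve IntermediateField Module

namespace Fermat.Agent.Node

open Fermat.Agent.FF Fermat.Agent.Red Fermat.Agent.QVal Fermat.Agent.JZ Fermat.Agent.QComp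
open Fermat.Agent.ESh Fermat.Agent.MazurP

local notation "Qb" => AlgebraicClosure ℚ
local notation "Γℚ" => (AlgebraicClosure ℚ ≃ₐ[ℚ] AlgebraicClosure ℚ)

variable {k : Type*} [Field k] {A : ValuationSubring Qb} {π : A →+* k} {M q : ℕ} [NeZero M]
  [NeZero q] [hqf : Fact q.Prime] {hA : A.LiesOverPrime q} {hπ : ∀ a : A, π a = 0 ↔ ¬ IsUnit a}
  {hs : Function.Surjective π} {hM : ¬ q ∣ M}

variable [CharP k q] [PerfectRing k q] [IsAlgClosed k] [IsFnField k (modularFunctionFieldFullC k M)]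

local notation "𝓗" => twoLevel hA hπ hs hM
local notation "𝔁" => (al1 M q (jB M) *
  (w1 hqf.out hM : FB (M * q) →ₐ[Qb] FB (M * q)) (al1 M q (jB M)))

/-- lifting of glued pairs of sections to sections fixed by inertia -/
theorem exists_ifix_lift_Lm : ∃ M₀ : ℕ, ∀ m, M₀ ≤ m → ∀ b₁ b₂ : modularFunctionFieldFullC k M,
    b₁ ∈ riemannRochSpace (m • RR.poleDiv (K := k) (RedQ.xj k M ^ (q + 1))) →
    b₂ ∈ riemannRochSpace (m • RR.poleDiv (K := k) (RedQ.xj k M ^ (q + 1))) →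
    TwoLevel.Glued (rInf1 M q hA hπ hs hM) (rZero1 M q hA hπ hs hM) 𝔁 b₁ b₂ →
    ∃ f ∈ riemannRochSpace (m • RR.poleDiv (K := Qb) 𝔁), f ∈ ifixField (M * q) A ∧
      (rInf1 M q hA hπ hs hM).IsRed f b₁ ∧ (rZero1 M q hA hπ hs hM).IsRed f b₂ := by
  obtain ⟨M₀, hM₀⟩ := exists_glued_Lm 𝓗 hs
  refine ⟨M₀, fun m hm b₁ b₂ hb₁ hb₂ hg => ?_⟩
  haveI := (𝓗).twoRed.fd
  have hx0 : 𝔁 ≠ 0 := transcendental_ne_zero (transcendental_of_isRed (𝓗).r1 (𝓗).txb)
  have hstab : ∀ σ ∈ A.inertiaSubgroupIn ℚ, ∀ f ∈ riemannRochSpace (m • RR.poleDiv (K := Qb) 𝔁),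
      gal (M * q) σ f ∈ riemannRochSpace (m • RR.poleDiv (K := Qb) 𝔁) := by
    intro σ hσ f hf
    have h := semiRed_inertia hA hπ hs hM hσ
    exact mem_Lm_semi h.comm hx0 h.fix hf
  obtain ⟨g, hg, hgE, hg1, hg2⟩ := exists_fixed_lift_pair (𝓗).twoRed hs (lev_ifix)
    (fun a ha => by
      obtain ⟨n, hn⟩ := arch_of_liesOverPrime hA hπ a (q : A) ha
        (lev_ifix (hA := hA) (hπ := hπ) (hs := hs) (hM := hM)).red
      exact ⟨n, hn⟩)
    (fun c => by
      obtain ⟨a, ha, haσ⟩ := exists_fixed_lift hA hπ hs c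
      exact ⟨a, ha, IFix.algebraMap haσ⟩)
    (riemannRochSpace (m • RR.poleDiv (K := Qb) 𝔁))
    (le_span_fixed A _ hstab) (b := (b₁, b₂)) (hM₀ m hm b₁ b₂ hb₁ hb₂ hg)
  exact ⟨g, hg, hgE, hg1, hg2⟩

theorem x_mem_ifix (hA : A.LiesOverPrime q) (hπ : ∀ a : A, π a = 0 ↔ ¬ IsUnit a)
    (hs : Function.Surjective π) (hM : ¬ q ∣ M) : 𝔁 ∈ ifixField (M * q) A := by
  intro σ hσ
  exact (semiRed_inertia hA hπ hs hM hσ).fix

variable [FiniteDimensional k⟮RedQ.xj k M⟯ (modularFunctionFieldFullC k M)]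
  [Algebra.IsSeparable k⟮RedQ.xj k M⟯ (modularFunctionFieldFullC k M)]

/-- **The tube structure at the nodes.** -/
theorem tubeData' (s : (regAlg k (RedQ.xj k M ^ (q + 1)) ⧸ (𝓗).cond) →ₐ[k] k) :
    TubeData (rInf1 M q hA hπ hs hM) (rZero1 M q hA hπ hs hM) (place1 𝓗 s) (place2 𝓗 s)
      (tube 𝓗 s) (ifixField (M * q) A) (q : A) :=
  tubeData (fun S => exists_lev S) s

/-- **The tube structure at the smooth points.** -/
theorem exists_sTube {Q : Place k (modularFunctionFieldFullC k M)}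
    (hQs : ∀ s, Q ≠ place1 𝓗 s) :
    ∃ T, STube (rInf1 M q hA hπ hs hM) Q T (ifixField (M * q) A) := by
  haveI := isReduced_nodes (hA := hA) (hπ := hπ) (hs := hs) (hM := hM)
  haveI := finite_nodes (hA := hA) (hπ := hπ) (hs := hs) (hM := hM)
  have hconst : ∀ c : k, ∃ a : A, π a = c ∧
      algebraMap Qb (FB (M * q)) a ∈ ifixField (M * q) A := fun c => by
    obtain ⟨a, ha, haσ⟩ := exists_fixed_lift hA hπ hs c
    exact ⟨a, ha, IFix.algebraMap haσ⟩
  have hdisc : ∀ S : Finset (FB (M * q)), ∃ (E : Subfield (FB (M * q))) (d : A),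
      ifixField (M * q) A ≤ E ∧ (∀ x ∈ S, x ∈ E) ∧ Lev1 (rInf1 M q hA hπ hs hM) E d := fun S => by
    obtain ⟨E, d, h1, h2, h3⟩ := exists_lev (hA := hA) (hπ := hπ) (hs := hs) (hM := hM) S
    exact ⟨E, d, h1, h2, ⟨h3.mem, h3.ne, h3.red, h3.unif1⟩⟩
  have hq1 : (0 : ℤ) < ((q + 1 : ℕ) : ℤ) := by positivity
  by_cases hQ : 0 ≤ Q.ord (RedQ.xj k M)
  · exact ⟨_, sTube_of (𝓗).twoRed (isArch_of_liesOverPrime hA)
      (hQ := by rw [ord_pow]; positivity)
      (fun b hb => lift_affine 𝓗 hQ hQs (fun b₁ b₂ hb => exists_ifix_lift hb) hb)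
      hconst hdisc (arch_of_liesOverPrime hA hπ)⟩
  · push Not at hQ
    exact ⟨_, sTube_of (𝓗).twoRed.inv (isArch_of_liesOverPrime hA)
      (hQ := by
        rw [Q.ord_inv, ord_pow]
        have := mul_neg_of_pos_of_neg hq1 hQ
        omega)
      (fun b hb => lift_cusp 𝓗 hQ (x_mem_ifix hA hπ hs hM)
        exists_ifix_lift_Lm hb)
      hconst hdisc (arch_of_liesOverPrime hA hπ)⟩

/-- **(S)** the order of the reduction at smooth points, first component. -/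
theorem dvd_ord_red1 {Q : Place k (modularFunctionFieldFullC k M)}
    (hQs : ∀ s, Q ≠ place1 𝓗 s) {f : FB (M * q)} {f₁ : modularFunctionFieldFullC k M}
    (h1 : (rInf1 M q hA hπ hs hM).IsRed f f₁) (h10 : f₁ ≠ 0) {n : ℤ}
    (hn : ∀ P : Place Qb (FB (M * q)), n ∣ P.ord f) : n ∣ Q.ord f₁ := by
  obtain ⟨T, D⟩ := exists_sTube hQs
  exact D.dvd_ord h1 h10 fun P _ => hn P

/-- the orders of `w f` -/
theorem dvd_ord_w1 {f : FB (M * q)} {n : ℤ} (hn : ∀ P : Place Qb (FB (M * q)), n ∣ P.ord f)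
    (P : Place Qb (FB (M * q))) : n ∣ P.ord (w1 hqf.out hM f) := by
  set g := SemilinearAut.ofAlgAut (w1 hqf.out hM) with hg
  have h1 : P.ord (w1 hqf.out hM f) = (g⁻¹ • P).ord f := by
    have h2 := SemilinearAut.ord_smul g (g⁻¹ • P) f
    rw [smul_inv_smul] at h2
    exact h2
  rw [h1]
  exact hn _

/-- **(S)** the order of the reduction at smooth points, second component. -/
theorem dvd_ord_red2 {Q : Place k (modularFunctionFieldFullC k M)}
    (hQs : ∀ s, Q ≠ place2 𝓗 s) {f : FB (M * q)} {f₂ : modularFunctionFieldFullC k M}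
    (h2 : (rZero1 M q hA hπ hs hM).IsRed f f₂) (h20 : f₂ ≠ 0) {n : ℤ}
    (hn : ∀ P : Place Qb (FB (M * q)), n ∣ P.ord f) : n ∣ Q.ord f₂ := by
  refine dvd_ord_red1 (hA := hA) (hπ := hπ) (hs := hs) (hM := hM) (fun s hQ => ?_)
    (isRed_rZero1.1 h2) h20 (dvd_ord_w1 hn)
  exact hQs (flip 𝓗 s) (by rw [place2_flip, hQ])

/-- the nodes are the noncuspidal zeros of the Hasse function -/
theorem node1_iff {h : modularFunctionFieldFullC k M}
    (hh : (h : LaurentSeries k) * (Igusa.deltaC k) ^ (q - 1) = 1)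
    {Q : Place k (modularFunctionFieldFullC k M)} :
    (∃ s, Q = place1 𝓗 s) ↔ 0 ≤ Q.ord (RedQ.xj k M) ∧ 0 < Q.ord h := by
  constructor
  · rintro ⟨s, rfl⟩
    refine ⟨place1_ord_jb 𝓗 s, ?_⟩
    obtain ⟨h', hh', hh1⟩ := Fermat.Agent.QComp.exists_hasse M hA hπ hs hM
    have h1 : h = h' := by
      apply Subtype.ext
      exact mul_right_cancel₀ (pow_ne_zero _ (Igusa.deltaC_ne_zero k)) (hh.trans hh'.symm)
    subst h1
    exact hasse_pos (place1_val 𝓗 s) hh hh1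
  · rintro ⟨h1, h2⟩
    exact exists_node_of_super h1 hh h2

/-- the nodes are the noncuspidal zeros of the Hasse function -/
theorem node2_iff {h : modularFunctionFieldFullC k M}
    (hh : (h : LaurentSeries k) * (Igusa.deltaC k) ^ (q - 1) = 1)
    {Q : Place k (modularFunctionFieldFullC k M)} :
    (∃ s, Q = place2 𝓗 s) ↔ 0 ≤ Q.ord (RedQ.xj k M) ∧ 0 < Q.ord h := by
  rw [← node1_iff (hA := hA) (hπ := hπ) (hs := hs) (hM := hM) hh]
  constructor
  · rintro ⟨s, rfl⟩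
    exact ⟨flip 𝓗 s, (place1_flip 𝓗 s).symm⟩
  · rintro ⟨s, rfl⟩
    exact ⟨flip 𝓗 s, (place2_flip 𝓗 s).symm⟩

end Fermat.Agent.Node
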