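import Fermat.Agent.Node.Slope
import Fermat.Agent.Node.SmoothMain

/-!
# Slopes at the nodes of `X₀(M q)` modulo `q`
-/

set_option autoImplicit false
set_option linter.unusedSectionVars false
set_option linter.style.haveILetI false
set_option linter.unusedVariables false

noncomputable section

open AlgebraicCurve ModularCurve IntermediateField Module

namespace Fermat.Agent.Node

open Fermat.Agent.FF Fermat.Agent.Red Fermat.Agent.QVal Fermat.Agent.JZ Fermat.Agent.QComp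
open Fermat.Agent.ESh Fermat.Agent.MazurP

local notation "Qb" => AlgebraicClosure ℚ
local notation "Γℚ" => (AlgebraicClosure ℚ ≃ₐ[ℚ] AlgebraicClosure ℚ)

variable {k : Type*} [Field k] {A : ValuationSubring Qb} {π : A →+* k} {M q : ℕ} [NeZero M]
  [NeZero q] [hqf : Fact q.Prime] {hA : A.LiesOverPrime q} {hπ : ∀ a : A, π a = 0 ↔ ¬ IsUnit a}
  {hs : Function.Surjective π} {hM : ¬ q ∣ M}

local notation "𝔁" => (al1 M q (jB M) *
  (w1 hqf.out hM : FB (M * q) →ₐ[Qb] FB (M * q)) (al1 M q (jB M)))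

/-- the action on functions and places -/
def gs (M q : ℕ) [NeZero M] [NeZero q] (σ : Γℚ) : SemilinearAut Qb (FB (M * q)) :=
  arithmeticGalois (modularFunctionFieldFull (M * q)) σ

theorem gs_smul (σ : Γℚ) (f : FB (M * q)) : gs M q σ • f = gal (M * q) σ f := rfl

theorem hasVal_gs (σ : Γℚ) {P : Place Qb (FB (M * q))} {f : FB (M * q)} {a : Qb}
    (h : HasVal P f a) : HasVal (gs M q σ • P) (gal (M * q) σ f) (σ a) :=
  hasVal_smul (gs M q σ) h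

theorem ord_gs (σ : Γℚ) (P : Place Qb (FB (M * q))) (f : FB (M * q)) :
    (gs M q σ • P).ord (gal (M * q) σ f) = P.ord f := SemilinearAut.ord_smul _ _ _

theorem inertia_apply {σ : Γℚ} (hσ : σ ∈ A.inertiaSubgroupIn ℚ)
    (hπ : ∀ a : A, π a = 0 ↔ ¬ IsUnit a) {a : Qb} (ha : a ∈ A) :
    ∃ h : σ a ∈ A, π ⟨σ a, h⟩ = π ⟨a, ha⟩ := by
  obtain ⟨hσD, hσF⟩ := (Frob.mem_inertiaSubgroupIn_iff A σ).1 hσ
  have h0 : σ a ∈ A := (Frob.apply_mem_iff hσD).2 ha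
  refine ⟨h0, ?_⟩
  rw [← sub_eq_zero, ← map_sub, hπ]
  have h1 := hσF a ha
  rw [ValuationSubring.mem_nonunits_iff_exists_mem_maximalIdeal] at h1
  obtain ⟨h2, h3⟩ := h1
  exact (IsLocalRing.mem_maximalIdeal _).1 h3

theorem UA.zpow_q (hA : A.LiesOverPrime q) (hπ : ∀ a : A, π a = 0 ↔ ¬ IsUnit a) {e : ℤ}
    (h : UA A ((q : Qb) ^ e)) : e = 0 := by
  have hqne : (q : Qb) ≠ 0 := by exact_mod_cast hqf.out.ne_zero
  have key : ∀ m : ℕ, ¬ (((q : Qb) ^ (m + 1))⁻¹ ∈ A) := by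
    intro m hm
    haveI := charP_of_liesOverPrime hA hπ
    have h1 : (q : A) ^ (m + 1) * ⟨_, hm⟩ = 1 := by
      apply Subtype.ext
      change (((q : A) : Qb)) ^ (m + 1) * ((q : Qb) ^ (m + 1))⁻¹ = 1
      rw [show ((q : A) : Qb) = (q : Qb) by simp, mul_inv_cancel₀ (pow_ne_zero _ hqne)]
    have h2 := congrArg π h1
    rw [map_mul, map_pow, map_natCast, CharP.cast_eq_zero, zero_pow (Nat.succ_ne_zero m), zero_mul,
      map_one] at h2
    exact zero_ne_one h2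
  rcases lt_trichotomy e 0 with he | he | he
  · exfalso
    obtain ⟨m, hm⟩ := Int.eq_ofNat_of_zero_le (show 0 ≤ -e - 1 by omega)
    apply key m
    have : (q : Qb) ^ e = ((q : Qb) ^ (m + 1))⁻¹ := by
      rw [← zpow_natCast, ← zpow_neg]
      congr 1
      push_cast
      omega
    rw [← this]
    exact h.1
  · exact he
  · exfalso
    obtain ⟨m, hm⟩ := Int.eq_ofNat_of_zero_le (show 0 ≤ e - 1 by omega)
    apply key m
    have : ((q : Qb) ^ e)⁻¹ = ((q : Qb) ^ (m + 1))⁻¹ := by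
      rw [← zpow_natCast]
      congr 2
      push_cast
      omega
    rw [← this]
    exact h.2

variable [CharP k q] [PerfectRing k q] [IsAlgClosed k] [IsFnField k (modularFunctionFieldFullC k M)]
variable [FiniteDimensional k⟮RedQ.xj k M⟯ (modularFunctionFieldFullC k M)]
  [Algebra.IsSeparable k⟮RedQ.xj k M⟯ (modularFunctionFieldFullC k M)]

local notation "𝓗" => twoLevel hA hπ hs hM

/-- the tubes are stable under inertia -/
theorem tube_smul {s : (regAlg k (RedQ.xj k M ^ (q + 1)) ⧸ (𝓗).cond) →ₐ[k] k} {σ : Γℚ}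
    (hσ : σ ∈ A.inertiaSubgroupIn ℚ) {P : Place Qb (FB (M * q))} (hP : P ∈ tube 𝓗 s) :
    gs M q σ • P ∈ tube 𝓗 s := by
  haveI := (𝓗).twoRed.fd
  have hx := semiRed_inertia hA hπ hs hM hσ
  have hx' := semiRed_inertia hA hπ hs hM (inv_mem hσ)
  rw [mem_tube_iff] at hP ⊢
  have hinv : ∀ f : FB (M * q), gal (M * q) σ (gal (M * q) σ⁻¹ f) = f := by
    intro f
    have h1 := smul_inv_smul (gs M q σ) f
    rw [gs, ← map_inv] at h1
    exact h1
  refine ⟨?_, fun f hf b₁ b₂ h1 h2 c hc a ha => ?_⟩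
  · have h1 : gal (M * q) σ 𝔁 = 𝔁 := hx.fix
    have h2 := ord_gs σ P 𝔁
    rw [h1] at h2
    rw [h2]
    exact hP.1
  · have hf' : gal (M * q) σ⁻¹ f ∈ regAlg Qb 𝔁 := mem_regAlg_of_isIntegral
      (isIntegral_semi hx'.comm hx'.fix (isIntegral_of_mem_regAlg hf))
    have h3 : HasVal P (gal (M * q) σ⁻¹ f) (σ⁻¹ a) := by
      have h4 := hasVal_gs σ⁻¹ ha
      have h5 : gs M q σ⁻¹ • gs M q σ • P = P := by
        rw [gs, map_inv]
        exact inv_smul_smul (gs M q σ) P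
      rwa [h5] at h4
    obtain ⟨h4, h5⟩ := hP.2 _ hf' b₁ b₂ (hx'.red1 _ _ h1) (hx'.red2 _ _ h2) c hc _ h3
    obtain ⟨h6, h7⟩ := inertia_apply hσ hπ h4
    have h8 : σ (σ⁻¹ a) = a := by
      rw [← AlgEquiv.mul_apply, mul_inv_cancel, AlgEquiv.one_apply]
    have h9 : (⟨σ (σ⁻¹ a), h6⟩ : A) = ⟨a, by rw [← h8]; exact h6⟩ := Subtype.ext h8
    rw [h9] at h7
    exact ⟨_, h7.trans h5⟩

/-- **(T1)** the two orders at a node -/
theorem dvd_ord_add (hr : ∃ r : ℕ, r.Prime ∧ r ∣ M ∧ r % 12 = 11)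
    (s : (regAlg k (RedQ.xj k M ^ (q + 1)) ⧸ (𝓗).cond) →ₐ[k] k) {f : FB (M * q)} {n : ℕ}
    (hn : ∀ P : Place Qb (FB (M * q)), (n : ℤ) ∣ P.ord f) {γ₁ γ₂ : Qb}
    {f₁ f₂ : modularFunctionFieldFullC k M}
    (h1 : (rInf1 M q hA hπ hs hM).IsRed (algebraMap Qb _ γ₁ * f) f₁) (h10 : f₁ ≠ 0)
    (h2 : (rZero1 M q hA hπ hs hM).IsRed (algebraMap Qb _ γ₂ * f) f₂) (h20 : f₂ ≠ 0) :
    (n : ℤ) ∣ (place1 𝓗 s).ord f₁ + (place2 𝓗 s).ord f₂ := by
  classical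
  obtain ⟨z, hzE, hz⟩ := exists_param (hA := hA) (hπ := hπ) (hs := hs) (hM := hM) hr s
  have D := tubeData' (hA := hA) (hπ := hπ) (hs := hs) (hM := hM) s
  choose m hm using hn
  have hb : ∀ P : Place Qb (FB (M * q)), ∃ b, P ∈ tube 𝓗 s → HasVal P z b := by
    intro P
    by_cases hP : P ∈ tube 𝓗 s
    · obtain ⟨b, hb⟩ := exists_hasVal (ord_nonneg_of_mem P (hz.mem.2.2 P hP))
      exact ⟨b, fun _ => hb⟩
    · exact ⟨0, fun h => absurd h hP⟩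
  choose b hb using hb
  have hf0 : f ≠ 0 := right_ne_zero_of_mul (h1.ne_zero h10)
  rcases Nat.eq_zero_or_pos n with hn0 | hn0
  · -- trivial case: `f` is constant on the tube
    subst hn0
    have h3 := slope_unit D.toNode hz (u := f) (fun P _ => by rw [hm P]; simp) h1 h10 h2 h20
    rw [h3.1]
    exact dvd_zero _
  obtain ⟨h3, -⟩ := slope_formula D hz h1 h10 h2 h20
    ((RR.divOf (K := Qb) f).support.filter (· ∈ tube 𝓗 s))
    (fun P hP => (Finset.mem_filter.1 hP).2) b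
    (fun P hP => hb P (Finset.mem_filter.1 hP).2) (n := n) (m := m) (fun P _ => hm P)
    (fun P hP hPs => by
      rw [Finset.mem_filter, not_and] at hPs
      have h4 : P ∉ (RR.divOf (K := Qb) f).support := fun h => hPs h hP
      rw [Finsupp.mem_support_iff, RR.divOf_apply, not_not, hm P] at h4
      rcases mul_eq_zero.1 h4 with h5 | h5
      · exfalso
        omega
      · exact h5)
  rw [h3]
  exact dvd_mul_right _ _

/-- bookkeeping -/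
theorem ua_arith {K : Type*} [Field K] {A : ValuationSubring K} {t a : K} (ht : t ≠ 0) (ha : a ≠ 0)
    {n₁ n₂ na e₂ : ℤ} {n : ℕ} (h4 : UA A (t ^ n₁ / (t ^ n₂ * a ^ n * t ^ (-e₂))))
    (h6 : UA A (t ^ na * a)) : UA A (t ^ (n₁ - n₂ + n * na + e₂)) := by
  have h8 := h4.mul (h6.pow n)
  convert h8 using 1
  rw [zpow_add₀ ht, zpow_add₀ ht, zpow_sub₀ ht, zpow_neg, mul_pow]
  have e1 : t ^ ((n : ℤ) * na) = (t ^ na) ^ n := by
    rw [mul_comm, zpow_mul, zpow_natCast]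
  have han : a ^ n ≠ 0 := pow_ne_zero _ ha
  have hq2 : t ^ n₂ ≠ 0 := zpow_ne_zero _ ht
  have hqe : t ^ e₂ ≠ 0 := zpow_ne_zero _ ht
  rw [e1]
  field_simp

theorem ord_gs_fix {f : FB (M * q)} (hf : IFix A f) {σ : Γℚ} (hσ : σ ∈ A.inertiaSubgroupIn ℚ)
    (P : Place Qb (FB (M * q))) : (gs M q σ • P).ord f = P.ord f := by
  have h5 := ord_gs σ P f
  rwa [hf σ hσ] at h5

theorem gs_inv_smul (σ : Γℚ) (P : Place Qb (FB (M * q))) : gs M q σ⁻¹ • gs M q σ • P = P := by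
  rw [gs, map_inv]
  exact inv_smul_smul (gs M q σ) P

theorem gs_smul_inv (σ : Γℚ) (P : Place Qb (FB (M * q))) : gs M q σ • gs M q σ⁻¹ • P = P := by
  rw [gs, gs, map_inv]
  exact smul_inv_smul (gs M q σ) P

/-- products of values over an inertia-stable set are fixed by inertia -/
theorem prod_fix {S : Finset (Place Qb (FB (M * q)))}
    (hS : ∀ σ ∈ A.inertiaSubgroupIn ℚ, ∀ P ∈ S, gs M q σ • P ∈ S) {z : FB (M * q)}
    (hz : IFix A z) {b : Place Qb (FB (M * q)) → Qb} (hb : ∀ P ∈ S, HasVal P z (b P))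
    {m : Place Qb (FB (M * q)) → ℤ}
    (hm : ∀ σ ∈ A.inertiaSubgroupIn ℚ, ∀ P : Place Qb (FB (M * q)), m (gs M q σ • P) = m P)
    {σ : Γℚ} (hσ : σ ∈ A.inertiaSubgroupIn ℚ) :
    σ (∏ P ∈ S, b P ^ m P) = ∏ P ∈ S, b P ^ m P := by
  classical
  rw [map_prod]
  refine Finset.prod_nbij' (fun P => gs M q σ • P) (fun P => gs M q σ⁻¹ • P)
    (fun P hP => hS σ hσ P hP) (fun P hP => hS σ⁻¹ (inv_mem hσ) P hP)
    (fun P _ => gs_inv_smul σ P) (fun P _ => gs_smul_inv σ P) (fun P hP => ?_)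
  have h5 := hasVal_gs σ (hb P hP)
  rw [hz σ hσ] at h5
  rw [map_zpow₀, hm σ hσ, h5.unique (hb _ (hS σ hσ P hP))]

/-- the valuation of a constant fixed by inertia is integral -/
theorem exists_zpow_mul_ua (hA : A.LiesOverPrime q) (hπ : ∀ a : A, π a = 0 ↔ ¬ IsUnit a)
    (hs : Function.Surjective π) (hM : ¬ q ∣ M) {a : Qb} (ha0 : a ≠ 0)
    (ha : ∀ σ ∈ A.inertiaSubgroupIn ℚ, σ a = a) : ∃ na : ℤ, UA A ((q : Qb) ^ na * a) := by
  have haF0 : algebraMap Qb (FB (M * q)) a ≠ 0 := by simpa using ha0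
  obtain ⟨na, ga, hga, h5⟩ := value_inf1 (hA := hA) (hπ := hπ) (hs := hs) (hM := hM)
    (IFix.algebraMap ha) haF0
  refine ⟨na, ?_⟩
  have h7 : (rInf1 M q hA hπ hs hM).IsRed (algebraMap Qb (FB (M * q)) ((q : Qb) ^ na * a) * 1)
      ga := by
    rw [map_mul, mul_one]
    exact h5
  have h8 : (rInf1 M q hA hπ hs hM).IsRed (algebraMap Qb (FB (M * q)) 1 * 1) 1 := by
    rw [map_one, one_mul]
    exact ConstRed.isRed_one _
  have h9 := (ratio_of_isRed h7 hga h8 one_ne_zero).1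
  rwa [div_one] at h9

/-- the divisibility at one node -/
theorem dvd_slope (hr : ∃ r : ℕ, r.Prime ∧ r ∣ M ∧ r % 12 = 11)
    (s : (regAlg k (RedQ.xj k M ^ (q + 1)) ⧸ (𝓗).cond) →ₐ[k] k) {f : FB (M * q)}
    (hf : IFix A f) {n : ℕ} (hn0 : n ≠ 0)
    (hn : ∀ P : Place Qb (FB (M * q)), (n : ℤ) ∣ P.ord f) {n₁ n₂ : ℤ}
    {g₁ g₂ : modularFunctionFieldFullC k M}
    (h1 : (rInf1 M q hA hπ hs hM).IsRed (algebraMap Qb _ ((q : Qb) ^ n₁) * f) g₁) (hg₁ : g₁ ≠ 0)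
    (h2 : (rZero1 M q hA hπ hs hM).IsRed (algebraMap Qb _ ((q : Qb) ^ n₂) * f) g₂)
    (hg₂ : g₂ ≠ 0) :
    (n : ℤ) ∣ (place1 𝓗 s).ord g₁ + (place2 𝓗 s).ord g₂ ∧
      (n : ℤ) ∣ (place2 𝓗 s).ord g₂ + (n₁ - n₂) := by
  classical
  have hqne : (q : Qb) ≠ 0 := by exact_mod_cast hqf.out.ne_zero
  obtain ⟨z, hzE, hz⟩ := exists_param (hA := hA) (hπ := hπ) (hs := hs) (hM := hM) hr s
  have D := tubeData' (hA := hA) (hπ := hπ) (hs := hs) (hM := hM) s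
  choose m hm using hn
  have hb : ∀ P : Place Qb (FB (M * q)), ∃ b, P ∈ tube 𝓗 s → HasVal P z b := by
    intro P
    by_cases hP : P ∈ tube 𝓗 s
    · obtain ⟨b, hb⟩ := exists_hasVal (ord_nonneg_of_mem P (hz.mem.2.2 P hP))
      exact ⟨b, fun _ => hb⟩
    · exact ⟨0, fun h => absurd h hP⟩
  choose b hb using hb
  set S := (RR.divOf (K := Qb) f).support.filter (· ∈ tube 𝓗 s) with hS
  have hnZ : (n : ℤ) ≠ 0 := by exact_mod_cast hn0
  have hmS : ∀ P, m P = 0 ↔ P.ord f = 0 := by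
    intro P
    rw [hm P, mul_eq_zero]
    exact ⟨Or.inr, fun h => h.resolve_left hnZ⟩
  obtain ⟨h3, h4⟩ := slope_formula D hz h1 hg₁ h2 hg₂ S
    (fun P hP => (Finset.mem_filter.1 hP).2) b
    (fun P hP => hb P (Finset.mem_filter.1 hP).2) (n := n) (m := m) (fun P _ => hm P)
    (fun P hP hPs => by
      rw [hS, Finset.mem_filter, not_and] at hPs
      have h4 : P ∉ (RR.divOf (K := Qb) f).support := fun h => hPs h hP
      rw [Finsupp.mem_support_iff, RR.divOf_apply, not_not] at h4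
      exact (hmS P).2 h4)
  have hbne : ∀ P ∈ S, b P ≠ 0 := fun P hP =>
    (hz.value D.toNode D.lev.red (Finset.mem_filter.1 hP).2 (hb P (Finset.mem_filter.1 hP).2)).1
  have ha0 : ∏ P ∈ S, b P ^ m P ≠ 0 :=
    Finset.prod_ne_zero_iff.2 fun P hP => zpow_ne_zero _ (hbne P hP)
  have hSσ : ∀ σ ∈ A.inertiaSubgroupIn ℚ, ∀ P ∈ S, gs M q σ • P ∈ S := by
    intro σ hσ P hP
    rw [hS, Finset.mem_filter, Finsupp.mem_support_iff, RR.divOf_apply] at hP ⊢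
    exact ⟨by rw [ord_gs_fix hf hσ]; exact hP.1, tube_smul hσ hP.2⟩
  have hmσ : ∀ σ ∈ A.inertiaSubgroupIn ℚ, ∀ P : Place Qb (FB (M * q)),
      m (gs M q σ • P) = m P := by
    intro σ hσ P
    have h5 := ord_gs_fix hf hσ P
    rw [hm, hm] at h5
    exact mul_left_cancel₀ hnZ h5
  obtain ⟨na, h6⟩ := exists_zpow_mul_ua hA hπ hs hM ha0
    (fun σ hσ => prod_fix hSσ hzE (fun P hP => hb P (Finset.mem_filter.1 hP).2) hmσ hσ)
  have hcoe : ((q : A) : Qb) = (q : Qb) := by simp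
  rw [hcoe] at h4
  have h8 := UA.zpow_q hA hπ (ua_arith hqne ha0 h4 h6)
  refine ⟨by rw [h3]; exact dvd_mul_right _ _, -na, by linarith⟩

/-- **(T)** the slopes at the nodes of a function fixed by inertia -/
theorem exists_slope (hr : ∃ r : ℕ, r.Prime ∧ r ∣ M ∧ r % 12 = 11) {f : FB (M * q)}
    (hf0 : f ≠ 0) (hf : IFix A f) {n : ℕ} (hn0 : n ≠ 0)
    (hn : ∀ P : Place Qb (FB (M * q)), (n : ℤ) ∣ P.ord f) :
    ∃ c : ℤ, ∀ s : (regAlg k (RedQ.xj k M ^ (q + 1)) ⧸ (𝓗).cond) →ₐ[k] k,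
      (∀ (γ₁ : Qb) (f₁ : modularFunctionFieldFullC k M), f₁ ≠ 0 →
        (rInf1 M q hA hπ hs hM).IsRed (algebraMap Qb _ γ₁ * f) f₁ →
          (n : ℤ) ∣ (place1 𝓗 s).ord f₁ - c) ∧
      ∀ (γ₂ : Qb) (f₂ : modularFunctionFieldFullC k M), f₂ ≠ 0 →
        (rZero1 M q hA hπ hs hM).IsRed (algebraMap Qb _ γ₂ * f) f₂ →
          (n : ℤ) ∣ (place2 𝓗 s).ord f₂ + c := by
  obtain ⟨n₁, g₁, hg₁, h1⟩ := value_inf1 (hA := hA) (hπ := hπ) (hs := hs) (hM := hM) hf hf0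
  obtain ⟨n₂, g₂, hg₂, h2⟩ := value_zero1 (hA := hA) (hπ := hπ) (hs := hs) (hM := hM) hf hf0
  refine ⟨n₁ - n₂, fun s => ?_⟩
  obtain ⟨h3, h9⟩ := dvd_slope hr s hf hn0 hn h1 hg₁ h2 hg₂
  refine ⟨fun γ₁ f₁ hf₁ hr1 => ?_, fun γ₂ f₂ hf₂ hr2 => ?_⟩
  · rw [ord_eq_of_isRed (Q := place1 𝓗 s) hr1 hf₁ h1 hg₁]
    have h10 : (place1 𝓗 s).ord g₁ - (n₁ - n₂) = ((place1 𝓗 s).ord g₁ + (place2 𝓗 s).ord g₂) -
        ((place2 𝓗 s).ord g₂ + (n₁ - n₂)) := by ring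
    rw [h10]
    exact dvd_sub h3 h9
  · rw [ord_eq_of_isRed (Q := place2 𝓗 s) hr2 hf₂ h2 hg₂]
    exact h9

end Fermat.Agent.Node
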