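import Fermat.Agent.MazurP.Tube3
import Fermat.Agent.QComp.TwoShift

/-!
# Tubes over smooth points

The divisor of a function on the tube over a smooth point of the special fibre has the degree of
the reduction at the point.
-/

set_option autoImplicit false
set_option linter.unusedSectionVars false
set_option linter.style.haveILetI false
set_option linter.unusedVariables false

noncomputable section

open AlgebraicCurve IntermediateField Module

namespace Fermat.Agent.Node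

open Fermat.Agent.FF Fermat.Agent.Red Fermat.Agent.QComp Fermat.Agent.MazurP

variable {K k : Type*} [Field K] [Field k] {A : ValuationSubring K} {π : A →+* k}
  {F κ : Type*} [Field F] [Algebra K F] [Field κ] [Algebra k κ]

/-- functions integral along the component and regular on the tube -/
def loc1 (R : ConstRed A π F κ) (T : Set (Place K F)) : Subring F where
  carrier := {g | g ∈ R.O ∧ ∀ P ∈ T, g ∈ P.toValuationSubring}
  mul_mem' ha hb := ⟨mul_mem ha.1 hb.1, fun P hP => mul_mem (ha.2 P hP) (hb.2 P hP)⟩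
  one_mem' := ⟨one_mem _, fun _ _ => one_mem _⟩
  add_mem' ha hb := ⟨add_mem ha.1 hb.1, fun P hP => add_mem (ha.2 P hP) (hb.2 P hP)⟩
  zero_mem' := ⟨zero_mem _, fun _ _ => zero_mem _⟩
  neg_mem' ha := ⟨neg_mem ha.1, fun P hP => neg_mem (ha.2 P hP)⟩

/-- subfields on which the reduction is discrete -/
structure Lev1 (R : ConstRed A π F κ) (E : Subfield F) (d : A) : Prop where
  mem : algebraMap K F d ∈ E
  ne : d ≠ 0
  red : π d = 0
  unif : ∀ g ∈ E, R.IsRed g 0 → g / algebraMap K F d ∈ R.O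

variable [IsAlgClosed K] [IsFnField K F] [IsAlgClosed k] [IsFnField k κ]

/-- the tube `T` over a smooth point `Q` of a component -/
structure STube (R : ConstRed A π F κ) (Q : Place k κ) (T : Set (Place K F))
    (F₀ : Subfield F) : Prop where
  glue : ∀ g ∈ loc1 R T, ∃ c : k, HasVal Q (R.rd g) c ∧
    ∀ P ∈ T, ∀ b : K, HasVal P g b → ∃ hb : b ∈ A, π ⟨b, hb⟩ = c
  lift : ∀ b c, HasVal Q b c → ∃ g ∈ F₀, g ∈ loc1 R T ∧ R.IsRed g b
  const : ∀ c : k, ∃ a : A, π a = c ∧ algebraMap K F a ∈ F₀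
  disc : ∀ s : Finset F, ∃ (E : Subfield F) (d : A), F₀ ≤ E ∧ (∀ x ∈ s, x ∈ E) ∧ Lev1 R E d
  arch : ∀ a d : A, a ≠ 0 → π d = 0 → ∃ n : ℕ, ¬ d ^ n ∣ a
  sep : ∀ P ∈ T, ∀ P' ∈ T, P ≠ P' → ∃ g ∈ loc1 R T, ∃ a a', HasVal P g a ∧ HasVal P' g a' ∧
    a ≠ a'
  unifP : ∀ P ∈ T, ∃ g ∈ loc1 R T, P.ord g = 1

namespace STube

variable {R : ConstRed A π F κ} {Q : Place k κ} {T : Set (Place K F)} {F₀ : Subfield F}
  (D : STube R Q T F₀)

include D

omit D in
theorem algebraMap_mem_loc1 {a : K} (ha : a ∈ A) : algebraMap K F a ∈ loc1 R T :=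
  ⟨(R.algebraMap_mem_iff a).2 ha, fun P _ => P.algebraMap_mem' a⟩

theorem mem_of_value {g : F} (hg : g ∈ loc1 R T) {P : Place K F} (hP : P ∈ T) {b : K}
    (hb : HasVal P g b) : b ∈ A := by
  obtain ⟨c, -, h⟩ := D.glue g hg
  exact (h P hP b hb).1

theorem value {g : F} (hg : g ∈ loc1 R T) {c : k} {g₁ : κ} (h1 : R.IsRed g g₁)
    (hc : HasVal Q g₁ c) {P : Place K F} (hP : P ∈ T) {b : K} (hb : HasVal P g b) :
    ∃ hb : b ∈ A, π ⟨b, hb⟩ = c := by
  obtain ⟨c', hc1, h3⟩ := D.glue g hg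
  rw [h1.rd_eq] at hc1
  rw [hc.unique hc1]
  exact h3 P hP b hb

/-- functions without zeros and poles on the tube are units at the point -/
theorem ord_eq_zero {g : F} (hT : ∀ P ∈ T, P.ord g = 0) {g₁ : κ} (h1 : R.IsRed g g₁)
    (h10 : g₁ ≠ 0) : Q.ord g₁ = 0 := by
  have hg0 := h1.ne_zero h10
  have hm : g ∈ loc1 R T := ⟨h1.mem, fun P hP => mem_of_ord_nonneg P (hT P hP).ge⟩
  have hm' : g⁻¹ ∈ loc1 R T := ⟨(h1.inv h10).mem, fun P hP => mem_of_ord_nonneg P (by
    rw [P.ord_inv, hT P hP]; simp)⟩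
  obtain ⟨c, hc, -⟩ := D.glue g hm
  obtain ⟨c', hc', -⟩ := D.glue _ hm'
  rw [h1.rd_eq] at hc
  rw [(h1.inv h10).rd_eq] at hc'
  have h2 := hc.nonneg
  have h3 := hc'.nonneg
  rw [Q.ord_inv] at h3
  omega

variable {τ : F} {t : κ}

/-- a parameter at the point -/
structure IsPar (R : ConstRed A π F κ) (Q : Place k κ) (T : Set (Place K F)) (τ : F) (t : κ) :
    Prop where
  mem : τ ∈ loc1 R T
  isRed : R.IsRed τ t
  ord : Q.ord t = 1

theorem par_value (hτ : IsPar R Q T τ t) {P : Place K F} (hP : P ∈ T) {b : K}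
    (hb : HasVal P τ b) : ∃ hb : b ∈ A, π ⟨b, hb⟩ = 0 :=
  D.value hτ.mem hτ.isRed (hasVal_zero_of_pos (by rw [hτ.ord]; norm_num)) hP hb

theorem par_sub (hτ : IsPar R Q T τ t) {P : Place K F} (hP : P ∈ T) {b : K}
    (hb : HasVal P τ b) : R.IsRed (τ - algebraMap K F b) t ∧ τ - algebraMap K F b ≠ 0 := by
  obtain ⟨hbA, hb0⟩ := D.par_value hτ hP hb
  have h1 := hτ.isRed.sub (R.isRed_algebraMap hbA)
  rw [hb0, map_zero, sub_zero] at h1
  exact ⟨h1, h1.ne_zero (ne_zero_of_ord_eq_one hτ.ord)⟩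

/-- decomposition of functions in the local ring -/
theorem decomp (hτ : IsPar R Q T τ t) {E : Subfield F} {d : A} (hE : F₀ ≤ E) (hL : Lev1 R E d)
    (hτE : τ ∈ E) {b : K} (hbE : algebraMap K F b ∈ E) (hb : ∃ hb : b ∈ A, π ⟨b, hb⟩ = 0)
    {g : F} (hg : g ∈ loc1 R T) (hgE : g ∈ E) : ∃ (c : A) (g₁ g₃ : F), g₁ ∈ loc1 R T ∧
      g₃ ∈ loc1 R T ∧ g₃ ∈ E ∧ g = algebraMap K F c + (τ - algebraMap K F b) * g₁ +
        algebraMap K F d * g₃ := by
  obtain ⟨hbA, hb0⟩ := hb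
  obtain ⟨c₀, h1, -⟩ := D.glue g hg
  obtain ⟨c, hc, hcF⟩ := D.const c₀
  have ht0 : t ≠ 0 := ne_zero_of_ord_eq_one hτ.ord
  have hb1 : ∃ β, HasVal Q ((R.rd g - algebraMap k κ c₀) / t) β := by
    apply exists_hasVal
    rcases hasVal_iff.1 h1 with h3 | h3
    · rw [h3, zero_div]; simp
    · rw [div_eq_mul_inv]
      by_cases h4 : R.rd g - algebraMap k κ c₀ = 0
      · rw [h4, zero_mul]; simp
      rw [Q.ord_mul h4 (inv_ne_zero ht0), Q.ord_inv, hτ.ord]
      omega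
  obtain ⟨β₁, hβ₁⟩ := hb1
  obtain ⟨g₁, hg₁F, hg₁, hg₁1⟩ := D.lift _ β₁ hβ₁
  have hτb : R.IsRed (τ - algebraMap K F b) t := by
    have := hτ.isRed.sub (R.isRed_algebraMap hbA)
    rwa [hb0, map_zero, sub_zero] at this
  set r := g - (algebraMap K F c + (τ - algebraMap K F b) * g₁) with hr
  have hr1 : R.IsRed r 0 := by
    have := (R.isRed_rd hg.1).sub ((R.isRed_coe c).add (hτb.mul hg₁1))
    rw [mul_div_cancel₀ _ ht0, hc, add_sub_cancel, sub_self] at this
    exact this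
  have hbL : algebraMap K F b ∈ loc1 R T := algebraMap_mem_loc1 hbA
  have hrL : r ∈ loc1 R T :=
    sub_mem hg (add_mem (algebraMap_mem_loc1 c.2) (mul_mem (sub_mem hτ.mem hbL) hg₁))
  have hrE : r ∈ E :=
    sub_mem hgE (add_mem (hE hcF) (mul_mem (sub_mem hτE hbE) (hE hg₁F)))
  have hd0 : algebraMap K F d ≠ 0 := by simpa using hL.ne
  refine ⟨c, g₁, r / algebraMap K F d, hg₁, ⟨hL.unif r hrE hr1, fun P hP => ?_⟩,
    div_mem hrE hL.mem, ?_⟩
  · rw [div_eq_mul_inv, ← map_inv₀]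
    exact mul_mem (hrL.2 P hP) (P.algebraMap_mem' _)
  · rw [mul_div_cancel₀ _ hd0, hr]
    ring

theorem value_sub_dvd (hτ : IsPar R Q T τ t) {P P' : Place K F} (hP : P ∈ T)
    (hP' : P' ∈ T) {b : K} (hb : HasVal P τ b) (hb' : HasVal P' τ b) {E : Subfield F} {d : A}
    (hE : F₀ ≤ E) (hL : Lev1 R E d) (hτE : τ ∈ E) (hbE : algebraMap K F b ∈ E) (n : ℕ) :
    ∀ g ∈ loc1 R T, g ∈ E → ∀ a a' : A, HasVal P g a → HasVal P' g a' → d ^ n ∣ a - a' := by
  have h1 := D.par_value hτ hP hb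
  induction n with
  | zero => intro g _ _ a a' _ _; simp
  | succ n ih =>
    intro g hg hgE a a' ha ha'
    obtain ⟨c, g₁, g₃, hg₁, hg₃, hg₃E, heq⟩ := D.decomp hτ hE hL hτE hbE h1 hg hgE
    obtain ⟨v₁, hv₁⟩ := exists_hasVal (ord_nonneg_of_mem P (hg₁.2 P hP))
    obtain ⟨v₃, hv₃⟩ := exists_hasVal (ord_nonneg_of_mem P (hg₃.2 P hP))
    obtain ⟨w₁, hw₁⟩ := exists_hasVal (ord_nonneg_of_mem P' (hg₁.2 P' hP'))
    obtain ⟨w₃, hw₃⟩ := exists_hasVal (ord_nonneg_of_mem P' (hg₃.2 P' hP'))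
    have hv₃A := D.mem_of_value hg₃ hP hv₃
    have hw₃A := D.mem_of_value hg₃ hP' hw₃
    have e1 : (a : K) = c + d * v₃ := by
      have h4 := (((hasVal_algebraMap P (c : K)).add ((hb.sub (hasVal_algebraMap P b)).mul
        hv₁)).add ((hasVal_algebraMap P (d : K)).mul hv₃))
      rw [← heq] at h4
      rw [ha.unique h4]
      ring
    have e2 : (a' : K) = c + d * w₃ := by
      have h4 := (((hasVal_algebraMap P' (c : K)).add ((hb'.sub (hasVal_algebraMap P' b)).mul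
        hw₁)).add ((hasVal_algebraMap P' (d : K)).mul hw₃))
      rw [← heq] at h4
      rw [ha'.unique h4]
      ring
    obtain ⟨m, hm⟩ := ih g₃ hg₃ hg₃E ⟨v₃, hv₃A⟩ ⟨w₃, hw₃A⟩ hv₃ hw₃
    refine ⟨m, Subtype.ext ?_⟩
    have hm' : v₃ - w₃ = d ^ n * (m : K) := by
      have := congrArg (Subtype.val) hm
      simpa using this
    push_cast
    rw [e1, e2, pow_succ]
    linear_combination (d : K) * hm'

/-- a parameter is injective on the tube -/
theorem injective (hτ : IsPar R Q T τ t) {P P' : Place K F} (hP : P ∈ T)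
    (hP' : P' ∈ T) {b : K} (hb : HasVal P τ b) (hb' : HasVal P' τ b) : P = P' := by
  classical
  by_contra hne
  obtain ⟨g, hg, a, a', ha, ha', haa'⟩ := D.sep P hP P' hP' hne
  obtain ⟨E, d, hE, hs, hL⟩ := D.disc {τ, algebraMap K F b, g}
  have haA := D.mem_of_value hg hP ha
  have haA' := D.mem_of_value hg hP' ha'
  obtain ⟨n, hn⟩ := D.arch (⟨a, haA⟩ - ⟨a', haA'⟩) d (by
    intro h
    apply haa'
    have := congrArg Subtype.val h
    simpa [sub_eq_zero] using this) hL.red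
  exact hn (D.value_sub_dvd hτ hP hP' hb hb' hE hL (hs τ (by simp)) (hs _ (by simp)) n g hg
    (hs g (by simp)) ⟨a, haA⟩ ⟨a', haA'⟩ ha ha')

/-- a parameter takes each value with multiplicity one -/
theorem ord_sub_eq_one (hτ : IsPar R Q T τ t) {P : Place K F} (hP : P ∈ T)
    {b : K} (hb : HasVal P τ b) : P.ord (τ - algebraMap K F b) = 1 := by
  obtain ⟨g, hg, hgo⟩ := D.unifP P hP
  obtain ⟨E, d, -, -, hL⟩ := D.disc ∅
  have hdF : algebraMap K F d ≠ 0 := by simpa using hL.ne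
  have hg0 := ne_zero_of_ord_eq_one hgo
  have ht0 : t ≠ 0 := ne_zero_of_ord_eq_one hτ.ord
  have hτ' : IsPar R Q T (τ + algebraMap K F d * g) t := by
    refine ⟨add_mem hτ.mem (mul_mem (algebraMap_mem_loc1 d.2) hg), ?_, hτ.ord⟩
    have := hτ.isRed.add ((R.isRed_coe d).mul (R.isRed_rd hg.1))
    rwa [hL.red, map_zero, zero_mul, add_zero] at this
  have hb2 : HasVal P (τ + algebraMap K F d * g) b := by
    have h1 := hb.add ((hasVal_algebraMap P (d : K)).mul
      (hasVal_zero_of_pos (by rw [hgo]; norm_num : 0 < P.ord g)))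
    rwa [mul_zero, add_zero] at h1
  obtain ⟨h1, h10⟩ := D.par_sub hτ hP hb
  obtain ⟨h2, h20⟩ := D.par_sub hτ' hP hb2
  by_contra hne
  have hpos := hb.ord_sub_pos (sub_ne_zero.1 h10)
  have h3 : P.ord (τ + algebraMap K F d * g - algebraMap K F b) = 1 := by
    have e : τ + algebraMap K F d * g - algebraMap K F b = algebraMap K F d * g +
      (τ - algebraMap K F b) := by ring
    have h4 : P.ord (algebraMap K F d * g) = 1 := by
      rw [P.ord_mul hdF hg0, ord_algebraMap, hgo]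
      norm_num
    rw [e, ord_add_eq_of_lt P (mul_ne_zero hdF hg0) (Or.inr (by omega)), h4]
  set φ := (τ - algebraMap K F b) / (τ + algebraMap K F d * g - algebraMap K F b) with hφ
  have hφ1 : R.IsRed φ 1 := by
    have := h1.div h2 ht0
    rwa [div_self ht0] at this
  have hφT : ∀ P' ∈ T, P' ≠ P → P'.ord φ = 0 := by
    intro P' hP' hPP'
    obtain ⟨b₁, hb₁⟩ := exists_hasVal (ord_nonneg_of_mem P' (hτ.mem.2 P' hP'))
    obtain ⟨b₂, hb₂⟩ := exists_hasVal (ord_nonneg_of_mem P' (hτ'.mem.2 P' hP'))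
    have h5 : b₁ ≠ b := by
      rintro rfl
      exact hPP' (D.injective hτ hP' hP hb₁ hb)
    have h6 : b₂ ≠ b := by
      rintro rfl
      exact hPP' (D.injective hτ' hP' hP hb₂ hb2)
    have h7 := (hb₁.sub (hasVal_algebraMap P' b)).ord_eq_zero (sub_ne_zero.2 h5)
    have h8 := (hb₂.sub (hasVal_algebraMap P' b)).ord_eq_zero (sub_ne_zero.2 h6)
    rw [hφ, div_eq_mul_inv, P'.ord_mul h10 (inv_ne_zero h20), P'.ord_inv, h7, h8]
    norm_num
  have hφP : P.ord φ = P.ord (τ - algebraMap K F b) - 1 := by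
    rw [hφ, div_eq_mul_inv, P.ord_mul h10 (inv_ne_zero h20), P.ord_inv, h3]
    ring
  have hφL : φ ∈ loc1 R T := by
    refine ⟨hφ1.mem, fun P' hP' => mem_of_ord_nonneg P' ?_⟩
    by_cases h5 : P' = P
    · rw [h5, hφP]; omega
    · rw [hφT P' hP' h5]
  obtain ⟨h5, h6⟩ := D.value hφL hφ1 (hasVal_one Q) hP
    (hasVal_zero_of_pos (by rw [hφP]; omega : 0 < P.ord φ))
  have h7 : (⟨0, h5⟩ : A) = 0 := rfl
  rw [h7, map_zero] at h6
  exact zero_ne_one h6

theorem exists_isPar : ∃ τ t, IsPar R Q T τ t := by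
  obtain ⟨t, -, ht⟩ := exists_ord_eq_one Q
  obtain ⟨τ, -, h1, h2⟩ := D.lift t 0 (hasVal_zero_of_pos (by rw [ht]; norm_num))
  exact ⟨τ, t, h1, h2, ht⟩

/-- **The degree of the divisor on the tube is the order of the reduction.** -/
theorem ord_eq_sum {f : F} {f₁ : κ} (h1 : R.IsRed f f₁) (h10 : f₁ ≠ 0) {s : Finset (Place K F)}
    (hs : ∀ P ∈ s, P ∈ T) (hsupp : ∀ P ∈ T, P ∉ s → P.ord f = 0) :
    Q.ord f₁ = ∑ P ∈ s, P.ord f := by
  classical
  obtain ⟨τ, t, hτ⟩ := D.exists_isPar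
  have hf0 := h1.ne_zero h10
  have ht0 : t ≠ 0 := ne_zero_of_ord_eq_one hτ.ord
  have hb : ∀ P : Place K F, ∃ b, P ∈ T → HasVal P τ b := by
    intro P
    by_cases hP : P ∈ T
    · obtain ⟨b, hb⟩ := exists_hasVal (ord_nonneg_of_mem P (hτ.mem.2 P hP))
      exact ⟨b, fun _ => hb⟩
    · exact ⟨0, fun h => absurd h hP⟩
  choose b hb using hb
  set h : F := ∏ P' ∈ s, (τ - algebraMap K F (b P')) ^ P'.ord f with hh
  have hne : ∀ P' ∈ s, τ - algebraMap K F (b P') ≠ 0 := fun P' hP' =>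
    (D.par_sub hτ (hs P' hP') (hb P' (hs P' hP'))).2
  have key2 : ∀ P ∈ T, ∀ P' ∈ s, P.ord (τ - algebraMap K F (b P')) = if P = P' then 1 else 0 := by
    intro P hP P' hP'
    split_ifs with h
    · subst h
      exact D.ord_sub_eq_one hτ hP (hb P hP)
    · refine ((hb P hP).sub (hasVal_algebraMap P (b P'))).ord_eq_zero (sub_ne_zero.2 ?_)
      intro h5
      have h6 := hb P hP
      rw [h5] at h6
      exact h (D.injective hτ hP (hs P' hP') h6 (hb P' (hs P' hP')))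
  have hord : ∀ (P : Place K F) (s' : Finset (Place K F)), s' ⊆ s →
      P.ord (∏ P' ∈ s', (τ - algebraMap K F (b P')) ^ P'.ord f) =
        ∑ P' ∈ s', P'.ord f * P.ord (τ - algebraMap K F (b P')) := by
    intro P s' hs'
    induction s' using Finset.induction_on with
    | empty => simp
    | insert a s' ha ih =>
      rw [Finset.prod_insert ha, Finset.sum_insert ha, P.ord_mul, ih, P.ord_zpow]
      · exact (Finset.subset_insert _ _).trans hs'
      · exact zpow_ne_zero _ (hne a (hs' (Finset.mem_insert_self _ _)))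
      · exact Finset.prod_ne_zero_iff.2 fun i hi =>
          zpow_ne_zero _ (hne i (hs' (Finset.mem_insert_of_mem hi)))
  have hhr : R.IsRed h (∏ P' ∈ s, t ^ P'.ord f) :=
    ConstRed.isRed_prod (R := R) s (y := fun P' => (τ - algebraMap K F (b P')) ^ P'.ord f)
      (z := fun P' => t ^ P'.ord f)
      fun P' hP' => isRed_zpow (D.par_sub hτ (hs P' hP') (hb P' (hs P' hP'))).1 ht0 _
  have hhr0 : (∏ P' ∈ s, t ^ P'.ord f) ≠ 0 :=
    Finset.prod_ne_zero_iff.2 fun i _ => zpow_ne_zero _ ht0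
  have hh0 := hhr.ne_zero hhr0
  have hT : ∀ P ∈ T, P.ord (f / h) = 0 := by
    intro P hP
    rw [div_eq_mul_inv, P.ord_mul hf0 (inv_ne_zero hh0), P.ord_inv, hh, hord P s subset_rfl,
      Finset.sum_congr rfl fun P' hP' => by rw [key2 P hP P' hP']]
    simp only [mul_ite, mul_one, mul_zero, Finset.sum_ite_eq]
    split_ifs with h5
    · ring
    · rw [hsupp P hP h5]; ring
  have h3 := D.ord_eq_zero hT (h1.div hhr hhr0) (div_ne_zero h10 hhr0)
  rw [div_eq_mul_inv, Q.ord_mul h10 (inv_ne_zero hhr0), Q.ord_inv] at h3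
  have h4 : Q.ord (∏ P' ∈ s, t ^ P'.ord f) = ∑ P' ∈ s, P'.ord f := by
    have : ∀ s' : Finset (Place K F), Q.ord (∏ P' ∈ s', t ^ P'.ord f) = ∑ P' ∈ s', P'.ord f := by
      intro s'
      induction s' using Finset.induction_on with
      | empty => simp
      | insert a s' ha ih =>
        rw [Finset.prod_insert ha, Finset.sum_insert ha, Q.ord_mul (zpow_ne_zero _ ht0), ih,
          Q.ord_zpow, hτ.ord, mul_one]
        exact Finset.prod_ne_zero_iff.2 fun i _ => zpow_ne_zero _ ht0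
    exact this s
  omega

/-- divisibility of the order of the reduction -/
theorem dvd_ord {f : F} {f₁ : κ} (h1 : R.IsRed f f₁) (h10 : f₁ ≠ 0) {n : ℤ}
    (hdvd : ∀ P ∈ T, n ∣ P.ord f) : n ∣ Q.ord f₁ := by
  classical
  have hf0 := h1.ne_zero h10
  rw [D.ord_eq_sum h1 h10 (s := (RR.divOf (K := K) f).support.filter (· ∈ T))
    (fun P hP => (Finset.mem_filter.1 hP).2) (fun P hP hPs => ?_)]
  · exact Finset.dvd_sum fun P hP => hdvd P (Finset.mem_filter.1 hP).2
  · by_contra hne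
    apply hPs
    rw [Finset.mem_filter, Finsupp.mem_support_iff, RR.divOf_apply]
    exact ⟨hne, hP⟩

end STube

end Fermat.Agent.Node
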