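import Fermat.Agent.Node.Super
import Fermat.Agent.Node.Pt
import Fermat.Agent.Node.Lift

/-!
# The tube over a node: abstract part
-/

set_option autoImplicit false
set_option linter.unusedSectionVars false
set_option linter.style.haveILetI false
set_option linter.unusedVariables false

noncomputable section

open AlgebraicCurve IntermediateField Module

namespace Fermat.Agent.Node

open Fermat.Agent.FF Fermat.Agent.Red Fermat.Agent.QComp Fermat.Agent.MazurP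

variable {K k : Type*} [Field K] [Field k] {A : ValuationSubring K} {π : A →+* k}
  {F₀ F κ : Type*} [Field F₀] [Algebra K F₀] [Field F] [Algebra K F] [Field κ] [Algebra k κ]
  [IsAlgClosed K] [CharZero K] [IsAlgClosed k] [IsFnField K F₀] [IsFnField K F] [IsFnField k κ]
  {R₀ : ConstRed A π F₀ κ} {R₁ R₂ : ConstRed A π F κ} {j : F₀} {jb : κ}
    {α : F₀ →ₐ[K] F} {w : F →ₐ[K] F} {Fr : κ →ₐ[k] κ} {q : ℕ}
    (H : TwoLevel R₀ R₁ R₂ j jb α w Fr q)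

/-- the reduction along the first component -/
def red1Hom : spRing R₁ R₂ (α j * w (α j)) →+* regAlg k (jb ^ (q + 1)) :=
  (R₁.red.comp ((spRing R₁ R₂ (α j * w (α j))).subtype.codRestrict R₁.O.toSubring
    fun f => f.2.2.1)).codRestrict (regAlg k (jb ^ (q + 1))).toSubring fun f =>
      H.twoRed.mem_regAlg1 f.2.1 ⟨f.2.2.1, rfl⟩ f.2.2.2

/-- the reduction along the second component -/
def red2Hom : spRing R₁ R₂ (α j * w (α j)) →+* regAlg k (jb ^ (q + 1)) :=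
  (R₂.red.comp ((spRing R₁ R₂ (α j * w (α j))).subtype.codRestrict R₂.O.toSubring
    fun f => f.2.2.2)).codRestrict (regAlg k (jb ^ (q + 1))).toSubring fun f =>
      H.twoRed.mem_regAlg2 f.2.1 f.2.2.1 ⟨f.2.2.2, rfl⟩

theorem isRed_red1Hom (f : spRing R₁ R₂ (α j * w (α j))) :
    R₁.IsRed (f : F) (red1Hom H f : κ) := ⟨f.2.2.1, rfl⟩

theorem isRed_red2Hom (f : spRing R₁ R₂ (α j * w (α j))) :
    R₂.IsRed (f : F) (red2Hom H f : κ) := ⟨f.2.2.2, rfl⟩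

theorem br_red1Hom (s : (regAlg k (jb ^ (q + 1)) ⧸ H.cond) →ₐ[k] k)
    (f : spRing R₁ R₂ (α j * w (α j))) : br1 H s (red1Hom H f) = br2 H s (red2Hom H f) := by
  obtain ⟨m1, m2, h⟩ := br_glue (H := H) (s := s) f.2.1 (isRed_red1Hom H f) (isRed_red2Hom H f)
  exact h

/-- the node as a point of the special fibre -/
def nodePt (s : (regAlg k (jb ^ (q + 1)) ⧸ H.cond) →ₐ[k] k) : SpPt R₁ R₂ (α j * w (α j)) where
  ev := (br2 H s : regAlg k (jb ^ (q + 1)) →+* k).comp (red2Hom H)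
  ev_const a := by
    have h1 : red2Hom H (spC R₁ R₂ _ a) = algebraMap k _ (π a) :=
      Subtype.ext ((isRed_red2Hom H (spC R₁ R₂ _ a)).unique (R₂.isRed_coe a))
    change br2 H s (red2Hom H (spC R₁ R₂ _ a)) = π a
    rw [h1, AlgHom.commutes]
    rfl

theorem nodePt_ev (s : (regAlg k (jb ^ (q + 1)) ⧸ H.cond) →ₐ[k] k)
    (f : spRing R₁ R₂ (α j * w (α j))) : (nodePt H s).ev f = br2 H s (red2Hom H f) := rfl

theorem nodePt_ev' (s : (regAlg k (jb ^ (q + 1)) ⧸ H.cond) →ₐ[k] k)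
    (f : spRing R₁ R₂ (α j * w (α j))) : (nodePt H s).ev f = br1 H s (red1Hom H f) :=
  (br_red1Hom H s f).symm

section Places

variable [FiniteDimensional k⟮jb⟯ κ] [Algebra.IsSeparable k⟮jb⟯ κ]

/-- the tube over a node -/
def tube (s : (regAlg k (jb ^ (q + 1)) ⧸ H.cond) →ₐ[k] k) : Set (Place K F) := (nodePt H s).tube

theorem hasVal_nodePt1 (s : (regAlg k (jb ^ (q + 1)) ⧸ H.cond) →ₐ[k] k)
    (f : spRing R₁ R₂ (α j * w (α j))) :
    HasVal (place1 H s) (R₁.rd (f : F)) ((nodePt H s).ev f) := by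
  rw [nodePt_ev', (isRed_red1Hom H f).rd_eq]
  exact place1_val H s _

theorem hasVal_nodePt2 (s : (regAlg k (jb ^ (q + 1)) ⧸ H.cond) →ₐ[k] k)
    (f : spRing R₁ R₂ (α j * w (α j))) :
    HasVal (place2 H s) (R₂.rd (f : F)) ((nodePt H s).ev f) := by
  rw [nodePt_ev, (isRed_red2Hom H f).rd_eq]
  exact place2_val H s _

theorem node_tube (s : (regAlg k (jb ^ (q + 1)) ⧸ H.cond) →ₐ[k] k) :
    MazurP.Node R₁ R₂ (place1 H s) (place2 H s) (tube H s) :=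
  (nodePt H s).node (hasVal_nodePt1 H s) (hasVal_nodePt2 H s)

/-- description of the tube -/
theorem mem_tube_iff {s : (regAlg k (jb ^ (q + 1)) ⧸ H.cond) →ₐ[k] k} {P : Place K F} :
    P ∈ tube H s ↔ 0 ≤ P.ord (α j * w (α j)) ∧ ∀ f ∈ regAlg K (α j * w (α j)), ∀ b₁ b₂,
      R₁.IsRed f b₁ → R₂.IsRed f b₂ → ∀ c, HasVal (place2 H s) b₂ c → ∀ a, HasVal P f a →
        ∃ ha : a ∈ A, π ⟨a, ha⟩ = c := by
  constructor
  · rintro ⟨h0, h⟩
    refine ⟨h0, fun f hf b₁ b₂ h1 h2 c hc a ha => ?_⟩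
    obtain ⟨h3, h4⟩ := h ⟨f, hf, h1.mem, h2.mem⟩ a ha
    refine ⟨h3, ?_⟩
    rw [h4]
    have h5 := hasVal_nodePt2 H s ⟨f, hf, h1.mem, h2.mem⟩
    rw [h2.rd_eq] at h5
    exact h5.unique hc
  · rintro ⟨h0, h⟩
    refine ⟨h0, fun f a ha => ?_⟩
    refine h f f.2.1 _ _ (isRed_red1Hom H f) (isRed_red2Hom H f) _ ?_ a ha
    have := hasVal_nodePt2 H s f
    rwa [(isRed_red2Hom H f).rd_eq] at this

section Glue

variable [IsReduced (regAlg k (jb ^ (q + 1)) ⧸ H.cond)]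
  [Module.Finite k (regAlg k (jb ^ (q + 1)) ⧸ H.cond)]

/-- gluing is equality of the values at the nodes -/
theorem glued_of_br {b₁ b₂ : regAlg k (jb ^ (q + 1))}
    (h : ∀ s, br1 H s b₁ = br2 H s b₂) : TwoLevel.Glued R₁ R₂ (α j * w (α j)) (b₁ : κ) b₂ := by
  rw [H.glued_iff b₁.2 b₂.2]
  by_contra hne
  have h1 : Ideal.Quotient.mk H.cond ((⟨b₂, b₂.2⟩ : regAlg k (jb ^ (q + 1))) -
      ⟨Fr b₁, H.Fr_mem b₁.2⟩) ≠ 0 := fun h0 => hne (Ideal.Quotient.eq_zero_iff_mem.1 h0)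
  obtain ⟨e, he⟩ := exists_point_ne_zero (k := k) h1
  apply he
  rw [map_sub, map_sub, sub_eq_zero]
  exact (h e).symm

/-- gluing denominators at a node -/
theorem exists_glued_den (s : (regAlg k (jb ^ (q + 1)) ⧸ H.cond) →ₐ[k] k) {b₁ b₂ : κ} {c : k}
    (h1 : HasVal (place1 H s) b₁ c) (h2 : HasVal (place2 H s) b₂ c) :
    ∃ d₁ d₂ : κ, HasVal (place1 H s) d₁ 1 ∧ HasVal (place2 H s) d₂ 1 ∧
      TwoLevel.Glued R₁ R₂ (α j * w (α j)) d₁ d₂ ∧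
      TwoLevel.Glued R₁ R₂ (α j * w (α j)) (d₁ * b₁) (d₂ * b₂) := by
  classical
  haveI : Finite ((regAlg k (jb ^ (q + 1)) ⧸ H.cond) →ₐ[k] k) := inferInstance
  haveI := Fintype.ofFinite ((regAlg k (jb ^ (q + 1)) ⧸ H.cond) →ₐ[k] k)
  have hreg : regAlg k (jb ^ (q + 1)) = regAlg k jb := TwoLevel.regAlg_pow (Nat.succ_ne_zero q)
  obtain ⟨d₁, hd₁, hd₁v, hd₁b, hd₁s⟩ := exists_denominator H.t0 (place1_ord_jb H s)
    (Finset.univ.image (place1 H)) h1.nonneg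
  obtain ⟨d₂, hd₂, hd₂v, hd₂b, hd₂s⟩ := exists_denominator H.t0 (place2_ord_jb H s)
    (Finset.univ.image (place2 H)) h2.nonneg
  rw [← hreg] at hd₁ hd₁b hd₂ hd₂b
  refine ⟨d₁, d₂, hd₁v, hd₂v, ?_, ?_⟩
  · refine glued_of_br H (b₁ := ⟨d₁, hd₁⟩) (b₂ := ⟨d₂, hd₂⟩) fun s' => ?_
    by_cases hs : s' = s
    · subst hs
      rw [(place1_val H s' ⟨d₁, hd₁⟩).unique hd₁v, (place2_val H s' ⟨d₂, hd₂⟩).unique hd₂v]
    · rw [(place1_val H s' ⟨d₁, hd₁⟩).unique (hd₁s (place1 H s')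
          (Finset.mem_image_of_mem _ (Finset.mem_univ _)) (fun h => hs (place1_injective H h))
          (place1_ord_jb H s')).1,
        (place2_val H s' ⟨d₂, hd₂⟩).unique (hd₂s (place2 H s')
          (Finset.mem_image_of_mem _ (Finset.mem_univ _)) (fun h => hs (place2_injective H h))
          (place2_ord_jb H s')).1]
  · refine glued_of_br H (b₁ := ⟨_, hd₁b⟩) (b₂ := ⟨_, hd₂b⟩) fun s' => ?_
    by_cases hs : s' = s
    · subst hs
      rw [(place1_val H s' ⟨_, hd₁b⟩).unique (hd₁v.mul h1),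
        (place2_val H s' ⟨_, hd₂b⟩).unique (hd₂v.mul h2)]
    · rw [(place1_val H s' ⟨_, hd₁b⟩).unique (hd₁s (place1 H s')
          (Finset.mem_image_of_mem _ (Finset.mem_univ _)) (fun h => hs (place1_injective H h))
          (place1_ord_jb H s')).2,
        (place2_val H s' ⟨_, hd₂b⟩).unique (hd₂s (place2 H s')
          (Finset.mem_image_of_mem _ (Finset.mem_univ _)) (fun h => hs (place2_injective H h))
          (place2_ord_jb H s')).2]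

/-- lifting of pairs of functions with the same value at a node -/
theorem lift_node {E : Subfield F}
    (hlift : ∀ b₁ b₂, TwoLevel.Glued R₁ R₂ (α j * w (α j)) b₁ b₂ →
      ∃ f ∈ regAlg K (α j * w (α j)), f ∈ E ∧ R₁.IsRed f b₁ ∧ R₂.IsRed f b₂)
    (s : (regAlg k (jb ^ (q + 1)) ⧸ H.cond) →ₐ[k] k) {b₁ b₂ : κ} {c : k}
    (h1 : HasVal (place1 H s) b₁ c) (h2 : HasVal (place2 H s) b₂ c) :
    ∃ g ∈ E, g ∈ locRing R₁ R₂ (tube H s) ∧ R₁.IsRed g b₁ ∧ R₂.IsRed g b₂ := by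
  obtain ⟨d₁, d₂, hd₁, hd₂, hg, hgb⟩ := exists_glued_den H s h1 h2
  obtain ⟨D, hDr, hDE, hD1, hD2⟩ := hlift _ _ hg
  obtain ⟨G, hGr, hGE, hG1, hG2⟩ := hlift _ _ hgb
  have hd₁0 : d₁ ≠ 0 := hasVal_ne_zero hd₁ one_ne_zero
  have hd₂0 : d₂ ≠ 0 := hasVal_ne_zero hd₂ one_ne_zero
  have e1 := hG1.div hD1 hd₁0
  have e2 := hG2.div hD2 hd₂0
  rw [mul_div_cancel_left₀ _ hd₁0] at e1
  rw [mul_div_cancel_left₀ _ hd₂0] at e2
  refine ⟨G / D, div_mem hGE hDE, ⟨e1.mem, e2.mem, fun P hP => ?_⟩, e1, e2⟩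
  have hPx := ((mem_tube_iff H).1 hP).1
  apply mem_of_ord_nonneg
  obtain ⟨δ, hδ⟩ := exists_hasVal (mem_regAlg_iff.1 hDr P hPx)
  obtain ⟨hδA, hδ1⟩ := ((mem_tube_iff H).1 hP).2 D hDr _ _ hD1 hD2 1 hd₂ δ hδ
  have hδ0 : δ ≠ 0 := by
    rintro rfl
    have : (⟨0, hδA⟩ : A) = 0 := rfl
    rw [this, map_zero] at hδ1
    exact zero_ne_one hδ1
  rcases eq_or_ne G 0 with h0 | h0
  · rw [h0, zero_div]; simp
  rw [div_eq_mul_inv, P.ord_mul h0 (inv_ne_zero (hasVal_ne_zero hδ hδ0)), P.ord_inv,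
    hδ.ord_eq_zero hδ0]
  have := mem_regAlg_iff.1 hGr P hPx
  omega

/-- **The structure `TubeData` at a node.** -/
theorem tubeData_of {E : Subfield F} {ϖ : A}
    (hlift : ∀ b₁ b₂, TwoLevel.Glued R₁ R₂ (α j * w (α j)) b₁ b₂ →
      ∃ f ∈ regAlg K (α j * w (α j)), f ∈ E ∧ R₁.IsRed f b₁ ∧ R₂.IsRed f b₂)
    (hconst : ∀ c : k, ∃ a : A, π a = c ∧ algebraMap K F a ∈ E) (hlev : Lev R₁ R₂ E ϖ)
    (hdisc : ∀ s : Finset F, ∃ (E' : Subfield F) (d : A), E ≤ E' ∧ (∀ x ∈ s, x ∈ E') ∧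
      Lev R₁ R₂ E' d)
    (harch : ∀ a d : A, a ≠ 0 → π d = 0 → ∃ n : ℕ, ¬ d ^ n ∣ a)
    (s : (regAlg k (jb ^ (q + 1)) ⧸ H.cond) →ₐ[k] k) :
    TubeData R₁ R₂ (place1 H s) (place2 H s) (tube H s) E ϖ := by
  haveI := H.twoRed.fd
  haveI : CharZero K⟮α j * w (α j)⟯ :=
    charZero_of_injective_algebraMap (algebraMap K K⟮α j * w (α j)⟯).injective
  exact
  { toNode := node_tube H s
    lift := fun b₁ b₂ c h1 h2 => lift_node H hlift s h1 h2
    const := hconst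
    lev := hlev
    disc := hdisc
    arch := harch
    sep := fun P hP P' hP' hne => (nodePt H s).sep (transcendental_of_isRed H.r1 H.txb) hP hP' hne
    unifP := fun P hP => (nodePt H s).unifP (transcendental_of_isRed H.r1 H.txb) hP }

end Glue

/-- **The parameter at a node.** -/
theorem NodeData.param {s : (regAlg k (jb ^ (q + 1)) ⧸ H.cond) →ₐ[k] k} {Pr : F → Prop} {ϖ : A}
    {z y u : F} {z₁ y₂ u₁ u₂ : κ}
    (N : NodeData H s Pr (ϖ : K) (place1 H s) (place2 H s) z y u z₁ y₂ u₁ u₂) :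
    Param R₁ R₂ (place1 H s) (place2 H s) (tube H s) ϖ z := by
  have hz0 : z ≠ 0 := N.z1.ne_zero (ne_zero_of_ord_eq_one N.z1_ord)
  have hu0 : u ≠ 0 := N.u1.ne_zero N.u1_ne
  have e : algebraMap K F ϖ / z = y / u := by
    rw [div_eq_div_iff hz0 hu0, ← N.mul, mul_comm]
  have h1 := N.y1.div N.u1 N.u1_ne
  have h2 := N.y2.div N.u2 N.u2_ne
  refine ⟨⟨N.z1.mem, N.z2.mem, fun P hP => ?_⟩, ?_, ⟨z₁, N.z1, N.z1_ord⟩, ⟨y₂ / u₂, ?_, ?_⟩⟩
  · exact mem_of_ord_nonneg P (mem_regAlg_iff.1 N.regz P ((mem_tube_iff H).1 hP).1)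
  · rw [e]
    refine ⟨h1.mem, h2.mem, fun P hP => ?_⟩
    have hPx := ((mem_tube_iff H).1 hP).1
    apply mem_of_ord_nonneg
    obtain ⟨δ, hδ⟩ := exists_hasVal (mem_regAlg_iff.1 N.regu P hPx)
    obtain ⟨c, hc⟩ := exists_hasVal (P := place2 H s) (f := u₂) N.u2_ord.ge
    obtain ⟨hδA, hδ1⟩ := ((mem_tube_iff H).1 hP).2 u N.regu _ _ N.u1 N.u2 c hc δ hδ
    have hc0 : c ≠ 0 := (hasVal_ne_zero_iff hc).2 ⟨N.u2_ne, N.u2_ord⟩
    have hδ0 : δ ≠ 0 := by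
      rintro rfl
      have : (⟨0, hδA⟩ : A) = 0 := rfl
      rw [this, map_zero] at hδ1
      exact hc0 hδ1.symm
    rcases eq_or_ne y 0 with h0 | h0
    · rw [h0, zero_div]; simp
    rw [div_eq_mul_inv, P.ord_mul h0 (inv_ne_zero hu0), P.ord_inv, hδ.ord_eq_zero hδ0]
    have := mem_regAlg_iff.1 N.regy P hPx
    omega
  · rw [e]; exact h2
  · have hy20 : y₂ ≠ 0 := ne_zero_of_ord_eq_one N.y2_ord
    rw [div_eq_mul_inv, (place2 H s).ord_mul hy20 (inv_ne_zero N.u2_ne), (place2 H s).ord_inv,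
      N.y2_ord, N.u2_ord]
    norm_num

end Places

end Fermat.Agent.Node
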