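import Fermat.Agent.Node.Smooth
import Fermat.Agent.Node.TubeAbs

/-!
# Smooth points of a two component reduction
-/

set_option autoImplicit false
set_option linter.unusedSectionVars false
set_option linter.style.haveILetI false
set_option linter.unusedVariables false

noncomputable section

open AlgebraicCurve IntermediateField Module

namespace Fermat.Agent.Node

open Fermat.Agent.FF Fermat.Agent.Red Fermat.Agent.QComp Fermat.Agent.MazurP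

section General

variable {K k : Type*} [Field K] [Field k] {A : ValuationSubring K} {π : A →+* k}
  {F κ₁ κ₂ : Type*} [Field F] [Algebra K F] [Field κ₁] [Algebra k κ₁] [Field κ₂] [Algebra k κ₂]
  [IsAlgClosed K] [CharZero K] [IsAlgClosed k] [IsFnField K F] [IsFnField k κ₁] [IsFnField k κ₂]
  {R₁ : ConstRed A π F κ₁} {R₂ : ConstRed A π F κ₂} {x : F} {x₁ : κ₁} {x₂ : κ₂}

/-- the reduction along the first component -/
def redHom (T : TwoRed R₁ R₂ x x₁ x₂) : spRing R₁ R₂ x →+* regAlg k x₁ :=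
  (R₁.red.comp ((spRing R₁ R₂ x).subtype.codRestrict R₁.O.toSubring
    fun f => f.2.2.1)).codRestrict (regAlg k x₁).toSubring fun f =>
      T.mem_regAlg1 f.2.1 ⟨f.2.2.1, rfl⟩ f.2.2.2

theorem isRed_redHom (T : TwoRed R₁ R₂ x x₁ x₂) (f : spRing R₁ R₂ x) :
    R₁.IsRed (f : F) (redHom T f : κ₁) := ⟨f.2.2.1, rfl⟩

/-- a point of the first component as a point of the special fibre -/
def compPt (T : TwoRed R₁ R₂ x x₁ x₂) {Q : Place k κ₁} (hQ : 0 ≤ Q.ord x₁) : SpPt R₁ R₂ x where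
  ev := (evalHom hQ : regAlg k x₁ →+* k).comp (redHom T)
  ev_const a := by
    have h1 : redHom T (spC R₁ R₂ _ a) = algebraMap k _ (π a) :=
      Subtype.ext ((isRed_redHom T (spC R₁ R₂ _ a)).unique (R₁.isRed_coe a))
    change evalHom hQ (redHom T (spC R₁ R₂ _ a)) = π a
    rw [h1, AlgHom.commutes]
    rfl

theorem hasVal_compPt (T : TwoRed R₁ R₂ x x₁ x₂) {Q : Place k κ₁} (hQ : 0 ≤ Q.ord x₁)
    (f : spRing R₁ R₂ x) : HasVal Q (redHom T f : κ₁) ((compPt T hQ).ev f) :=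
  hasVal_evalHom hQ (redHom T f)

theorem compPt_ev_eq (T : TwoRed R₁ R₂ x x₁ x₂) {Q : Place k κ₁} (hQ : 0 ≤ Q.ord x₁)
    (f : spRing R₁ R₂ x) {b : κ₁} (hb : R₁.IsRed (f : F) b) {c : k} (hc : HasVal Q b c) :
    (compPt T hQ).ev f = c := by
  have h1 := hasVal_compPt T hQ f
  rw [(isRed_redHom T f).unique hb] at h1
  exact h1.unique hc

/-- **The tube over a smooth point.** -/
theorem sTube_of (T : TwoRed R₁ R₂ x x₁ x₂) (hA : IsArch A) {Q : Place k κ₁} (hQ : 0 ≤ Q.ord x₁)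
    {F₀ : Subfield F}
    (hlift : ∀ b : κ₁, 0 ≤ Q.ord b → ∃ d n : F, d ∈ spRing R₁ R₂ x ∧ n ∈ spRing R₁ R₂ x ∧
      d ∈ F₀ ∧ n ∈ F₀ ∧ ∃ d₁, R₁.IsRed d d₁ ∧ HasVal Q d₁ 1 ∧ R₂.IsRed d 0 ∧ R₁.IsRed n (d₁ * b))
    (hconst : ∀ c : k, ∃ a : A, π a = c ∧ algebraMap K F a ∈ F₀)
    (hdisc : ∀ s : Finset F, ∃ (E : Subfield F) (d : A), F₀ ≤ E ∧ (∀ x ∈ s, x ∈ E) ∧ Lev1 R₁ E d)
    (harch : ∀ a d : A, a ≠ 0 → π d = 0 → ∃ n : ℕ, ¬ d ^ n ∣ a) :
    STube R₁ Q (compPt T hQ).tube F₀ := by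
  haveI := T.fd
  haveI : CharZero K⟮x⟯ := charZero_of_injective_algebraMap (algebraMap K K⟮x⟯).injective
  have hx : Transcendental K x := transcendental_of_isRed T.r1 T.t1
  have hle : ∀ f ∈ spRing R₁ R₂ x, f ∈ loc1 R₁ (compPt T hQ).tube := fun f hf =>
    ⟨hf.2.1, fun P hP => mem_of_ord_nonneg P (mem_regAlg_iff.1 hf.1 P hP.1)⟩
  refine ⟨?_, ?_, hconst, hdisc, harch, ?_, ?_⟩
  · -- glue
    intro g hg
    obtain ⟨d, hd, hdg⟩ := (compPt T hQ).exists_den (g := g)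
      fun P hP => ord_nonneg_of_mem P (hg.2 P hP)
    obtain ⟨r, -, hr, -, -, -, r₁, hr1, hrQ, hr2, -⟩ := hlift 1 (by simp)
    -- clear the denominator along the second component
    obtain ⟨N, hN⟩ : ∃ N : ℕ, r ^ N * ((d : F) * g) ∈ R₂.O := by
      rcases eq_or_ne ((d : F) * g) 0 with h0 | h0
      · exact ⟨0, by rw [h0, mul_zero]; exact zero_mem _⟩
      obtain ⟨c, hc, h1, -⟩ := R₂.exists_scale _ h0
      obtain ⟨N, hN⟩ := hA.exists_isRed_pow hr2 c⁻¹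
      refine ⟨N, ?_⟩
      have h2 := mul_mem (hN N le_rfl).mem h1
      have hcF : algebraMap K F c ≠ 0 := by simpa using hc
      have e : algebraMap K F c⁻¹ * r ^ N * (algebraMap K F c * ((d : F) * g)) =
          r ^ N * ((d : F) * g) := by
        rw [map_inv₀]
        field_simp
      rwa [e] at h2
    have hrp : r ^ N ∈ spRing R₁ R₂ x := pow_mem hr N
    have hmem : r ^ N * ((d : F) * g) ∈ spRing R₁ R₂ x :=
      ⟨mul_mem hrp.1 hdg, mul_mem hrp.2.1 (mul_mem d.2.2.1 hg.1), hN⟩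
    have hδ : (compPt T hQ).ev (⟨r ^ N, hrp⟩ * d) ≠ 0 := by
      rw [map_mul]
      refine mul_ne_zero ?_ hd
      rw [compPt_ev_eq T hQ ⟨r ^ N, hrp⟩ (hr1.pow N) (hrQ.pow N), one_pow]
      exact one_ne_zero
    set D : spRing R₁ R₂ x := ⟨r ^ N, hrp⟩ * d with hD
    have hDF : (D : F) = r ^ N * d := rfl
    set n : spRing R₁ R₂ x := ⟨_, hmem⟩ with hn
    have hnD : (n : F) = D * g := by rw [hDF, mul_assoc]
    refine ⟨(compPt T hQ).ev n / (compPt T hQ).ev D, ?_, fun P hP b hb => ?_⟩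
    · have h3 := (isRed_redHom T D).mul (R₁.isRed_rd hg.1)
      rw [← hnD] at h3
      have h4 := (hasVal_compPt T hQ n).div (hasVal_compPt T hQ D) hδ
      have hd0 : (redHom T D : κ₁) ≠ 0 := hasVal_ne_zero (hasVal_compPt T hQ D) hδ
      rwa [(isRed_redHom T n).unique h3, mul_div_cancel_left₀ _ hd0] at h4
    · obtain ⟨δ, hδv⟩ := exists_hasVal (spRing_nonneg hP.1 D)
      obtain ⟨hδA, hδπ⟩ := hP.2 D δ hδv
      have hnv : HasVal P (n : F) (δ * b) := by rw [hnD]; exact hδv.mul hb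
      obtain ⟨hnA, hnπ⟩ := hP.2 n (δ * b) hnv
      have hδ0 : π ⟨δ, hδA⟩ ≠ 0 := by rw [hδπ]; exact hδ
      have hδu : IsUnit (⟨δ, hδA⟩ : A) := by
        by_contra h
        exact hδ0 ((R₁.pi_eq_zero_iff _).2 h)
      obtain ⟨v, hv⟩ := hδu.exists_right_inv
      have hv' : δ * (v : K) = 1 := congrArg Subtype.val hv
      have hbv : b = (⟨δ * b, hnA⟩ : A) * v := by
        change b = δ * b * v
        linear_combination (-b) * hv'
      have hbA : b ∈ A := by rw [hbv]; exact mul_mem hnA v.2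
      refine ⟨hbA, ?_⟩
      have h1 : (⟨b, hbA⟩ : A) * ⟨δ, hδA⟩ = ⟨δ * b, hnA⟩ := Subtype.ext (mul_comm b δ)
      rw [eq_div_iff hδ, ← hδπ, ← map_mul, h1, hnπ]
  · -- lift
    intro b c hb
    obtain ⟨d, n, hd, hn, hdF, hnF, d₁, hd1, hdQ, -, hn1⟩ := hlift b hb.nonneg
    have hd₁0 : d₁ ≠ 0 := hasVal_ne_zero hdQ one_ne_zero
    have e1 := hn1.div hd1 hd₁0
    rw [mul_div_cancel_left₀ _ hd₁0] at e1
    refine ⟨n / d, div_mem hnF hdF, ⟨e1.mem, fun P hP => ?_⟩, e1⟩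
    apply mem_of_ord_nonneg
    obtain ⟨δ, hδ⟩ := exists_hasVal (mem_regAlg_iff.1 hd.1 P hP.1)
    obtain ⟨hδA, hδ1⟩ := hP.2 ⟨d, hd⟩ δ hδ
    rw [compPt_ev_eq T hQ ⟨d, hd⟩ hd1 hdQ] at hδ1
    have hδ0 : δ ≠ 0 := by
      rintro rfl
      have : (⟨0, hδA⟩ : A) = 0 := rfl
      rw [this, map_zero] at hδ1
      exact zero_ne_one hδ1
    rcases eq_or_ne n 0 with h0 | h0
    · rw [h0, zero_div]; simp
    rw [div_eq_mul_inv, P.ord_mul h0 (inv_ne_zero (hasVal_ne_zero hδ hδ0)), P.ord_inv,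
      hδ.ord_eq_zero hδ0]
    have := mem_regAlg_iff.1 hn.1 P hP.1
    omega
  · -- sep
    intro P hP P' hP' hne
    obtain ⟨g, hg, a, a', h1, h2, h3⟩ := (compPt T hQ).sep hx hP hP' hne
    exact ⟨g, ⟨hg.1, hg.2.2⟩, a, a', h1, h2, h3⟩
  · -- unifP
    intro P hP
    obtain ⟨g, hg, h1⟩ := (compPt T hQ).unifP hx hP
    exact ⟨g, ⟨hg.1, hg.2.2⟩, h1⟩

end General

section Level

variable {K k : Type*} [Field K] [Field k] {A : ValuationSubring K} {π : A →+* k}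
  {F₀ F κ : Type*} [Field F₀] [Algebra K F₀] [Field F] [Algebra K F] [Field κ] [Algebra k κ]
  [IsAlgClosed K] [CharZero K] [IsAlgClosed k] [IsFnField K F₀] [IsFnField K F] [IsFnField k κ]
  {R₀ : ConstRed A π F₀ κ} {R₁ R₂ : ConstRed A π F κ} {j : F₀} {jb : κ}
    {α : F₀ →ₐ[K] F} {w : F →ₐ[K] F} {Fr : κ →ₐ[k] κ} {q : ℕ}
    (H : TwoLevel R₀ R₁ R₂ j jb α w Fr q)

include H in
/-- glued pairs of sections lift to sections -/
theorem exists_glued_Lm (hπ : Function.Surjective π) : ∃ M₀ : ℕ, ∀ m, M₀ ≤ m → ∀ b₁ b₂ : κ,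
    b₁ ∈ riemannRochSpace (m • RR.poleDiv (K := k) (jb ^ (q + 1))) →
    b₂ ∈ riemannRochSpace (m • RR.poleDiv (K := k) (jb ^ (q + 1))) →
    TwoLevel.Glued R₁ R₂ (α j * w (α j)) b₁ b₂ →
    (b₁, b₂) ∈ redSub R₁ R₂ hπ (riemannRochSpace (m • RR.poleDiv (K := K) (α j * w (α j)))) := by
  obtain ⟨M₁, hM₁⟩ := H.exists_prod_le hπ
  obtain ⟨M₂, hM₂⟩ := H.exists_finrank_redSub hπ
  refine ⟨M₁ + M₂, fun m hm b₁ b₂ hb₁ hb₂ hg => ?_⟩
  set Lam : ℕ → Submodule k (κ × κ) := fun m =>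
    (riemannRochSpace (m • RR.poleDiv (K := k) (jb ^ (q + 1)))).prod
        (riemannRochSpace (m • RR.poleDiv (K := k) (jb ^ (q + 1)))) with hLam
  set Lb : ℕ → Submodule k (κ × κ) := fun m =>
    redSub R₁ R₂ hπ (riemannRochSpace (m • RR.poleDiv (K := K) (α j * w (α j)))) with hLb
  have hfin : ∀ m, FiniteDimensional k (Lam m) := fun m => by
    haveI : FiniteDimensional k (riemannRochSpace (m • RR.poleDiv (K := k) (jb ^ (q + 1))) ×
      riemannRochSpace (m • RR.poleDiv (K := k) (jb ^ (q + 1)))) := inferInstance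
    exact Module.Finite.equiv (prodEquiv' _ _).symm
  have hle : ∀ m, Lb m ≤ Lam m := fun m => H.redSub_le hπ m
  have hmono : ∀ a b, a ≤ b → Lam a ≤ Lam b := fun a b hab =>
    Submodule.prod_mono (Lm_mono hab) (Lm_mono hab)
  have hmono' : ∀ a b, a ≤ b → Lb a ≤ Lb b := fun a b hab => redSub_mono (Lm_mono hab)
  have hint : ∀ m', m ≤ m' → Lb m' ⊓ Lam m ≤ Lb m := by
    intro m' hm'
    haveI := hfin m'
    haveI := hfin m
    haveI : FiniteDimensional k (Lb m') := Submodule.finiteDimensional_of_le (hle m')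
    have h1 : Lb m ≤ Lb m' ⊓ Lam m := le_inf (hmono' _ _ hm') (hle m)
    have h2 := Submodule.finrank_sup_add_finrank_inf_eq (Lb m') (Lam m)
    have h3 : Lb m' ⊔ Lam m = Lam m' := by
      apply le_antisymm (sup_le (hle m') (hmono _ _ hm'))
      rw [sup_comm]
      exact hM₁ m (by omega) m' hm'
    rw [h3] at h2
    have h4 := hM₂ m (by omega)
    have h5 := hM₂ m' (by omega)
    have h6 : finrank k (Lb m' ⊓ Lam m : Submodule k (κ × κ)) = finrank k (Lb m) := by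
      change (finrank k (Lam m) : ℤ) = finrank k (Lb m) + _ at h4
      change (finrank k (Lam m') : ℤ) = finrank k (Lb m') + _ at h5
      omega
    exact (Submodule.eq_of_le_of_finrank_eq h1 h6.symm).ge
  obtain ⟨f, hf, hf1, hf2⟩ := hg
  obtain ⟨r, hr⟩ := exists_mem_Lm hf
  exact hint (m + r) (by omega) ⟨⟨f, Lm_mono (by omega) hr, hf1, hf2⟩, ⟨hb₁, hb₂⟩⟩

variable [FiniteDimensional k⟮jb⟯ κ] [Algebra.IsSeparable k⟮jb⟯ κ]
  [IsReduced (regAlg k (jb ^ (q + 1)) ⧸ H.cond)]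
  [Module.Finite k (regAlg k (jb ^ (q + 1)) ⧸ H.cond)]

/-- functions vanishing at the nodes, glued with zero -/
theorem glued_zero_of_vanish {b : κ} (hb : b ∈ regAlg k (jb ^ (q + 1)))
    (h : ∀ s, HasVal (place1 H s) b 0) : TwoLevel.Glued R₁ R₂ (α j * w (α j)) b 0 := by
  refine glued_of_br H (b₁ := ⟨b, hb⟩) (b₂ := 0) fun s => ?_
  rw [map_zero]
  exact (place1_val H s ⟨b, hb⟩).unique (h s)

/-- noncuspidal smooth points -/
theorem lift_affine {Q : Place k κ} (hQ : 0 ≤ Q.ord jb) (hQs : ∀ s, Q ≠ place1 H s) {E : Subfield F}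
    (hlift : ∀ b₁ b₂, TwoLevel.Glued R₁ R₂ (α j * w (α j)) b₁ b₂ →
      ∃ f ∈ regAlg K (α j * w (α j)), f ∈ E ∧ R₁.IsRed f b₁ ∧ R₂.IsRed f b₂)
    {b : κ} (hb : 0 ≤ Q.ord b) : ∃ d n : F, d ∈ spRing R₁ R₂ (α j * w (α j)) ∧
      n ∈ spRing R₁ R₂ (α j * w (α j)) ∧ d ∈ E ∧ n ∈ E ∧
      ∃ d₁, R₁.IsRed d d₁ ∧ HasVal Q d₁ 1 ∧ R₂.IsRed d 0 ∧ R₁.IsRed n (d₁ * b) := by
  classical
  haveI : Finite ((regAlg k (jb ^ (q + 1)) ⧸ H.cond) →ₐ[k] k) := inferInstance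
  haveI := Fintype.ofFinite ((regAlg k (jb ^ (q + 1)) ⧸ H.cond) →ₐ[k] k)
  have hreg : regAlg k (jb ^ (q + 1)) = regAlg k jb := TwoLevel.regAlg_pow (Nat.succ_ne_zero q)
  obtain ⟨d₁, hd₁, hd₁v, hd₁b, hd₁s⟩ := exists_denominator H.t0 hQ
    (Finset.univ.image (place1 H)) hb
  rw [← hreg] at hd₁ hd₁b
  have hv := fun s => hd₁s (place1 H s) (Finset.mem_image_of_mem _ (Finset.mem_univ _))
    (fun h => hQs s h.symm) (place1_ord_jb H s)
  obtain ⟨d, h1, h2, h3, h4⟩ := hlift _ _ (glued_zero_of_vanish H hd₁ fun s => (hv s).1)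
  obtain ⟨n, h1', h2', h3', h4'⟩ := hlift _ _ (glued_zero_of_vanish H hd₁b fun s => (hv s).2)
  exact ⟨d, n, ⟨h1, h3.mem, h4.mem⟩, ⟨h1', h3'.mem, h4'.mem⟩, h2, h2', d₁, h3, hd₁v, h4, h3'⟩

omit [FiniteDimensional k⟮jb⟯ κ] [Algebra.IsSeparable k⟮jb⟯ κ]
  [IsReduced (regAlg k (jb ^ (q + 1)) ⧸ H.cond)]
  [Module.Finite k (regAlg k (jb ^ (q + 1)) ⧸ H.cond)] in
/-- functions regular at the zeros of `y⁻¹`, multiplied by a power of `y` -/
theorem mul_pow_mem {y u : κ} (hy : y ≠ 0) (hu : u ∈ regAlg k y⁻¹) : ∃ m' : ℕ, ∀ m, m' ≤ m →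
    u * y ^ m ∈ regAlg k y ∧ u * y ^ m ∈ riemannRochSpace (m • RR.poleDiv (K := k) y) := by
  obtain ⟨m', hm'⟩ := exists_mem_Lm hu
  rw [mem_Lm_iff (inv_ne_zero hy), inv_inv] at hm'
  have key : ∀ m, m' ≤ m → u * y ^ m ∈ regAlg k y := by
    intro m hm
    obtain ⟨r, rfl⟩ := Nat.exists_eq_add_of_le hm
    have h1 := mul_mem (pow_mem (self_mem_regAlg (K := k) y) r) hm'.2
    convert h1 using 1
    ring
  refine ⟨m', fun m hm => ⟨key m hm, ?_⟩⟩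
  rw [mem_Lm_iff hy]
  refine ⟨key m hm, ?_⟩
  have e : y⁻¹ ^ m * (u * y ^ m) = u := by
    rw [inv_pow]
    field_simp
  rw [e]
  exact hu

include H in
/-- cusps -/
theorem lift_cusp {Q : Place k κ} (hQ : Q.ord jb < 0) {E : Subfield F}
    (hxE : α j * w (α j) ∈ E)
    (hlift : ∃ M₀ : ℕ, ∀ m, M₀ ≤ m → ∀ b₁ b₂ : κ,
      b₁ ∈ riemannRochSpace (m • RR.poleDiv (K := k) (jb ^ (q + 1))) →
      b₂ ∈ riemannRochSpace (m • RR.poleDiv (K := k) (jb ^ (q + 1))) →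
      TwoLevel.Glued R₁ R₂ (α j * w (α j)) b₁ b₂ →
      ∃ f ∈ riemannRochSpace (m • RR.poleDiv (K := K) (α j * w (α j))), f ∈ E ∧
        R₁.IsRed f b₁ ∧ R₂.IsRed f b₂)
    {b : κ} (hb : 0 ≤ Q.ord b) : ∃ d n : F, d ∈ spRing R₁ R₂ (α j * w (α j))⁻¹ ∧
      n ∈ spRing R₁ R₂ (α j * w (α j))⁻¹ ∧ d ∈ E ∧ n ∈ E ∧
      ∃ d₁, R₁.IsRed d d₁ ∧ HasVal Q d₁ 1 ∧ R₂.IsRed d 0 ∧ R₁.IsRed n (d₁ * b) := by
  classical
  haveI : Finite ((regAlg k (jb ^ (q + 1)) ⧸ H.cond) →ₐ[k] k) := inferInstance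
  haveI := Fintype.ofFinite ((regAlg k (jb ^ (q + 1)) ⧸ H.cond) →ₐ[k] k)
  have hjb0 : jb ≠ 0 := transcendental_ne_zero H.t0
  have hreg : regAlg k (jb ^ (q + 1)) = regAlg k jb := TwoLevel.regAlg_pow (Nat.succ_ne_zero q)
  have hreg' : regAlg k (jb ^ (q + 1))⁻¹ = regAlg k jb⁻¹ := by
    rw [← inv_pow]
    exact TwoLevel.regAlg_pow (Nat.succ_ne_zero q)
  have hinv : k⟮jb⁻¹⟯ = k⟮jb⟯ := RR.adjoin_simple_inv' (K := k) jb
  have ht' : Transcendental k jb⁻¹ := RR.transcendental_inv' H.t0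
  haveI : FiniteDimensional k⟮jb⁻¹⟯ κ := by rw [hinv]; infer_instance
  haveI : Algebra.IsSeparable k⟮jb⁻¹⟯ κ := by rw [hinv]; infer_instance
  have hQ' : 0 ≤ Q.ord jb⁻¹ := by rw [Q.ord_inv]; omega
  obtain ⟨z, hz, hzv, hzb, hzs⟩ := exists_denominator ht' hQ'
    (Finset.univ.image (place1 H)) hb
  rw [← hreg'] at hz hzb
  obtain ⟨M₀, hM₀⟩ := hlift
  -- the lifting of one function
  have key : ∀ u : κ, u ∈ regAlg k (jb ^ (q + 1))⁻¹ →
      (∀ s, 0 ≤ (place1 H s).ord jb⁻¹ → HasVal (place1 H s) u 0) →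
      ∃ d ∈ spRing R₁ R₂ (α j * w (α j))⁻¹, d ∈ E ∧ R₁.IsRed d u ∧ R₂.IsRed d 0 := by
    intro u hu hus
    obtain ⟨m', hm'⟩ := mul_pow_mem (pow_ne_zero (q + 1) hjb0) hu
    set m := M₀ + m' + 1 with hm
    obtain ⟨h1, h2⟩ := hm' m (by omega)
    have h3 : ∀ s, HasVal (place1 H s) (u * (jb ^ (q + 1)) ^ m) 0 := by
      intro s
      rw [hasVal_zero_iff]
      by_cases hu0 : u = 0
      · left; rw [hu0, zero_mul]
      right
      have hy0 : jb ^ (q + 1) ≠ 0 := pow_ne_zero _ hjb0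
      have hnn := place1_ord_jb H s
      rcases hnn.lt_or_eq with h4 | h4
      · obtain ⟨h5, -⟩ := hm' (M₀ + m') (by omega)
        have h6 := mem_regAlg_iff.1 h5 (place1 H s) (by rw [ord_pow]; positivity)
        have e : u * (jb ^ (q + 1)) ^ m = (u * (jb ^ (q + 1)) ^ (M₀ + m')) * jb ^ (q + 1) := by
          rw [hm, pow_succ (jb ^ (q + 1))]
          ring
        rw [e, (place1 H s).ord_mul (mul_ne_zero hu0 (pow_ne_zero _ hy0)) hy0, ord_pow]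
        have : 0 < ((q + 1 : ℕ) : ℤ) * (place1 H s).ord jb := by positivity
        omega
      · have h5 := (hasVal_zero_iff.1 (hus s (by rw [(place1 H s).ord_inv]; omega))).resolve_left hu0
        rw [(place1 H s).ord_mul hu0 (pow_ne_zero _ hy0), ord_pow, ord_pow, ← h4]
        simpa using h5
    have h4 := glued_zero_of_vanish H h1 h3
    obtain ⟨D, hDm, hDE, hD1, hD2⟩ := hM₀ m (by omega) _ _ h2 (zero_mem _) h4
    have hx0 : α j * w (α j) ≠ 0 := transcendental_ne_zero (transcendental_of_isRed H.r1 H.txb)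
    have h5 := ((mem_Lm_iff hx0).1 hDm).2
    have hy0 : jb ^ (q + 1) ≠ 0 := pow_ne_zero _ hjb0
    have h6 := ((H.r1.inv hy0).pow m).mul hD1
    have h7 := ((H.r2.inv hy0).pow m).mul hD2
    rw [mul_zero] at h7
    have e : (jb ^ (q + 1))⁻¹ ^ m * (u * (jb ^ (q + 1)) ^ m) = u := by
      rw [inv_pow]
      field_simp
    rw [e] at h6
    exact ⟨_, ⟨h5, h6.mem, h7.mem⟩, mul_mem (pow_mem (inv_mem hxE) m) hDE, h6, h7⟩
  have hne : ∀ s, place1 H s ≠ Q := by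
    intro s h
    have := place1_ord_jb H s
    rw [h] at this
    omega
  have hv := fun s (h : 0 ≤ (place1 H s).ord jb⁻¹) => hzs (place1 H s)
    (Finset.mem_image_of_mem _ (Finset.mem_univ _)) (hne s) h
  obtain ⟨d, hd, hdE, hd1, hd2⟩ := key z hz fun s h => (hv s h).1
  obtain ⟨n, hn, hnE, hn1, hn2⟩ := key (z * b) hzb fun s h => (hv s h).2
  exact ⟨d, n, hd, hn, hdE, hnE, z, hd1, hzv, hd2, hn1⟩

end Level

end Fermat.Agent.Node
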