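import Fermat.Agent.Node.Main

/-!
# Nodes and supersingular places

* `place1`, `place2`: the places on the two components through a node;
* `flip`: the involution of the nodes;
* `exists_br1`: points of the affine curve killing the conductor are nodes;
* `exists_node_of_super`: the noncuspidal zeros of the Hasse function are nodes.
-/

set_option autoImplicit false
set_option linter.unusedSectionVars false
set_option linter.style.haveILetI false
set_option linter.unusedVariables false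

noncomputable section

open AlgebraicCurve ModularCurve IntermediateField Module

namespace Fermat.Agent.Node

open Fermat.Agent.FF Fermat.Agent.Red Fermat.Agent.QVal Fermat.Agent.JZ Fermat.Agent.QComp
open Fermat.Agent.ESh

section Eval

variable {k κ : Type*} [Field k] [Field κ] [Algebra k κ] [IsAlgClosed k] [IsFnField k κ] {x : κ}

theorem exists_val {Q : Place k κ} (hQ : 0 ≤ Q.ord x) (b : regAlg k x) :
    ∃ c, HasVal Q (b : κ) c :=
  exists_hasVal (mem_regAlg_iff.1 b.2 Q hQ)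

/-- evaluation of regular functions at a place -/
def evalHom {Q : Place k κ} (hQ : 0 ≤ Q.ord x) : regAlg k x →ₐ[k] k where
  toFun b := Classical.choose (exists_val hQ b)
  map_one' := (Classical.choose_spec (exists_val hQ 1)).unique (hasVal_one Q)
  map_mul' a b := (Classical.choose_spec (exists_val hQ (a * b))).unique
    ((Classical.choose_spec (exists_val hQ a)).mul (Classical.choose_spec (exists_val hQ b)))
  map_zero' := (Classical.choose_spec (exists_val hQ 0)).unique (hasVal_zero Q)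
  map_add' a b := (Classical.choose_spec (exists_val hQ (a + b))).unique
    ((Classical.choose_spec (exists_val hQ a)).add (Classical.choose_spec (exists_val hQ b)))
  commutes' c := (Classical.choose_spec (exists_val hQ (algebraMap k _ c))).unique
    (hasVal_algebraMap Q c)

theorem hasVal_evalHom {Q : Place k κ} (hQ : 0 ≤ Q.ord x) (b : regAlg k x) :
    HasVal Q (b : κ) (evalHom hQ b) :=
  Classical.choose_spec (exists_val hQ b)

/-- a place is determined by the values of regular functions -/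
theorem place_eq_of_hasVal (hx : Transcendental k x) [FiniteDimensional k⟮x⟯ κ]
    [Algebra.IsSeparable k⟮x⟯ κ] {e : regAlg k x → k} {Q Q' : Place k κ}
    (h : ∀ b : regAlg k x, HasVal Q (b : κ) (e b))
    (h' : ∀ b : regAlg k x, HasVal Q' (b : κ) (e b)) : Q' = Q := by
  obtain ⟨τ, hτ, hτ1, hτ2⟩ := exists_unif_isolated hx (h ⟨x, self_mem_regAlg x⟩)
  refine hτ2 Q' (h' ⟨x, self_mem_regAlg x⟩) ?_
  have h1 := h ⟨τ, mem_regAlg_of_isIntegral hτ⟩
  have h2 : HasVal Q τ 0 := hasVal_zero_iff.2 (Or.inr (by rw [hτ1]; norm_num))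
  have h3 := h1.unique h2
  have h4 := h' ⟨τ, mem_regAlg_of_isIntegral hτ⟩
  rwa [h3] at h4

end Eval

section Abs

variable {K k : Type*} [Field K] [Field k] {A : ValuationSubring K} {π : A →+* k}
  {F₀ F κ : Type*} [Field F₀] [Algebra K F₀] [Field F] [Algebra K F] [Field κ] [Algebra k κ]
  [IsAlgClosed K] [CharZero K] [IsAlgClosed k] [IsFnField K F₀] [IsFnField K F] [IsFnField k κ]
  {R₀ : ConstRed A π F₀ κ} {R₁ R₂ : ConstRed A π F κ} {j : F₀} {jb : κ}
    {α : F₀ →ₐ[K] F} {w : F →ₐ[K] F} {Fr : κ →ₐ[k] κ} {q : ℕ}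
    (H : TwoLevel R₀ R₁ R₂ j jb α w Fr q)

theorem FrB_mem_cond {b : regAlg k (jb ^ (q + 1))} (hb : b ∈ H.cond) : H.FrB b ∈ H.cond := by
  have h1 := TwoLevel.Glued.swap H (H.mem_cond.1 hb)
  have h2 := TwoLevel.Glued.sub (H.glued_Fr b.2) h1
  rw [sub_self, sub_zero] at h2
  exact h2

/-- the node attached to a point of the second component which kills the conductor -/
def ofHom (e : regAlg k (jb ^ (q + 1)) →ₐ[k] k) (he : ∀ b ∈ H.cond, e b = 0) :
    (regAlg k (jb ^ (q + 1)) ⧸ H.cond) →ₐ[k] k :=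
  Ideal.Quotient.liftₐ H.cond e he

theorem br2_ofHom (e : regAlg k (jb ^ (q + 1)) →ₐ[k] k) (he : ∀ b ∈ H.cond, e b = 0) :
    br2 H (ofHom H e he) = e := by
  ext b
  rfl

/-- the involution of the nodes -/
def flip (s : (regAlg k (jb ^ (q + 1)) ⧸ H.cond) →ₐ[k] k) :
    (regAlg k (jb ^ (q + 1)) ⧸ H.cond) →ₐ[k] k :=
  ofHom H (br1 H s) fun b hb => by
    have h1 : Ideal.Quotient.mkₐ k H.cond (H.FrB b) = 0 :=
      Ideal.Quotient.eq_zero_iff_mem.2 (FrB_mem_cond H hb)
    change s (Ideal.Quotient.mkₐ k H.cond (H.FrB b)) = 0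
    rw [h1, map_zero]

@[simp] theorem br2_flip (s : (regAlg k (jb ^ (q + 1)) ⧸ H.cond) →ₐ[k] k) :
    br2 H (flip H s) = br1 H s := br2_ofHom H _ _

@[simp] theorem br1_flip (s : (regAlg k (jb ^ (q + 1)) ⧸ H.cond) →ₐ[k] k) :
    br1 H (flip H s) = br2 H s := by
  apply AlgHom.ext
  intro b
  have h1 : br1 H (flip H s) b = br2 H (flip H s) (H.FrB b) := rfl
  rw [h1, br2_flip, br1_apply, br2_FrFr]

theorem br2_injective {s s' : (regAlg k (jb ^ (q + 1)) ⧸ H.cond) →ₐ[k] k}
    (h : br2 H s = br2 H s') : s = s' := by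
  apply AlgHom.ext
  intro x
  obtain ⟨b, rfl⟩ := Ideal.Quotient.mkₐ_surjective k H.cond x
  exact AlgHom.congr_fun h b

@[simp] theorem flip_flip (s : (regAlg k (jb ^ (q + 1)) ⧸ H.cond) →ₐ[k] k) :
    flip H (flip H s) = s := by
  apply br2_injective
  rw [br2_flip, br1_flip]

theorem br1_injective {s s' : (regAlg k (jb ^ (q + 1)) ⧸ H.cond) →ₐ[k] k}
    (h : br1 H s = br1 H s') : s = s' := by
  rw [← br2_flip, ← br2_flip] at h
  have h1 := congrArg (flip H) (br2_injective H h)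
  rwa [flip_flip, flip_flip] at h1

theorem exists_br1 (e : regAlg k (jb ^ (q + 1)) →ₐ[k] k) (he : ∀ b ∈ H.cond, e b = 0) :
    ∃ s, br1 H s = e := ⟨flip H (ofHom H e he), by rw [br1_flip, br2_ofHom]⟩

section Places

variable [FiniteDimensional k⟮jb⟯ κ] [Algebra.IsSeparable k⟮jb⟯ κ]

include H in
theorem exists_place_of_hom' (e : regAlg k (jb ^ (q + 1)) →ₐ[k] k) :
    ∃ Q : Place k κ, ∀ b : regAlg k (jb ^ (q + 1)), HasVal Q (b : κ) (e b) := by
  have hreg : regAlg k (jb ^ (q + 1)) = regAlg k jb := TwoLevel.regAlg_pow (Nat.succ_ne_zero q)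
  obtain ⟨Q, hQ⟩ := exists_place_of_hom H.t0 (e.comp (Subalgebra.inclusion hreg.ge))
  refine ⟨Q, fun b => ?_⟩
  have h1 : (b : κ) ∈ regAlg k jb := by rw [← hreg]; exact b.2
  exact hQ ⟨b, h1⟩

include H in
theorem place_eq_of_hasVal' {e : regAlg k (jb ^ (q + 1)) → k} {Q Q' : Place k κ}
    (h : ∀ b : regAlg k (jb ^ (q + 1)), HasVal Q (b : κ) (e b))
    (h' : ∀ b : regAlg k (jb ^ (q + 1)), HasVal Q' (b : κ) (e b)) : Q' = Q := by
  have hreg : regAlg k (jb ^ (q + 1)) = regAlg k jb := TwoLevel.regAlg_pow (Nat.succ_ne_zero q)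
  have hm : ∀ b : regAlg k jb, (b : κ) ∈ regAlg k (jb ^ (q + 1)) := fun b => by
    rw [hreg]; exact b.2
  exact place_eq_of_hasVal H.t0 (e := fun b => e ⟨b, hm b⟩) (fun b => h ⟨b, hm b⟩)
    (fun b => h' ⟨b, hm b⟩)

/-- the place of the first component through a node -/
def place1 (s : (regAlg k (jb ^ (q + 1)) ⧸ H.cond) →ₐ[k] k) : Place k κ :=
  Classical.choose (exists_place_of_hom' H (br1 H s))

/-- the place of the second component through a node -/
def place2 (s : (regAlg k (jb ^ (q + 1)) ⧸ H.cond) →ₐ[k] k) : Place k κ :=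
  Classical.choose (exists_place_of_hom' H (br2 H s))

theorem place1_val (s : (regAlg k (jb ^ (q + 1)) ⧸ H.cond) →ₐ[k] k)
    (b : regAlg k (jb ^ (q + 1))) : HasVal (place1 H s) (b : κ) (br1 H s b) :=
  Classical.choose_spec (exists_place_of_hom' H (br1 H s)) b

theorem place2_val (s : (regAlg k (jb ^ (q + 1)) ⧸ H.cond) →ₐ[k] k)
    (b : regAlg k (jb ^ (q + 1))) : HasVal (place2 H s) (b : κ) (br2 H s b) :=
  Classical.choose_spec (exists_place_of_hom' H (br2 H s)) b

theorem eq_place1 {s : (regAlg k (jb ^ (q + 1)) ⧸ H.cond) →ₐ[k] k} {Q : Place k κ}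
    (h : ∀ b : regAlg k (jb ^ (q + 1)), HasVal Q (b : κ) (br1 H s b)) : Q = place1 H s :=
  place_eq_of_hasVal' H (place1_val H s) h

theorem eq_place2 {s : (regAlg k (jb ^ (q + 1)) ⧸ H.cond) →ₐ[k] k} {Q : Place k κ}
    (h : ∀ b : regAlg k (jb ^ (q + 1)), HasVal Q (b : κ) (br2 H s b)) : Q = place2 H s :=
  place_eq_of_hasVal' H (place2_val H s) h

theorem place2_flip (s : (regAlg k (jb ^ (q + 1)) ⧸ H.cond) →ₐ[k] k) :
    place2 H (flip H s) = place1 H s :=
  eq_place1 H fun b => by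
    have := place2_val H (flip H s) b
    rwa [br2_flip] at this

theorem place1_flip (s : (regAlg k (jb ^ (q + 1)) ⧸ H.cond) →ₐ[k] k) :
    place1 H (flip H s) = place2 H s :=
  eq_place2 H fun b => by
    have := place1_val H (flip H s) b
    rwa [br1_flip] at this

theorem place1_injective {s s' : (regAlg k (jb ^ (q + 1)) ⧸ H.cond) →ₐ[k] k}
    (h : place1 H s = place1 H s') : s = s' := by
  apply br1_injective
  apply AlgHom.ext
  intro b
  have h1 := place1_val H s b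
  rw [h] at h1
  exact h1.unique (place1_val H s' b)

theorem place2_injective {s s' : (regAlg k (jb ^ (q + 1)) ⧸ H.cond) →ₐ[k] k}
    (h : place2 H s = place2 H s') : s = s' := by
  apply br2_injective
  apply AlgHom.ext
  intro b
  have h1 := place2_val H s b
  rw [h] at h1
  exact h1.unique (place2_val H s' b)

/-- the nodes are not cusps -/
theorem place1_ord_jb (s : (regAlg k (jb ^ (q + 1)) ⧸ H.cond) →ₐ[k] k) :
    0 ≤ (place1 H s).ord jb := by
  have h1 : jb ∈ regAlg k (jb ^ (q + 1)) := by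
    rw [TwoLevel.regAlg_pow (Nat.succ_ne_zero q)]
    exact self_mem_regAlg _
  exact (place1_val H s ⟨jb, h1⟩).nonneg

/-- the nodes are not cusps -/
theorem place2_ord_jb (s : (regAlg k (jb ^ (q + 1)) ⧸ H.cond) →ₐ[k] k) :
    0 ≤ (place2 H s).ord jb := by
  rw [← place1_flip]
  exact place1_ord_jb H _

/-- **a criterion for nodes**: a place killed by the reduction of a function `D` without zeros on
the affine curve, which is not a unit along the second component -/
theorem exists_node_of_unit {Q : Place k κ} (hQ : 0 ≤ Q.ord jb)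
    (hpow : ∀ d : K, d ∈ A.nonunits → ∀ c : K, ∃ n : ℕ, d ^ n * c ∈ A)
    {D : F} {h : κ} (hD : R₁.IsRed D h) (hh : h ≠ 0) (hpos : 0 < Q.ord h) {c : K} (hc : c ≠ 0)
    (hreg : algebraMap K F c * D⁻¹ ∈ regAlg K (α j * w (α j)))
    (hO : algebraMap K F c * D⁻¹ ∈ R₂.O) : ∃ s, Q = place1 H s := by
  have hrg : regAlg k (jb ^ (q + 1)) = regAlg k jb := TwoLevel.regAlg_pow (Nat.succ_ne_zero q)
  have hQ' : 0 ≤ Q.ord (jb ^ (q + 1)) := by rw [ord_pow]; positivity
  obtain ⟨s, hs⟩ := exists_br1 H (evalHom hQ') fun b hb => by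
    by_contra hne
    have h1 := hasVal_evalHom hQ' b
    have h2 := h1.ord_eq_zero hne
    have hb0 : (b : κ) ≠ 0 := by
      intro h0
      rw [h0] at h1
      exact hne (h1.unique (hasVal_zero Q))
    obtain ⟨f, hf, hf1, hf2⟩ := TwoLevel.Glued.swap H (H.mem_cond.1 hb)
    have hf0 : f ≠ 0 := hf1.ne_zero hb0
    obtain ⟨a, ha, h3, h4⟩ := R₂.exists_scale f hf0
    have haK : algebraMap K F a ≠ 0 := by simpa using ha
    -- `a⁻¹` is in the maximal ideal
    have ha1 : a⁻¹ ∈ A := by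
      rw [← R₂.algebraMap_mem_iff]
      have h5 := mul_mem hf2.mem h4
      have e : f * (algebraMap K F a * f)⁻¹ = algebraMap K F a⁻¹ := by
        rw [map_inv₀]; field_simp
      rwa [e] at h5
    have ha2 : π ⟨a⁻¹, ha1⟩ = 0 := by
      have h5 := hf2.mul (R₂.isRed_rd h4)
      rw [zero_mul] at h5
      have e : f * (algebraMap K F a * f)⁻¹ = algebraMap K F a⁻¹ := by
        rw [map_inv₀]; field_simp
      rw [e] at h5
      have h6 := h5.unique (R₂.isRed_algebraMap ha1)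
      exact ((map_eq_zero_iff _ (algebraMap k κ).injective).1 h6.symm)
    have ha3 : a⁻¹ ∈ A.nonunits := by
      rw [ValuationSubring.mem_nonunits_iff_exists_mem_maximalIdeal]
      refine ⟨ha1, ?_⟩
      rw [IsLocalRing.mem_maximalIdeal, mem_nonunits_iff, ← R₂.pi_eq_zero_iff]
      exact ha2
    obtain ⟨n, hn⟩ := hpow _ ha3 c⁻¹
    have h5 : R₁.IsRed (f ^ n * D⁻¹) ((b : κ) ^ n * h⁻¹) := (hf1.pow n).mul (hD.inv hh)
    have hcK : algebraMap K F c ≠ 0 := by simpa using hc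
    have h6 : f ^ n * D⁻¹ ∈ R₂.O := by
      have h7 := mul_mem (mul_mem ((R₂.algebraMap_mem_iff _).2 hn) (pow_mem h3 n)) hO
      have e : algebraMap K F (a⁻¹ ^ n * c⁻¹) * (algebraMap K F a * f) ^ n *
          (algebraMap K F c * D⁻¹) = f ^ n * D⁻¹ := by
        have e1 : ((algebraMap K F a)⁻¹) ^ n * (algebraMap K F a) ^ n = 1 := by
          rw [← mul_pow, inv_mul_cancel₀ haK, one_pow]
        have e2 : (algebraMap K F c)⁻¹ * algebraMap K F c = 1 := inv_mul_cancel₀ hcK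
        rw [map_mul, map_pow, map_inv₀, map_inv₀, mul_pow]
        linear_combination ((algebraMap K F c)⁻¹ * f ^ n * algebraMap K F c * D⁻¹) * e1 +
          (f ^ n * D⁻¹) * e2
      rwa [e] at h7
    have h7 : f ^ n * D⁻¹ ∈ regAlg K (α j * w (α j)) := by
      have h8 := mul_mem (mul_mem (Subalgebra.algebraMap_mem (regAlg K (α j * w (α j))) c⁻¹)
        (pow_mem hf n)) hreg
      have e : algebraMap K F c⁻¹ * f ^ n * (algebraMap K F c * D⁻¹) = f ^ n * D⁻¹ := by
        rw [map_inv₀]; field_simp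
      rwa [e] at h8
    have h8 := H.twoRed.mem_regAlg1 h7 h5 h6
    have h9 := mem_regAlg_iff.1 h8 Q hQ'
    rw [Q.ord_mul (pow_ne_zero _ hb0) (inv_ne_zero hh), ord_pow, h2, Q.ord_inv] at h9
    omega
  refine ⟨s, eq_place1 H fun b => ?_⟩
  rw [hs]
  exact hasVal_evalHom hQ' b

end Places

end Abs

section Main

local notation "Qb" => AlgebraicClosure ℚ

variable {k : Type*} [Field k] {A : ValuationSubring Qb} {π : A →+* k} {M q : ℕ} [NeZero M]
  [NeZero q] [hqf : Fact q.Prime] {hA : A.LiesOverPrime q} {hπ : ∀ a : A, π a = 0 ↔ ¬ IsUnit a}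
  {hs : Function.Surjective π} {hM : ¬ q ∣ M}

variable [CharP k q] [PerfectRing k q] [IsAlgClosed k] [IsFnField k (modularFunctionFieldFullC k M)]
  [FiniteDimensional k⟮RedQ.xj k M⟯ (modularFunctionFieldFullC k M)]
  [Algebra.IsSeparable k⟮RedQ.xj k M⟯ (modularFunctionFieldFullC k M)]

local notation "𝓗" => twoLevel hA hπ hs hM

/-- **(N3)** the noncuspidal zeros of the Hasse function are nodes. -/
theorem exists_node_of_super {Q : Place k (modularFunctionFieldFullC k M)}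
    (hQ : 0 ≤ Q.ord (RedQ.xj k M)) {h : modularFunctionFieldFullC k M}
    (hh : (h : LaurentSeries k) * (Igusa.deltaC k) ^ (q - 1) = 1) (hpos : 0 < Q.ord h) :
    ∃ s, Q = place1 𝓗 s := by
  obtain ⟨h', hh', hh1⟩ := Fermat.Agent.QComp.exists_hasse M hA hπ hs hM
  have h1 : h = h' := by
    apply Subtype.ext
    exact mul_right_cancel₀ (pow_ne_zero _ (Igusa.deltaC_ne_zero k)) (hh.trans hh'.symm)
  subst h1
  have hne : h ≠ 0 := by
    rintro rfl
    simp at hh
  have hd1reg : d1 M q ∈ regAlg Qb (al1 M q (jB M) *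
      (w1 hqf.out hM : FB (M * q) →ₐ[Qb] FB (M * q)) (al1 M q (jB M))) := by
    rw [(𝓗).regAlg_eq, al1_jB]
    exact mem_regAlg_of_isIntegral isInt_d1
  have hw : algebraMap Qb (FB (M * q)) ((q : Qb) ^ 12) * (d1 M q)⁻¹ =
      (w1 hqf.out hM : FB (M * q) →ₐ[Qb] FB (M * q)) (d1 M q) := (w1_d1 hM).symm
  have hq0 : ((q : Qb) ^ 12) ≠ 0 := pow_ne_zero _ (by exact_mod_cast hqf.out.ne_zero)
  refine exists_node_of_unit 𝓗 hQ (fun d hd c => ?_) hh1 hne hpos hq0 ?_ ?_
  · obtain ⟨N, hN⟩ := exists_pow_mul_mem hA hd c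
    exact ⟨N, ValuationSubring.nonunits_subset (hN N le_rfl)⟩
  · rw [hw]
    obtain ⟨m, hm⟩ := exists_mem_Lm hd1reg
    exact mem_regAlg_of_mem_Lm ((𝓗).w_mem hm)
  · rw [hw]
    exact ((𝓗).swap.2 hh1).mem

/-- **Regular parameters at the nodes.** -/
theorem nodeData (hr : ∃ r : ℕ, r.Prime ∧ r ∣ M ∧ r % 12 = 11)
    (s : (regAlg k (RedQ.xj k M ^ (q + 1)) ⧸ (𝓗).cond) →ₐ[k] k) :
    ∃ z y u z₁ y₂ u₁ u₂, NodeData 𝓗 s (IFix A) (q : Qb) (place1 𝓗 s) (place2 𝓗 s)
      z y u z₁ y₂ u₁ u₂ := by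
  obtain ⟨Q₁, Q₂, z, y, u, z₁, y₂, u₁, u₂, hN, -⟩ := exists_nodeData hr s
  have h1 := eq_place1 𝓗 hN.val1
  have h2 := eq_place2 𝓗 hN.val2
  subst h1 h2
  exact ⟨_, _, _, _, _, _, _, hN⟩

/-- **(N2)** the order of the Hasse function at the nodes -/
theorem ord_hasse_place1 (hr : ∃ r : ℕ, r.Prime ∧ r ∣ M ∧ r % 12 = 11)
    (s : (regAlg k (RedQ.xj k M ^ (q + 1)) ⧸ (𝓗).cond) →ₐ[k] k)
    {h : modularFunctionFieldFullC k M}
    (hh : (h : LaurentSeries k) * (Igusa.deltaC k) ^ (q - 1) = 1) :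
    (place1 𝓗 s).ord h = 12 := by
  obtain ⟨Q₁, Q₂, z, y, u, z₁, y₂, u₁, u₂, hN, h12⟩ := exists_nodeData hr s
  have h1 := eq_place1 𝓗 hN.val1
  subst h1
  exact h12 h hh

/-- **(N2)** the order of the Hasse function at the nodes -/
theorem ord_hasse_place2 (hr : ∃ r : ℕ, r.Prime ∧ r ∣ M ∧ r % 12 = 11)
    (s : (regAlg k (RedQ.xj k M ^ (q + 1)) ⧸ (𝓗).cond) →ₐ[k] k)
    {h : modularFunctionFieldFullC k M}
    (hh : (h : LaurentSeries k) * (Igusa.deltaC k) ^ (q - 1) = 1) :
    (place2 𝓗 s).ord h = 12 := by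
  rw [← place1_flip]
  exact ord_hasse_place1 hr _ hh

/-- the Hasse function has order `12` at its noncuspidal zeros -/
theorem ord_hasse_eq (hr : ∃ r : ℕ, r.Prime ∧ r ∣ M ∧ r % 12 = 11)
    (hA : A.LiesOverPrime q) (hπ : ∀ a : A, π a = 0 ↔ ¬ IsUnit a)
    (hs : Function.Surjective π) (hM : ¬ q ∣ M)
    {Q : Place k (modularFunctionFieldFullC k M)}
    (hQ : 0 ≤ Q.ord (RedQ.xj k M)) {h : modularFunctionFieldFullC k M}
    (hh : (h : LaurentSeries k) * (Igusa.deltaC k) ^ (q - 1) = 1) (hpos : 0 < Q.ord h) :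
    Q.ord h = 12 := by
  obtain ⟨s, rfl⟩ := exists_node_of_super (hA := hA) (hπ := hπ) (hs := hs) (hM := hM) hQ hh hpos
  exact ord_hasse_place1 hr s hh

end Main

end Fermat.Agent.Node
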